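import Mathlib
import Fermat.Agent.S54.Frobenius

set_option autoImplicit false

namespace Fermat.Agent.S13

open scoped Pointwise

section Abstract

variable {C B G : Type*} [CommRing C] [CommRing B] [Algebra C B] [Group G]
  [MulSemiringAction G B]

/-- Lifting of inertia elements: if `σ` acts on the subring `C = B ^ N` as an element of the
inertia group of `Q ∩ C`, some translate `n * σ` with `n ∈ N` is in the inertia group of `Q`. -/
theorem exists_mul_mem_inertia (N : Subgroup G) [SMulCommClass N C B] [Algebra.IsInvariant C B N]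
    [TopologicalSpace N] [CompactSpace N] [TotallyDisconnectedSpace N] [IsTopologicalGroup N]
    [TopologicalSpace B] [DiscreteTopology B] [ContinuousSMul N B]
    (Q : Ideal B) [Q.IsPrime] (σ : G)
    (hσ : ∀ c : C, σ • algebraMap C B c - algebraMap C B c ∈ Q)
    (hσ' : ∀ c : C, ∃ c' : C, σ • algebraMap C B c' = algebraMap C B c) :
    ∃ n ∈ N, n * σ ∈ Q.inertia G := by
  -- Step 1
  have h1 : (σ • Q).under C = Q.under C := by
    ext c
    obtain ⟨c', hc'⟩ := hσ' c
    rw [Ideal.mem_comap, Ideal.mem_comap, ← hc', Ideal.smul_mem_pointwise_smul_iff]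
    have := hσ c'
    constructor
    · intro h
      have h2 := Q.add_mem this h
      rwa [sub_add_cancel] at h2
    · intro h
      have h2 := Q.sub_mem h this
      rwa [sub_sub_cancel] at h2
  obtain ⟨n₁, hn₁⟩ := Algebra.IsInvariant.exists_smul_of_under_eq_of_profinite (A := C) (G := N)
    (σ • Q) Q h1
  -- Step 2
  set σ₁ : G := (n₁ : G) * σ with hσ₁
  have hQ : σ₁ • Q = Q := by
    rw [hσ₁, mul_smul]; exact hn₁.symm
  have hσ₁C : ∀ c : C, σ₁ • algebraMap C B c - algebraMap C B c ∈ Q := by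
    intro c
    have h2 : σ₁ • algebraMap C B c - algebraMap C B c =
        n₁ • (σ • algebraMap C B c - algebraMap C B c) := by
      rw [smul_sub, smul_algebraMap n₁, hσ₁, mul_smul]; rfl
    rw [h2, hn₁, Ideal.smul_mem_pointwise_smul_iff]
    obtain ⟨c', hc'⟩ := hσ' c
    rw [← hc', ← smul_sub, Ideal.smul_mem_pointwise_smul_iff]
    exact hσ c'
  let e : (B ⧸ Q) ≃ₐ[C ⧸ Q.under C] (B ⧸ Q) :=
    { Ideal.quotientEquiv Q Q (MulSemiringAction.toRingEquiv G B σ₁) hQ.symm with
      commutes' := by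
        rintro ⟨c⟩
        exact (Ideal.Quotient.eq).mpr (hσ₁C c) }
  obtain ⟨n₂, hn₂⟩ := Ideal.Quotient.stabilizerHom_surjective_of_profinite (G := N)
    (Q.under C) Q e
  refine ⟨(n₂.1 : G)⁻¹ * n₁, N.mul_mem (N.inv_mem n₂.1.2) n₁.2, ?_⟩
  intro b
  have h3 := DFunLike.congr_fun hn₂ (Ideal.Quotient.mk Q b)
  rw [Ideal.Quotient.stabilizerHom_apply] at h3
  have h4 : (n₂.1 : G) • b - σ₁ • b ∈ Q := (Ideal.Quotient.eq).mp h3
  have h5 : (n₂.1 : G)⁻¹ • Q = Q := by
    rw [inv_smul_eq_iff]; exact n₂.2.symm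
  have h6 : ((n₂.1 : G)⁻¹ * n₁ * σ) • b - b = - ((n₂.1 : G)⁻¹ • ((n₂.1 : G) • b - σ₁ • b)) := by
    rw [smul_sub, inv_smul_smul, hσ₁, mul_assoc, mul_smul, neg_sub]
  rw [h6]
  refine Q.neg_mem ?_
  have h7 := (Ideal.smul_mem_pointwise_smul_iff (a := (n₂.1 : G)⁻¹)).mpr h4
  rwa [h5] at h7

theorem bijective_of_inertia_trivial {C Γ : Type*} [CommRing C] [IsDomain C] [CharZero C]
    [Module.Finite ℤ C] [Group Γ] [Finite Γ] [MulSemiringAction Γ C] [IsGaloisGroup Γ ℤ C]
    (h : ∀ p : ℕ, p.Prime → ∃ P : Ideal C, P.IsPrime ∧ (p : C) ∈ P ∧ P.inertia Γ = ⊥) :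
    Function.Bijective (algebraMap ℤ C) := by
  have key : ∀ (P : Ideal C) [P.IsPrime], Algebra.IsUnramifiedAt ℤ P := by
    intro P _
    rw [← Ideal.ramificationIdx_eq_one_iff,
      ← Ideal.ramificationIdxIn_eq_ramificationIdx (P.under ℤ) P Γ]
    by_cases hp : P.under ℤ = ⊥
    · have hP : P = ⊥ := Ideal.eq_bot_of_comap_eq_bot hp
      rw [← Ideal.card_inertia_eq_ramificationIdxIn (G := Γ) (P.under ℤ) P]
      have hI : P.inertia Γ = ⊥ := by
        rw [eq_bot_iff]
        intro γ hγ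
        have := IsGaloisGroup.faithful (G := Γ) (A := ℤ) (B := C)
        rw [Subgroup.mem_bot]
        apply eq_of_smul_eq_smul (α := C)
        intro c
        have h1 := hγ c
        rw [hP] at h1
        rw [one_smul]
        exact sub_eq_zero.mp h1
      rw [hI]
      simp
    · obtain ⟨q, hq : _ = Ideal.span _⟩ := IsPrincipalIdealRing.principal (P.under ℤ)
      have hq0 : q ≠ 0 := by
        rintro rfl
        apply hp
        rw [hq]; simp
      have hqp : Prime q := by
        rw [← Ideal.span_singleton_prime hq0, ← hq]; infer_instance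
      obtain ⟨P', hP', hqP', hI⟩ := h q.natAbs (Int.prime_iff_natAbs_prime.mp hqp)
      have hqP'' : (q : C) ∈ P' := P'.mem_of_dvd
        (map_dvd (algebraMap ℤ C) q.associated_natAbs.symm.dvd) (by simpa using hqP')
      have : P'.LiesOver (P.under ℤ) := by
        rw [hq]
        exact (Ideal.liesOver_span_iff Ideal.IsPrime.ne_top' hqp).mpr hqP''
      rw [← Ideal.card_inertia_eq_ramificationIdxIn (G := Γ) (P.under ℤ) P', hI]
      simp
  have h1 : Algebra.FormallyUnramified ℤ C :=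
    Algebra.unramifiedLocus_eq_univ_iff.mp (Set.eq_univ_of_forall fun P => key P.asIdeal)
  have h2 : Algebra.Unramified ℤ C := ⟨inferInstance, inferInstance⟩
  exact bijective_algebraMap_int_of_finite_of_unramified

theorem eq_top_of_inertia_le_abstract
    {B G : Type*} [CommRing B] [IsDomain B] [CharZero B] [Group G] [MulSemiringAction G B]
    [Algebra.IsInvariant ℤ B G]
    [TopologicalSpace G] [CompactSpace G] [TotallyDisconnectedSpace G] [IsTopologicalGroup G]
    [TopologicalSpace B] [DiscreteTopology B] [ContinuousSMul G B]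
    (H : Subgroup G) [H.Normal] (hH : IsOpen (H : Set G))
    (hfaith : ∀ σ : G, (∀ b : B, (∀ h ∈ H, h • b = b) → σ • b = b) → σ ∈ H)
    (hfin : Module.Finite ℤ (FixedPoints.subalgebra ℤ B H))
    (hin : ∀ p : ℕ, p.Prime → ∃ Q : Ideal B, Q.IsPrime ∧ (p : B) ∈ Q ∧ Q.inertia G ≤ H) :
    H = ⊤ := by
  have hfinΓ : Finite (G ⧸ H) := Subgroup.quotient_finite_of_isOpen H hH
  have hcpt : CompactSpace H := isCompact_iff_compactSpace.mp (H.isClosed_of_isOpen hH).isCompact
  have hfaithΓ : FaithfulSMul (G ⧸ H) (FixedPoints.subalgebra ℤ B H) := by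
    refine ⟨fun {γ₁ γ₂} h => ?_⟩
    obtain ⟨σ₁, rfl⟩ := QuotientGroup.mk_surjective γ₁
    obtain ⟨σ₂, rfl⟩ := QuotientGroup.mk_surjective γ₂
    rw [QuotientGroup.eq]
    apply hfaith
    intro b hb
    have := congrArg Subtype.val (h ⟨b, fun h => hb h.1 h.2⟩)
    rw [mul_smul, inv_smul_eq_iff]
    exact this.symm
  have hgal : IsGaloisGroup (G ⧸ H) ℤ (FixedPoints.subalgebra ℤ B H) :=
    ⟨hfaithΓ, inferInstance, inferInstance⟩
  have hinv : Algebra.IsInvariant (FixedPoints.subalgebra ℤ B H) B H :=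
    ⟨fun x h ↦ ⟨⟨x, h⟩, rfl⟩⟩
  have hbij := bijective_of_inertia_trivial (C := FixedPoints.subalgebra ℤ B H) (Γ := G ⧸ H) (by
    intro p hp
    obtain ⟨Q, hQ, hpQ, hI⟩ := hin p hp
    refine ⟨Q.under _, inferInstance, ?_, ?_⟩
    · rw [Ideal.mem_comap]
      simpa using hpQ
    · rw [eq_bot_iff]
      intro γ hγ
      obtain ⟨σ, rfl⟩ := QuotientGroup.mk_surjective γ
      obtain ⟨n, hn, hnσ⟩ := exists_mul_mem_inertia (C := FixedPoints.subalgebra ℤ B H) H Q σ
        (fun c => hγ c)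
        (fun c => ⟨(QuotientGroup.mk σ : G ⧸ H)⁻¹ • c,
          congrArg Subtype.val (smul_inv_smul (QuotientGroup.mk σ : G ⧸ H) c)⟩)
      have h1 := hI hnσ
      have h2 : σ ∈ H := (Subgroup.mul_mem_cancel_left H hn).mp h1
      rw [Subgroup.mem_bot]
      exact (QuotientGroup.eq_one_iff σ).mpr h2)
  rw [eq_top_iff]
  intro σ _
  apply hfaith
  intro b hb
  obtain ⟨n, hn⟩ := hbij.2 ⟨b, fun h => hb h.1 h.2⟩
  have h1 : b = algebraMap ℤ B n := (congrArg Subtype.val hn).symm
  rw [h1, smul_algebraMap]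

theorem eq_top_of_inertia_le_abstract'
    {B G : Type*} [CommRing B] [IsDomain B] [CharZero B] [Group G] [MulSemiringAction G B]
    [inst : Algebra ℤ B] [@SMulCommClass G ℤ B _ inst.toSMul] [Algebra.IsInvariant ℤ B G]
    [TopologicalSpace G] [CompactSpace G] [TotallyDisconnectedSpace G] [IsTopologicalGroup G]
    [TopologicalSpace B] [DiscreteTopology B] [ContinuousSMul G B]
    (H : Subgroup G) [H.Normal] (hH : IsOpen (H : Set G))
    (hfaith : ∀ σ : G, (∀ b : B, (∀ h ∈ H, h • b = b) → σ • b = b) → σ ∈ H)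
    (hfin : Module.Finite ℤ (FixedPoints.subalgebra ℤ B H))
    (hin : ∀ p : ℕ, p.Prime → ∃ Q : Ideal B, Q.IsPrime ∧ (p : B) ∈ Q ∧ Q.inertia G ≤ H) :
    H = ⊤ := by
  obtain rfl : inst = Ring.toIntAlgebra B := Subsingleton.elim _ _
  exact eq_top_of_inertia_le_abstract H hH hfaith hfin hin

end Abstract

section Translate

open Fermat.Agent.S54

/-- The inertia group of the centre of `A` on the ring of all algebraic integers is contained
in the inertia group of `A`. -/
theorem inertia_centre_le {ℓ : ℕ} (hℓ : ℓ.Prime)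
    {A : ValuationSubring (AlgebraicClosure ℚ)} (hA : A.LiesOverPrime ℓ) :
    (centre A).inertia (AlgebraicClosure ℚ ≃ₐ[ℚ] AlgebraicClosure ℚ) ≤ A.inertiaSubgroupIn ℚ := by
  intro σ hσ
  have hstab : σ • centre A = centre A := Ideal.inertia_le_stabilizer _ hσ
  have hD := mem_decompositionSubgroup_of_smul_centre hℓ hA hstab
  refine ⟨⟨σ, hD⟩, ?_, rfl⟩
  show (⟨σ, hD⟩ : A.decompositionSubgroup ℚ) ∈ A.inertiaSubgroup ℚ
  rw [ValuationSubring.inertiaSubgroup, MonoidHom.mem_ker]
  ext x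
  show (⟨σ, hD⟩ : A.decompositionSubgroup ℚ) • x = x
  have key : ∀ c : integralClosure ℤ (AlgebraicClosure ℚ),
      (⟨σ, hD⟩ : A.decompositionSubgroup ℚ) • IsLocalRing.residue A (inclHom A c) =
        IsLocalRing.residue A (inclHom A c) := by
    intro c
    rw [← IsLocalRing.ResidueField.residue_smul, ← sub_eq_zero, ← map_sub,
      IsLocalRing.residue_eq_zero_iff]
    have h1 : (⟨σ, hD⟩ : A.decompositionSubgroup ℚ) • inclHom A c - inclHom A c =
        inclHom A (σ • c - c) := by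
      rw [map_sub]; rfl
    rw [h1]
    exact hσ c
  obtain ⟨a, rfl⟩ := IsLocalRing.residue_surjective x
  obtain ⟨b, s, hs, h⟩ := exists_fraction_of_mem hℓ hA a.2
  have h1 : a * inclHom A s = inclHom A b := Subtype.ext h
  have h2 : IsLocalRing.residue A a * IsLocalRing.residue A (inclHom A s) =
      IsLocalRing.residue A (inclHom A b) := by rw [← map_mul, h1]
  have hs0 : IsLocalRing.residue A (inclHom A s) ≠ 0 := by
    rw [Ne, IsLocalRing.residue_eq_zero_iff]
    exact hs
  have h3 := congrArg (fun y => (⟨σ, hD⟩ : A.decompositionSubgroup ℚ) • y) h2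
  simp only [smul_mul', key] at h3
  rw [← h2] at h3
  exact mul_right_cancel₀ hs0 h3

end Translate

section Main

open Fermat.Agent.S54

local notation "Qbar" => AlgebraicClosure ℚ
local notation "GQ" => (AlgebraicClosure ℚ ≃ₐ[ℚ] AlgebraicClosure ℚ)
local notation "Zbar" => integralClosure ℤ (AlgebraicClosure ℚ)

theorem mem_of_fixes_integers (H : Subgroup GQ) (hH : IsClosed (H : Set GQ)) (σ : GQ)
    (hσ : ∀ b : Zbar, (∀ h ∈ H, h • b = b) → σ • b = b) : σ ∈ H := by
  have h1 := InfiniteGalois.fixingSubgroup_fixedField (k := ℚ) (K := Qbar) ⟨H, hH⟩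
  have h2 : σ ∈ (IntermediateField.fixedField H).fixingSubgroup := by
    rw [IntermediateField.mem_fixingSubgroup_iff]
    intro x hx
    have halg : IsAlgebraic ℤ x :=
      (IsFractionRing.isAlgebraic_iff ℤ ℚ (AlgebraicClosure ℚ)).mpr
        (Algebra.IsAlgebraic.isAlgebraic x)
    obtain ⟨n, hn, hint⟩ := halg.exists_integral_multiple
    have h3 := hσ ⟨n • x, hint⟩ (by
      intro h hh
      apply Subtype.ext
      rw [integralClosure.coe_smul]
      show h • (n • x) = n • x
      rw [smul_comm]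
      congr 1
      exact hx ⟨h, hh⟩)
    have h4 : σ • (n • x) = n • x := congrArg Subtype.val h3
    rw [smul_comm] at h4
    exact smul_right_injective _ hn h4
  rw [h1] at h2
  exact h2

theorem finite_fixedPoints (H : Subgroup GQ) (L : IntermediateField ℚ Qbar)
    [FiniteDimensional ℚ L] (hL : L.fixingSubgroup ≤ H) :
    Module.Finite ℤ (FixedPoints.subalgebra ℤ Zbar H) := by
  have h1 : Module.Finite ℤ (integralClosure ℤ L) :=
    IsIntegralClosure.finite ℤ ℚ L (integralClosure ℤ L)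
  have hmem : ∀ c : FixedPoints.subalgebra ℤ Zbar H, (c.1.1 : Qbar) ∈ L := by
    intro c
    rw [← InfiniteGalois.fixedField_fixingSubgroup L]
    intro h
    exact congrArg Subtype.val (c.2 ⟨h.1, hL h.2⟩)
  have hint : ∀ c : FixedPoints.subalgebra ℤ Zbar H, IsIntegral ℤ (⟨c.1.1, hmem c⟩ : L) := by
    intro c
    rw [← isIntegral_algebraMap_iff (algebraMap L Qbar).injective]
    exact c.1.2
  let f : FixedPoints.subalgebra ℤ Zbar H →ₗ[ℤ] integralClosure ℤ L :=
    { toFun := fun c => ⟨⟨c.1.1, hmem c⟩, hint c⟩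
      map_add' := fun _ _ => rfl
      map_smul' := fun _ _ => rfl }
  refine Module.Finite.of_injective f ?_
  intro c c' h
  apply Subtype.ext
  apply Subtype.ext
  exact congrArg (fun z => (z.1.1 : Qbar)) h

/-- **Minkowski**: a normal open subgroup of `Gal(ℚ̄/ℚ)` containing, for each prime `ℓ`, the
inertia group of one place above `ℓ`, is everything. -/
theorem eq_top_of_inertia_le (H : Subgroup GQ) [H.Normal]
    (hopen : ∃ L : IntermediateField ℚ Qbar, FiniteDimensional ℚ L ∧ L.fixingSubgroup ≤ H)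
    (hin : ∀ ℓ : ℕ, ℓ.Prime → ∃ A : ValuationSubring Qbar,
      A.LiesOverPrime ℓ ∧ A.inertiaSubgroupIn ℚ ≤ H) : H = ⊤ := by
  obtain ⟨L, hLfin, hL⟩ := hopen
  have hH : IsOpen (H : Set GQ) := Subgroup.isOpen_mono hL L.fixingSubgroup_isOpen
  let : TopologicalSpace Zbar := ⊥
  have : DiscreteTopology Zbar := ⟨rfl⟩
  have : ContinuousSMul GQ Zbar := by
    refine continuousSMul_iff_stabilizer_isOpen.mpr (fun x => ?_)
    convert stabilizer_isOpen_of_isIntegral (K := ℚ) (x : AlgebraicClosure ℚ) using 2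
    ext g
    simp [MulAction.mem_stabilizer_iff, Subtype.ext_iff]
  refine eq_top_of_inertia_le_abstract' (B := Zbar) H hH
    (mem_of_fixes_integers H (H.isClosed_of_isOpen hH)) (finite_fixedPoints H L hL) ?_
  intro p hp
  obtain ⟨A, hA, hI⟩ := hin p hp
  refine ⟨centre A, inferInstance, ?_, (inertia_centre_le hp hA).trans hI⟩
  rw [mem_centre_iff]
  have := A.mem_nonunits_iff.mp hA
  simpa using this

/-- Version for group homomorphisms. -/
theorem hom_eq_one_of_unramified {M : Type*} [Group M] (χ : GQ →* M)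
    (hopen : ∃ L : IntermediateField ℚ Qbar, FiniteDimensional ℚ L ∧
      ∀ σ : GQ, (∀ x ∈ L, σ x = x) → χ σ = 1)
    (hin : ∀ ℓ : ℕ, ℓ.Prime → ∃ A : ValuationSubring Qbar,
      A.LiesOverPrime ℓ ∧ ∀ σ ∈ A.inertiaSubgroupIn ℚ, χ σ = 1) (σ : GQ) : χ σ = 1 := by
  have h : χ.ker = ⊤ := by
    apply eq_top_of_inertia_le
    · obtain ⟨L, hL, h⟩ := hopen
      refine ⟨L, hL, fun σ hσ => ?_⟩
      rw [MonoidHom.mem_ker]
      apply h
      intro x hx
      exact (IntermediateField.mem_fixingSubgroup_iff _ _).mp hσ x hx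
    · intro ℓ hℓ
      obtain ⟨A, hA, h⟩ := hin ℓ hℓ
      exact ⟨A, hA, fun σ hσ => MonoidHom.mem_ker.mpr (h σ hσ)⟩
  have : σ ∈ χ.ker := by rw [h]; trivial
  exact MonoidHom.mem_ker.mp this

/-- Every prime has a place of `ℚ̄` above it (interface name for the assembly). -/
theorem exists_place (q : ℕ) (hq : q.Prime) :
    ∃ A : ValuationSubring Qbar, A.LiesOverPrime q :=
  exists_liesOverPrime hq

end Main

end Fermat.Agent.S13
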