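import Fermat.Agent.S13.Basic

set_option autoImplicit false

namespace Fermat.Agent.S13

lemma exists_pair_span {k V : Type*} [Field k] [AddCommGroup V] [Module k V]
    [FiniteDimensional k V] (hV : Module.finrank k V ≤ 2)
    (N : Submodule k V) (hbot : N ≠ ⊥) (htop : N ≠ ⊤) :
    ∃ e x₀ : V, e ∈ N ∧ e ≠ 0 ∧ x₀ ∉ N ∧ (∀ v : V, ∃ a b : k, a • e + b • x₀ = v) ∧
      (∀ n ∈ N, ∃ a : k, n = a • e) := by
  obtain ⟨e, heN, he0⟩ := Submodule.exists_mem_ne_zero_of_ne_bot hbot
  obtain ⟨x₀, hx₀⟩ : ∃ x₀ : V, x₀ ∉ N := by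
    by_contra h
    exact htop (Submodule.eq_top_iff'.2 fun x => by
      by_contra hx
      exact h ⟨x, hx⟩)
  have hli : LinearIndependent k ![e, x₀] := by
    rw [LinearIndependent.pair_iff]
    intro s t hst
    have ht : t = 0 := by
      by_contra ht
      apply hx₀
      have : x₀ = (-(t⁻¹ * s)) • e := by
        have h1 : t • x₀ = -(s • e) := by
          rw [eq_neg_iff_add_eq_zero, add_comm]; exact hst
        calc x₀ = t⁻¹ • (t • x₀) := by rw [smul_smul, inv_mul_cancel₀ ht, one_smul]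
          _ = (-(t⁻¹ * s)) • e := by rw [h1, smul_neg, smul_smul, neg_smul]
      rw [this]
      exact N.smul_mem _ heN
    subst ht
    rw [zero_smul, add_zero] at hst
    exact ⟨(smul_eq_zero.1 hst).resolve_right he0, rfl⟩
  have hcard : Fintype.card (Fin 2) = Module.finrank k V := by
    have := hli.fintype_card_le_finrank
    simp only [Fintype.card_fin] at this ⊢
    omega
  have hspan := hli.span_eq_top_of_card_eq_finrank' hcard
  have hall : ∀ v : V, ∃ a b : k, a • e + b • x₀ = v := by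
    intro v
    have hv : v ∈ Submodule.span k (Set.range ![e, x₀]) := by rw [hspan]; trivial
    have hr : Set.range ![e, x₀] = {e, x₀} := by
      ext z; simp [eq_comm, or_comm]
    rw [hr, Submodule.mem_span_pair] at hv
    exact hv
  refine ⟨e, x₀, heN, he0, hx₀, hall, ?_⟩
  intro n hn
  obtain ⟨a, b, hab⟩ := hall n
  have hb : b = 0 := by
    by_contra hb
    apply hx₀
    have h1 : b • x₀ = n - a • e := by rw [← hab]; abel
    have : x₀ = b⁻¹ • (n - a • e) := by rw [← h1, smul_smul, inv_mul_cancel₀ hb, one_smul]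
    rw [this]
    exact N.smul_mem _ (N.sub_mem hn (N.smul_mem _ heN))
  subst hb
  rw [zero_smul, add_zero] at hab
  exact ⟨a, hab.symm⟩

lemma nilpotent_line {k V : Type*} [Field k] [AddCommGroup V] [Module k V]
    [FiniteDimensional k V] (hV : Module.finrank k V ≤ 2)
    (N : Submodule k V) (hbot : N ≠ ⊥) (htop : N ≠ ⊤) (g : V →ₗ[k] V)
    (hgN : ∀ x ∈ N, g x ∈ N) (hg2 : ∀ x, g (g x) = 0) :
    (∀ x ∈ N, g x = 0) ∧ (∀ x, g x ∈ N) := by
  obtain ⟨e, x₀, heN, he0, hx₀, hall, hNe⟩ := exists_pair_span hV N hbot htop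
  have hge : g e = 0 := by
    obtain ⟨a, ha⟩ := hNe (g e) (hgN e heN)
    have h2 := hg2 e
    rw [ha, map_smul, ha, smul_smul] at h2
    have ha0 : a * a = 0 := (smul_eq_zero.1 h2).resolve_right he0
    have : a = 0 := by simpa using ha0
    rw [ha, this, zero_smul]
  have hgN0 : ∀ x ∈ N, g x = 0 := by
    intro x hx
    obtain ⟨a, rfl⟩ := hNe x hx
    rw [map_smul, hge, smul_zero]
  refine ⟨hgN0, ?_⟩
  have hgx : g x₀ ∈ N := by
    obtain ⟨a, b, hab⟩ := hall (g x₀)
    have h2 := hg2 x₀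
    rw [← hab, map_add, map_smul, map_smul, hge, smul_zero, zero_add] at h2
    rcases smul_eq_zero.1 h2 with hb | hb
    · rw [← hab, hb, zero_smul, add_zero]; exact N.smul_mem _ heN
    · rw [hb]; exact N.zero_mem
  intro v
  obtain ⟨a, b, rfl⟩ := hall v
  rw [map_add, map_smul, map_smul, hge, smul_zero, zero_add]
  exact N.smul_mem _ hgx


open WeierstrassCurve WeierstrassCurve.Affine WeierstrassCurve.Affine.Point
open FreyPackage
open Fermat.Agent.S05 (xc yc)

variable (P : FreyPackage)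

instance factPrime : Fact P.p.Prime := ⟨P.pp⟩

/-- the Galois action as a `ZMod p`-linear map -/
noncomputable def rhoLin (σ : Gl) : Tors P →ₗ[ZMod P.p] Tors P :=
  (DistribSMul.toAddMonoidHom (Tors P) σ).toZModLinearMap P.p

@[simp] lemma rhoLin_apply (σ : Gl) (x : Tors P) : rhoLin P σ x = σ • x := rfl

lemma xc_smul (σ : Gl) (Q : (EK P).Point) : xc (σ • Q) = σ (xc Q) := by
  cases Q with
  | zero => exact (map_zero σ).symm
  | some x y h => rfl

lemma yc_smul (σ : Gl) (Q : (EK P).Point) : yc (σ • Q) = σ (yc Q) := by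
  cases Q with
  | zero => exact (map_zero σ).symm
  | some x y h => rfl

lemma smul_eq_self_of_fix (σ : Gl) (Q : (EK P).Point) (hx : σ (xc Q) = xc Q)
    (hy : σ (yc Q) = yc Q) : σ • Q = Q := by
  cases Q with
  | zero => rfl
  | some x y h =>
    simp only [Fermat.Agent.S05.xc_some, Fermat.Agent.S05.yc_some] at hx hy
    rw [algEquiv_smul_def]
    simp only [Point.map_some]
    congr 1


variable {P}

/-- pointwise stabiliser of `N` -/
def H1 (N : Submodule (ZMod P.p) (Tors P)) : Subgroup Gl where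
  carrier := {σ | ∀ x ∈ N, σ • x = x}
  one_mem' := fun x _ => one_smul _ x
  mul_mem' := fun {a b} ha hb x hx => by rw [mul_smul, hb x hx, ha x hx]
  inv_mem' := fun {a} ha x hx => by rw [inv_smul_eq_iff, ha x hx]

lemma mem_H1 {N : Submodule (ZMod P.p) (Tors P)} {σ : Gl} :
    σ ∈ H1 N ↔ ∀ x ∈ N, σ • x = x := Iff.rfl

lemma H1_normal {N : Submodule (ZMod P.p) (Tors P)} (hN : IsGaloisStable ℚ N) :
    (H1 N).Normal := by
  refine ⟨fun n hn g x hx => ?_⟩
  rw [mul_smul, mul_smul, hn _ (hN g⁻¹ x hx), smul_inv_smul]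

/-- elements acting trivially on the quotient by `N` -/
def H2 (N : Submodule (ZMod P.p) (Tors P)) (hN : IsGaloisStable ℚ N) : Subgroup Gl where
  carrier := {σ | ∀ x, σ • x - x ∈ N}
  one_mem' := fun x => by rw [one_smul, sub_self]; exact N.zero_mem
  mul_mem' := fun {a b} ha hb x => by
    have h1 : (a * b) • x - x = a • (b • x - x) + (a • x - x) := by
      rw [mul_smul, smul_sub]; abel
    rw [h1]
    exact N.add_mem (hN a _ (hb x)) (ha x)
  inv_mem' := fun {a} ha x => by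
    have h1 : a⁻¹ • x - x = - (a⁻¹ • (a • x - x)) := by
      rw [smul_sub, inv_smul_smul]; abel
    rw [h1]
    exact N.neg_mem (hN a⁻¹ _ (ha x))

lemma mem_H2 {N : Submodule (ZMod P.p) (Tors P)} {hN : IsGaloisStable ℚ N} {σ : Gl} :
    σ ∈ H2 N hN ↔ ∀ x, σ • x - x ∈ N := Iff.rfl

lemma H2_normal {N : Submodule (ZMod P.p) (Tors P)} (hN : IsGaloisStable ℚ N) :
    (H2 N hN).Normal := by
  refine ⟨fun n hn g x => ?_⟩
  have h1 : (g * n * g⁻¹) • x - x = g • (n • (g⁻¹ • x) - g⁻¹ • x) := by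
    rw [mul_smul, mul_smul, smul_sub, smul_inv_smul]
  rw [h1]
  exact hN g _ (hn _)

lemma exists_level (hfin : Finite (Tors P)) :
    ∃ L : IntermediateField ℚ Kb, FiniteDimensional ℚ L ∧
      ∀ σ ∈ L.fixingSubgroup, ∀ x : Tors P, σ • x = x := by
  let S : Set Kb := (Set.range fun x : Tors P => xc (x : (EK P).Point)) ∪
    (Set.range fun x : Tors P => yc (x : (EK P).Point))
  have hS : S.Finite := (Set.finite_range _).union (Set.finite_range _)
  have : Finite S := hS
  refine ⟨IntermediateField.adjoin ℚ S,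
    IntermediateField.finiteDimensional_adjoin fun x _ => (AlgebraicClosure.isAlgebraic ℚ).isIntegral.isIntegral x, ?_⟩
  intro σ hσ x
  rw [IntermediateField.mem_fixingSubgroup_iff] at hσ
  apply Subtype.ext
  apply smul_eq_self_of_fix P σ (x : (EK P).Point)
  · exact hσ _ (IntermediateField.subset_adjoin ℚ S (Or.inl ⟨x, rfl⟩))
  · exact hσ _ (IntermediateField.subset_adjoin ℚ S (Or.inr ⟨x, rfl⟩))

lemma finrank_le_two (hfin : Finite (Tors P)) (hcard : Nat.card (Tors P) ≤ P.p ^ 2) :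
    Module.finrank (ZMod P.p) (Tors P) ≤ 2 := by
  have : Module.Finite (ZMod P.p) (Tors P) := Module.Finite.of_finite
  have h := Module.natCard_eq_pow_finrank (K := ZMod P.p) (V := Tors P)
  rw [Nat.card_zmod] at h
  rw [h] at hcard
  exact (Nat.pow_le_pow_iff_right P.pp.one_lt).1 hcard

lemma mem_of_isIntegral (A : ValuationSubring Kb) {x : Kb} (hx : IsIntegral ℤ x) : x ∈ A := by
  have h1 : IsIntegral A x := hx.tower_top
  obtain ⟨y, rfl⟩ := (IsIntegrallyClosed.isIntegral_iff (R := A) (K := Kb) (x := x)).1 h1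
  exact y.2

/-- a nonzero multiple of a point outside `N` is outside `N` -/
lemma nsmul_not_mem {N : Submodule (ZMod P.p) (Tors P)} {x : Tors P} (hx : x ∉ N) {j : ℕ}
    (hj : j • x ≠ 0) : j • x ∉ N := by
  intro hmem
  have hj0 : (j : ZMod P.p) ≠ 0 := by
    intro h0
    apply hj
    rw [← Nat.cast_smul_eq_nsmul (ZMod P.p), h0, zero_smul]
  apply hx
  have : x = (j : ZMod P.p)⁻¹ • (j • x) := by
    rw [← Nat.cast_smul_eq_nsmul (ZMod P.p) j x, smul_smul, inv_mul_cancel₀ hj0, one_smul]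
  rw [this]
  exact N.smul_mem _ hmem

/-- unipotent elements act trivially on `N` and on the quotient -/
lemma unipotent_mem (hfin : Finite (Tors P)) (hcard : Nat.card (Tors P) ≤ P.p ^ 2)
    {N : Submodule (ZMod P.p) (Tors P)} (hN : IsGaloisStable ℚ N) (hbot : N ≠ ⊥) (htop : N ≠ ⊤)
    {σ : Gl} (hσ : ∀ x : Tors P, σ • (σ • x - x) = σ • x - x) :
    σ ∈ H1 N ∧ σ ∈ H2 N hN := by
  have : Module.Finite (ZMod P.p) (Tors P) := Module.Finite.of_finite
  have h := nilpotent_line (finrank_le_two hfin hcard) N hbot htop (rhoLin P σ - LinearMap.id)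
    (fun x hx => by
      simp only [LinearMap.sub_apply, rhoLin_apply, LinearMap.id_apply]
      exact N.sub_mem (hN σ x hx) hx)
    (fun x => by
      simp only [LinearMap.sub_apply, rhoLin_apply, LinearMap.id_apply]
      rw [hσ x, sub_self])
  constructor
  · intro x hx
    have := h.1 x hx
    simpa [sub_eq_zero] using this
  · intro x
    have := h.2 x
    simpa using this

theorem assembly (P : FreyPackage)
    (hA1 : Nontrivial (Tors P)) (hA2 : Finite (Tors P)) (hA3 : Nat.card (Tors P) ≤ P.p ^ 2)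
    (hB : ∀ N : Submodule (ZMod P.p) (Tors P), IsGaloisStable ℚ N → N ≠ ⊥ → N ≠ ⊤ →
      (∀ x ∈ N, x ≠ 0 → IsIntegral ℤ (xc (x : (EK P).Point))) ∨
      (∀ x : Tors P, x ∉ N → IsIntegral ℤ (xc (x : (EK P).Point))))
    (hC : ∀ A : ValuationSubring Kb, A.LiesOverPrime P.p → ∀ σ ∈ A.inertiaSubgroupIn ℚ,
      ∀ Q : Tors P, (∀ j : ℕ, j • Q ≠ 0 → xc ((j • Q : Tors P) : (EK P).Point) ∈ A) →
      σ • Q - Q = 0 ∨ xc ((σ • Q - Q : Tors P) : (EK P).Point) ∉ A)
    (hD : ∀ A : ValuationSubring Kb, A.LiesOverPrime 2 → ∀ σ ∈ A.inertiaSubgroupIn ℚ,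
      ∀ x : Tors P, σ • (σ • x - x) = σ • x - x)
    (hS05 : ∀ q : ℕ, q.Prime → q ≠ 2 → q ≠ P.p → P.GaloisRepUnramifiedAt q)
    (hE : ∀ x : Tors P, (∀ σ : Gl, σ • x = x) → x = 0)
    (hF : ∀ (H : Subgroup Gl) [H.Normal],
      (∃ L : IntermediateField ℚ Kb, FiniteDimensional ℚ L ∧ L.fixingSubgroup ≤ H) →
      (∀ ℓ : ℕ, ℓ.Prime → ∃ A : ValuationSubring Kb, A.LiesOverPrime ℓ ∧
        A.inertiaSubgroupIn ℚ ≤ H) → H = ⊤)
    (hplace : ∀ q : ℕ, q.Prime → ∃ A : ValuationSubring Kb, A.LiesOverPrime q)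
    (hred : ¬ GaloisRepIsIrreducible (K := AlgebraicClosure ℚ) ℚ P.freyCurve P.p) :
    HasGaloisStableCofixedLine (K := AlgebraicClosure ℚ) ℚ P.freyCurve P.p := by
  have hex : ∃ N : Submodule (ZMod P.p) (Tors P), IsGaloisStable ℚ N ∧ N ≠ ⊥ ∧ N ≠ ⊤ := by
    by_contra hcon
    apply hred
    refine ⟨hA1, fun N hN => ?_⟩
    by_contra h
    rw [not_or] at h
    exact hcon ⟨N, hN, h.1, h.2⟩
  obtain ⟨N, hN, hbot, htop⟩ := hex
  obtain ⟨L, hL, hLfix⟩ := exists_level hA2
  -- away from p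
  have haway : ∀ q : ℕ, q.Prime → q ≠ P.p → ∃ A : ValuationSubring Kb, A.LiesOverPrime q ∧
      A.inertiaSubgroupIn ℚ ≤ H1 N ∧ A.inertiaSubgroupIn ℚ ≤ H2 N hN := by
    intro q hq hqp
    obtain ⟨A, hA⟩ := hplace q hq
    refine ⟨A, hA, ?_⟩
    by_cases hq2 : q = 2
    · subst hq2
      exact ⟨fun σ hσ => (unipotent_mem hA2 hA3 hN hbot htop (hD A hA σ hσ)).1,
        fun σ hσ => (unipotent_mem hA2 hA3 hN hbot htop (hD A hA σ hσ)).2⟩
    · have h5 := hS05 q hq hq2 hqp A hA
      refine ⟨fun σ hσ x _ => h5 σ hσ x, fun σ hσ x => ?_⟩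
      have h6 : σ • x = x := h5 σ hσ x
      rw [h6, sub_self]
      exact N.zero_mem
  obtain ⟨Ap, hAp⟩ := hplace P.p P.pp
  rcases hB N hN hbot htop with h1 | h2
  · -- `N` integral: `H1 = ⊤`, contradiction
    exfalso
    have := H1_normal hN
    have htopH : H1 N = ⊤ := by
      apply hF (H1 N) ⟨L, hL, fun σ hσ x _ => hLfix σ hσ x⟩
      intro q hq
      by_cases hqp : q = P.p
      · subst hqp
        refine ⟨Ap, hAp, fun σ hσ x hx => ?_⟩
        have hmem : σ • x - x ∈ N := N.sub_mem (hN σ x hx) hx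
        rcases hC Ap hAp σ hσ x (fun j hj =>
          mem_of_isIntegral Ap (h1 _ (N.smul_of_tower_mem j hx) hj)) with h | h
        · exact sub_eq_zero.1 h
        · by_contra hne
          exact h (mem_of_isIntegral Ap (h1 _ hmem (sub_ne_zero.2 hne)))
      · obtain ⟨A, hA, hA1, _⟩ := haway q hq hqp
        exact ⟨A, hA, hA1⟩
    apply hbot
    rw [Submodule.eq_bot_iff]
    intro x hx
    apply hE x
    intro σ
    have : σ ∈ H1 N := by rw [htopH]; trivial
    exact this x hx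
  · -- complement integral: `H2 = ⊤`
    have := H2_normal hN
    have htopH : H2 N hN = ⊤ := by
      apply hF (H2 N hN) ⟨L, hL, fun σ hσ x => by
        rw [hLfix σ hσ x, sub_self]; exact N.zero_mem⟩
      intro q hq
      by_cases hqp : q = P.p
      · subst hqp
        refine ⟨Ap, hAp, fun σ hσ x => ?_⟩
        by_cases hx : x ∈ N
        · exact N.sub_mem (hN σ x hx) hx
        · rcases hC Ap hAp σ hσ x (fun j hj =>
            mem_of_isIntegral Ap (h2 _ (nsmul_not_mem hx hj))) with h | h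
          · rw [h]; exact N.zero_mem
          · by_contra hne
            exact h (mem_of_isIntegral Ap (h2 _ hne))
      · obtain ⟨A, hA, _, hA2'⟩ := haway q hq hqp
        exact ⟨A, hA, hA2'⟩
    refine ⟨N, hN, hbot, htop, fun σ x => ?_⟩
    have : σ ∈ H2 N hN := by rw [htopH]; trivial
    exact this x

end Fermat.Agent.S13
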