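import Fermat.Agent.S13.Basic
import Fermat.Agent.S05.Main
import Fermat.Agent.S05.Inertia

set_option autoImplicit false
open WeierstrassCurve WeierstrassCurve.Affine WeierstrassCurve.Affine.Point
open FreyPackage

namespace Fermat.Agent.S13

open Fermat.Agent.S05

section General

variable {K : Type*} [Field K] [DecidableEq K] (A : ValuationSubring K)
  {W : WeierstrassCurve.Affine K}

/-- integral minus non-integral is integral -/
lemma xc_sub_mem_of_not_mem (hb₂ : W.b₂ ∈ A) (hb₄ : W.b₄ ∈ A) (hb₆ : W.b₆ ∈ A) (hb₈ : W.b₈ ∈ A)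
    {P Q : W.Point} (hP : P ≠ 0) (hxP : xc P ∈ A) (hxQ : xc Q ∉ A) : xc (P - Q) ∈ A := by
  have hQ : Q ≠ 0 := by
    rintro rfl
    exact hxQ (by rw [xc_zero]; exact A.zero_mem)
  have hne : xc P ≠ xc Q := fun h => hxQ (h ▸ hxP)
  obtain ⟨x1, hx1⟩ : ∃ x1, x1 = xc P := ⟨_, rfl⟩
  obtain ⟨x2, hx2⟩ : ∃ x2, x2 = xc Q := ⟨_, rfl⟩
  obtain ⟨t, ht⟩ : ∃ t, t = x2⁻¹ := ⟨_, rfl⟩
  rw [← hx1] at hxP hne
  rw [← hx2] at hxQ hne
  have hx20 : x2 ≠ 0 := by
    rintro rfl
    exact hxQ A.zero_mem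
  have hxt : x2 * t = 1 := by rw [ht]; exact mul_inv_cancel₀ hx20
  have hv2 : 1 < A.valuation x2 := by
    rw [← not_le, A.valuation_le_one_iff]; exact hxQ
  have htv : A.valuation t < 1 := by
    rw [ht, map_inv₀]; exact inv_lt_one_of_one_lt₀ hv2
  have htA : t ∈ A := (A.valuation_le_one_iff _).1 htv.le
  obtain ⟨u, hu⟩ : ∃ u, u = x1 * t - 1 := ⟨_, rfl⟩
  have huv : A.valuation u = 1 := by
    have h1 : A.valuation (x1 * t) < 1 := by
      rw [map_mul]
      exact mul_lt_one_of_le_of_lt₀ ((A.valuation_le_one_iff _).2 hxP) htv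
    rw [hu, sub_eq_add_neg, Valuation.map_add_eq_of_lt_right, Valuation.map_neg, map_one]
    rw [Valuation.map_neg, map_one]; exact h1
  have hu0 : u ≠ 0 := (A.valuation.ne_zero_iff).1 (by rw [huv]; exact one_ne_zero)
  have huiA : u⁻¹ ∈ A := by
    rw [← A.valuation_le_one_iff, map_inv₀, huv, inv_one]
  have e1 := xc_add_mul_xc_sub hP hQ (by rwa [← hx1, ← hx2])
  have e2 := xc_add_add_xc_sub hP hQ (by rwa [← hx1, ← hx2])
  rw [← hx1, ← hx2] at e1 e2
  obtain ⟨l, hl⟩ : ∃ l, l = xc (P - Q) := ⟨_, rfl⟩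
  obtain ⟨m, hm⟩ : ∃ m, m = xc (P + Q) := ⟨_, rfl⟩
  rw [← hl, ← hm] at e1 e2
  rw [← hl]
  have h2A : (2 : K) ∈ A := by exact_mod_cast natCast_mem A 2
  have hd : x1 - x2 = x2 * u := by
    rw [hu]; linear_combination (-x1) * hxt
  have f1 : m * l = (x1 ^ 2 - W.b₄ * x1 * t - W.b₆ * (x1 * t + 1) * t - W.b₈ * t ^ 2) * (u⁻¹) ^ 2 := by
    rw [hd] at e1
    have : m * l * u ^ 2 = x1 ^ 2 - W.b₄ * x1 * t - W.b₆ * (x1 * t + 1) * t - W.b₈ * t ^ 2 := by
      have h3 : x2 ^ 2 * t ^ 2 = 1 := by rw [← mul_pow, hxt, one_pow]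
      linear_combination t ^ 2 * e1 + (x1 ^ 2 - m * l * u ^ 2) * h3
        + (- W.b₄ * x1 * t - W.b₆ * t) * hxt
    rw [← this]
    field_simp
  have f2 : m + l = (2 * x1 * (x1 * t + 1) + W.b₂ * x1 * t + W.b₄ * (x1 * t + 1) * t
      + W.b₆ * t ^ 2) * (u⁻¹) ^ 2 := by
    rw [hd] at e2
    have : (m + l) * u ^ 2 = 2 * x1 * (x1 * t + 1) + W.b₂ * x1 * t + W.b₄ * (x1 * t + 1) * t
      + W.b₆ * t ^ 2 := by
      have h3 : x2 ^ 2 * t ^ 2 = 1 := by rw [← mul_pow, hxt, one_pow]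
      linear_combination t ^ 2 * e2 + (2 * x1 - (m + l) * u ^ 2) * h3
        + (2 * x1 ^ 2 * t + W.b₂ * x1 * t + W.b₄ * t) * hxt
    rw [← this]
    field_simp
  have g1 : m * l ∈ A := by
    rw [f1]
    refine A.mul_mem _ _ ?_ (pow_mem huiA 2)
    exact sub_mem (sub_mem (sub_mem (pow_mem hxP 2) (A.mul_mem _ _ (A.mul_mem _ _ hb₄ hxP) htA))
      (A.mul_mem _ _ (A.mul_mem _ _ hb₆ (A.add_mem _ _ (A.mul_mem _ _ hxP htA) A.one_mem)) htA))
      (A.mul_mem _ _ hb₈ (pow_mem htA 2))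
  have g2 : m + l ∈ A := by
    rw [f2]
    refine A.mul_mem _ _ ?_ (pow_mem huiA 2)
    exact A.add_mem _ _ (A.add_mem _ _ (A.add_mem _ _
      (A.mul_mem _ _ (A.mul_mem _ _ h2A hxP) (A.add_mem _ _ (A.mul_mem _ _ hxP htA) A.one_mem))
      (A.mul_mem _ _ (A.mul_mem _ _ hb₂ hxP) htA))
      (A.mul_mem _ _ (A.mul_mem _ _ hb₄ (A.add_mem _ _ (A.mul_mem _ _ hxP htA) A.one_mem)) htA))
      (A.mul_mem _ _ hb₆ (pow_mem htA 2))
  rw [← A.valuation_le_one_iff]
  refine val_le_one_of_quadratic A.valuation (a := -(m + l)) (c := -(m * l)) ?_ ?_ (by ring)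
  · rw [Valuation.map_neg]; exact (A.valuation_le_one_iff _).2 g2
  · rw [Valuation.map_neg]; exact (A.valuation_le_one_iff _).2 g1

/-- the "kernel of reduction" -/
def InE1 (R : W.Point) : Prop := R = 0 ∨ xc R ∉ A

variable {A}

omit [DecidableEq K] in
lemma InE1.zero : InE1 A (0 : W.Point) := Or.inl rfl

omit [DecidableEq K] in
lemma InE1.neg {R : W.Point} (h : InE1 A R) : InE1 A (-R) := by
  rcases h with h | h
  · left; rw [h, Point.neg_zero]
  · right; rwa [xc_neg]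

lemma InE1.add (hb₂ : W.b₂ ∈ A) (hb₄ : W.b₄ ∈ A) (hb₆ : W.b₆ ∈ A) (hb₈ : W.b₈ ∈ A)
    {P Q : W.Point} (hP : InE1 A P) (hQ : InE1 A Q) : InE1 A (P + Q) := by
  rcases hP with rfl | hP
  · rwa [zero_add]
  rcases hQ with rfl | hQ
  · rw [add_zero]; exact Or.inr hP
  by_cases h0 : P + Q = 0
  · exact Or.inl h0
  right
  intro hmem
  have := xc_sub_mem_of_not_mem A hb₂ hb₄ hb₆ hb₈ h0 hmem hQ
  rw [add_sub_cancel_right] at this
  exact hP this

lemma InE1.nsmul (hb₂ : W.b₂ ∈ A) (hb₄ : W.b₄ ∈ A) (hb₆ : W.b₆ ∈ A) (hb₈ : W.b₈ ∈ A)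
    {P : W.Point} (hP : InE1 A P) (n : ℕ) : InE1 A (n • P) := by
  induction n with
  | zero => rw [zero_smul]; exact InE1.zero
  | succ n ih => rw [succ_nsmul]; exact ih.add hb₂ hb₄ hb₆ hb₈ hP

lemma InE1.zsmul (hb₂ : W.b₂ ∈ A) (hb₄ : W.b₄ ∈ A) (hb₆ : W.b₆ ∈ A) (hb₈ : W.b₈ ∈ A)
    {P : W.Point} (hP : InE1 A P) (n : ℤ) : InE1 A (n • P) := by
  cases n with
  | ofNat n => simpa using hP.nsmul hb₂ hb₄ hb₆ hb₈ n
  | negSucc n =>
    rw [negSucc_zsmul]
    exact (hP.nsmul hb₂ hb₄ hb₆ hb₈ (n + 1)).neg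

variable {p : ℕ} {σ : K →+* K} {s : W.Point →+ W.Point}

lemma loc_of_nonsingular_red (I : IntData A W) (G : GalData A W σ s)
    {P : W.Point} (hP : P ≠ 0) (hx : A.valuation (xc P) ≤ 1)
    (hns : A.valuation (W.a₁ * yc P - (3 * xc P ^ 2 + 2 * W.a₂ * xc P + W.a₄)) = 1 ∨
      A.valuation (2 * yc P + W.a₁ * xc P + W.a₃) = 1) : InE1 A (s P - P) := by
  obtain ⟨hs0, hsx, hsy⟩ := G.hs P hP
  have hy := y_integral A I.h₁ I.h₂ I.h₃ I.h₄ I.h₆ hP hx
  have key := sub_eq_zero_or_nonintegral A.valuation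
    ((A.valuation_le_one_iff _).2 I.h₁) ((A.valuation_le_one_iff _).2 I.h₂)
    ((A.valuation_le_one_iff _).2 I.h₃) ((A.valuation_le_one_iff _).2 I.h₄)
    hs0 hP (by rw [hsx]; exact G.val_le hx) (by rw [hsy]; exact G.val_le hy) hx hy
    (by rw [hsx]; exact G.hσ _ hx) (by rw [hsy]; exact G.hσ _ hy) hns
  rcases key with h | h
  · exact Or.inl h
  · right
    rw [← A.valuation_le_one_iff, not_le]
    exact h

lemma loc_of_multiple (I : IntData A W) (hp : p.Prime) {P : W.Point} (hpP : p • P = 0) {j : ℤ}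
    (hj : ¬ (p : ℤ) ∣ j) (h : InE1 A (s (j • P) - j • P)) : InE1 A (s P - P) := by
  have hcop : IsCoprime (p : ℤ) j :=
    (Prime.coprime_iff_not_dvd (Nat.prime_iff_prime_int.1 hp)).2 hj
  obtain ⟨a, b, hab⟩ := hcop
  have h1 : (p : ℤ) • (s P - P) = 0 := by
    rw [smul_sub, ← map_zsmul, natCast_zsmul, hpP, _root_.map_zero, sub_zero]
  have h2 : j • (s P - P) = s (j • P) - j • P := by
    rw [smul_sub, ← map_zsmul]
  have h3 : (a * p + b * j) • (s P - P) = b • (s (j • P) - j • P) := by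
    rw [add_smul, mul_smul, mul_smul, h1, h2, smul_zero, zero_add]
  rw [hab, one_smul] at h3
  rw [h3]
  exact h.zsmul I.b₂ I.b₄ I.b₆ I.b₈ b

/-- good reduction -/
theorem loc_good (I : IntData A W) (G : GalData A W σ s)
    (hΔ : A.valuation W.Δ = 1) {P : W.Point} (hP : P ≠ 0) (hx : A.valuation (xc P) ≤ 1) :
    InE1 A (s P - P) :=
  loc_of_nonsingular_red I G hP hx
    (hns_of_unit_disc A I.h₁ I.h₂ I.h₃ I.h₄ hΔ hP hx
      (y_integral A I.h₁ I.h₂ I.h₃ I.h₄ I.h₆ hP hx))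

/-- multiplicative reduction -/
theorem loc_mult (I : IntData A W) (hp : p.Prime) (hp2 : p ≠ 2) (G : GalData A W σ s)
    (h2 : A.valuation (2 : K) = 1)
    {x0 c b' e0 : K} (H : ShiftData W x0 c b')
    (hσ₁ : σ W.a₁ = W.a₁) (hσ₃ : σ W.a₃ = W.a₃) (hσx0 : σ x0 = x0)
    (hx0 : A.valuation x0 ≤ 1) (hb' : A.valuation b' = 1) (he0 : e0 ≠ 0) (hσe : σ e0 = e0)
    (hcv : A.valuation c = A.valuation e0 ^ p) (hc1 : A.valuation c < 1)
    {P : W.Point} (hpP : p • P = 0)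
    (hint : ∀ j : ℤ, j • P ≠ 0 → A.valuation (xc (j • P)) ≤ 1) : InE1 A (s P - P) := by
  by_cases hP : P = 0
  · rw [hP, _root_.map_zero, sub_zero]; exact InE1.zero
  have hp3 : 3 ≤ p := by
    have := hp.two_le; omega
  have v₁ := (A.valuation_le_one_iff _).2 I.h₁
  have v₂ := (A.valuation_le_one_iff _).2 I.h₂
  have v₃ := (A.valuation_le_one_iff _).2 I.h₃
  have v₄ := (A.valuation_le_one_iff _).2 I.h₄
  have hz := zsmul_eq_zero_iff_dvd hp hP hpP
  have hpj : ∀ j : ℤ, p • (j • P) = 0 := fun j => by rw [smul_comm, hpP, smul_zero]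
  have hinty : ∀ j : ℤ, j • P ≠ 0 → A.valuation (yc (j • P)) ≤ 1 := fun j hj =>
    y_integral A I.h₁ I.h₂ I.h₃ I.h₄ I.h₆ hj (hint j hj)
  by_cases hex : ∃ j : ℤ, ¬ (p : ℤ) ∣ j ∧ A.valuation (xc (j • P) - x0) = 1
  · obtain ⟨j, hj, hX⟩ := hex
    have hj0 : j • P ≠ 0 := fun h => hj ((hz j).1 h)
    apply loc_of_multiple I hp hpP hj
    exact loc_of_nonsingular_red I G hj0 (hint j hj0)
      (nonsingular_of_not_node A.valuation H v₁ v₂ v₃ v₄ h2 hb' hc1 hj0
        (hint j hj0) (hinty j hj0) hX)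
  · have hlt : ∀ j : ℤ, ¬ (p : ℤ) ∣ j → A.valuation (xc (j • P) - x0) < 1 := by
      intro j hj
      have hj0 : j • P ≠ 0 := fun h => hj ((hz j).1 h)
      refine lt_of_le_of_ne (Valuation.map_sub_le _ (hint j hj0) hx0) ?_
      intro h
      exact hex ⟨j, hj, h⟩
    obtain ⟨j0, hj0, hmax⟩ := Finset.exists_max_image (Finset.Icc 1 (p - 1))
      (fun j : ℕ => A.valuation (xc (j • P) - x0)) ⟨1, by simp; omega⟩
    rw [Finset.mem_Icc] at hj0
    have hj0nd : ¬ (p : ℤ) ∣ (j0 : ℤ) := by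
      intro h
      have := Nat.le_of_dvd (by omega) (Int.natCast_dvd_natCast.1 h)
      omega
    apply loc_of_multiple I hp hpP hj0nd
    obtain ⟨P', hP'⟩ : ∃ P', P' = (j0 : ℤ) • P := ⟨_, rfl⟩
    rw [← hP']
    have hP'0 : P' ≠ 0 := by rw [hP']; exact fun h => hj0nd ((hz _).1 h)
    have hpP' : p • P' = 0 := by rw [hP']; exact hpj _
    have hz' := zsmul_eq_zero_iff_dvd hp hP'0 hpP'
    have hpi : Prime (p : ℤ) := Nat.prime_iff_prime_int.1 hp
    have hmulnd : ∀ j : ℤ, ¬ (p : ℤ) ∣ j → ¬ (p : ℤ) ∣ j * j0 := by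
      intro j hj h
      rcases hpi.dvd_or_dvd h with h | h
      · exact hj h
      · exact hj0nd h
    have h2nd : ∀ j : ℤ, ¬ (p : ℤ) ∣ j → ¬ (p : ℤ) ∣ 2 * j := by
      intro j hj h
      rcases hpi.dvd_or_dvd h with h | h
      · have := Int.le_of_dvd (by norm_num) h
        omega
      · exact hj h
    have hsm : ∀ j : ℤ, j • P' = (j * j0) • P := fun j => by rw [hP', mul_smul]
    have hne0 : ∀ j : ℤ, ¬ (p : ℤ) ∣ j → j • P' ≠ 0 := fun j hj h => hj ((hz' j).1 h)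
    have heta : ∀ j : ℤ, ¬ (p : ℤ) ∣ j →
        2 * yc (j • P') + W.a₁ * xc (j • P') + W.a₃ ≠ 0 := by
      intro j hj h
      have h1 := (add_self_eq_zero_iff (hne0 j hj)).2 h
      rw [← two_zsmul, smul_smul] at h1
      exact h2nd j hj ((hz' _).1 h1)
    have hprod : ∀ j : ℤ, ¬ (p : ℤ) ∣ j →
        (xc (j • P') - x0) * (4 * (xc (j • P') - x0) ^ 2 + b' * (xc (j • P') - x0) + 4 * c) ≠ 0 := by
      intro j hj
      rw [← H.eta_sq (hne0 j hj)]
      exact pow_ne_zero 2 (heta j hj)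
    have hc0 : c ≠ 0 := by
      intro h
      rw [h, _root_.map_zero] at hcv
      exact (pow_ne_zero p ((A.valuation.ne_zero_iff).2 he0)) hcv.symm
    have hxne : ∀ i j : ℤ, ¬ (p : ℤ) ∣ i → ¬ (p : ℤ) ∣ j → ¬ (p : ℤ) ∣ i + j → ¬ (p : ℤ) ∣ i - j →
        xc (i • P') ≠ xc (j • P') := by
      intro i j hi hj hij hij'
      apply xc_ne_of_add_sub_ne_zero (hne0 i hi) (hne0 j hj)
      · rw [← add_smul]; exact hne0 _ hij
      · rw [← sub_smul]; exact hne0 _ hij'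
    have key := mult_val A.valuation p hp hp2 (fun j => xc (j • P') - x0) c b' hc0 hb' h2
      (fun j hj => left_ne_zero_of_mul (hprod j hj))
      (fun j hj => by
        rw [hsm]; exact hlt _ (hmulnd j hj))
      (fun i j hij => by
        have : i • P' = -(j • P') := by
          rw [eq_neg_iff_add_eq_zero, ← add_smul]; exact (hz' _).2 hij
        rw [this, xc_neg])
      (fun j hj => by
        obtain ⟨m, hm1, hm2, hm⟩ := exists_nat_rep hp hpP (j * j0) (hmulnd j hj)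
        rw [hsm, hm, one_smul, hP', natCast_zsmul]
        exact hmax m (by rw [Finset.mem_Icc]; exact ⟨hm1, hm2⟩))
      (fun i j hi hj hij hij' h => hxne i j hi hj hij hij' (by simpa using h))
      (fun i j hi hj hij hij' => by
        rw [add_smul, sub_smul]
        exact H.prod (hne0 i hi) (hne0 j hj) (hxne i j hi hj hij hij'))
      (fun j hj => right_ne_zero_of_mul (hprod j hj))
      (fun j hj => by
        have h1 : (2 * j) • P' = j • P' + j • P' := by rw [two_mul, add_smul]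
        rw [h1]
        refine H.dbl (hne0 j hj) ?_
        rw [← h1]; exact hne0 _ (h2nd j hj))
    simp only [one_smul] at key
    have hXe : A.valuation (xc P' - x0) = A.valuation (e0 ^ 2) := by
      have h1 : A.valuation (xc P' - x0) ^ p = (A.valuation (e0 ^ 2)) ^ p := by
        rw [key, hcv, map_pow, ← pow_mul, ← pow_mul, mul_comm]
      exact (pow_left_inj₀ zero_le zero_le (by omega)).1 h1
    have hXlt : A.valuation (xc P' - x0) < 1 := by
      have := hlt j0 hj0nd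
      rwa [← hP'] at this
    have hcX : A.valuation c < A.valuation (xc P' - x0) := by
      by_contra hle
      rw [not_lt] at hle
      have h1 : A.valuation (xc P' - x0) ^ p ≤ A.valuation c ^ p := pow_le_pow_left₀ zero_le hle p
      have h2' : A.valuation c ^ p < A.valuation c ^ 2 :=
        pow_lt_pow_right_of_lt_one₀ (zero_lt_iff.2 ((A.valuation.ne_zero_iff).2 hc0)) hc1 (by omega)
      rw [key] at h1
      exact absurd h1 (not_le.2 h2')
    by_cases h0 : s P' - P' = 0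
    · exact Or.inl h0
    right
    intro hmem
    apply h0
    rw [sub_eq_zero]
    exact fixed_of_val_eq A.valuation H σ s G.hs G.hσ v₁ v₂ hσ₁ hσ₃ hσx0 hx0 h2 hb'
      (pow_ne_zero 2 he0) (by rw [map_pow, hσe]) hP'0 hXe hXlt hcX
      (Or.inr ((A.valuation_le_one_iff _).2 hmem))

/-- The abstract Frey-curve statement, any odd residue characteristic. -/
theorem frey_loc {q : ℕ} (hp : p.Prime) (hp2 : p ≠ 2) (hq : q.Prime)
    (hqA : A.valuation (q : K) < 1) (G : GalData A W σ s) (hq2 : q ≠ 2)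
    (a b c : ℤ) (ha0 : a ≠ 0) (hb0 : b ≠ 0) (hc0 : c ≠ 0) (hchar : ∀ n : ℤ, n ≠ 0 → (n : K) ≠ 0)
    (habc : a ^ p + b ^ p = c ^ p)
    (hab : ¬ ((q : ℤ) ∣ a ∧ (q : ℤ) ∣ b))
    (ha₁ : W.a₁ = 1) (ha₂ : W.a₂ = ((b : K) ^ p - 1 - (a : K) ^ p) / 4) (ha₃ : W.a₃ = 0)
    (ha₄ : W.a₄ = -((a : K) ^ p) * ((b : K) ^ p) / 16) (ha₆ : W.a₆ = 0)
    {P : W.Point} (hpP : p • P = 0)
    (hint : ∀ j : ℤ, j • P ≠ 0 → A.valuation (xc (j • P)) ≤ 1) : InE1 A (s P - P) := by
  have hp0 : p ≠ 0 := hp.ne_zero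
  have hqi : Prime (q : ℤ) := Nat.prime_iff_prime_int.1 hq
  have hpow2 : ∀ k : ℕ, A.valuation ((2 : K) ^ k) = 1 := by
    intro k
    have := valuation_natCast_eq_one A hq hqA (n := 2) (by
      intro h; exact hq2 ((Nat.prime_dvd_prime_iff_eq hq Nat.prime_two).1 h))
    rw [map_pow]
    simp only [Nat.cast_ofNat] at this
    rw [this, one_pow]
  have h2 : A.valuation (2 : K) = 1 := by simpa using hpow2 1
  have h4 : A.valuation (4 : K) = 1 := by
    have := hpow2 2; norm_num at this; exact this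
  have h8 : A.valuation (8 : K) = 1 := by
    have := hpow2 3; norm_num at this; exact this
  have n8 : (8 : K) ≠ 0 := (A.valuation.ne_zero_iff).1 (by rw [h8]; exact one_ne_zero)
  have h16 : A.valuation (16 : K) = 1 := by
    have := hpow2 4; norm_num at this; exact this
  have h256 : A.valuation (256 : K) = 1 := by
    have := hpow2 8; norm_num at this; exact this
  have n2 : (2 : K) ≠ 0 := (A.valuation.ne_zero_iff).1 (by rw [h2]; exact one_ne_zero)
  have n4 : (4 : K) ≠ 0 := (A.valuation.ne_zero_iff).1 (by rw [h4]; exact one_ne_zero)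
  have n16 : (16 : K) ≠ 0 := (A.valuation.ne_zero_iff).1 (by rw [h16]; exact one_ne_zero)
  have n256 : (256 : K) ≠ 0 := (A.valuation.ne_zero_iff).1 (by rw [h256]; exact one_ne_zero)
  obtain ⟨α, hα⟩ : ∃ α : K, α = (a : K) ^ p := ⟨_, rfl⟩
  obtain ⟨β, hβ⟩ : ∃ β : K, β = (b : K) ^ p := ⟨_, rfl⟩
  have hγ : α + β = (c : K) ^ p := by
    rw [hα, hβ]; exact_mod_cast congrArg (Int.cast : ℤ → K) habc
  rw [← hα, ← hβ] at ha₂ ha₄
  have vα : A.valuation α = A.valuation (a : K) ^ p := by rw [hα, map_pow]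
  have vβ : A.valuation β = A.valuation (b : K) ^ p := by rw [hβ, map_pow]
  have vγ : A.valuation (α + β) = A.valuation (c : K) ^ p := by rw [hγ, map_pow]
  have vα1 : A.valuation α ≤ 1 := by rw [vα]; exact pow_le_one' (valuation_intCast_le_one A a) p
  have vβ1 : A.valuation β ≤ 1 := by rw [vβ]; exact pow_le_one' (valuation_intCast_le_one A b) p
  have σα : σ α = α := by rw [hα]; simp
  have σβ : σ β = β := by rw [hβ]; simp
  have I : IntData A W := by
    refine ⟨?_, ?_, ?_, ?_, ?_⟩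
    · rw [ha₁]; exact A.one_mem
    · rw [ha₂, ← A.valuation_le_one_iff, map_div₀, h4, div_one]
      exact Valuation.map_sub_le _ (Valuation.map_sub_le _ vβ1 (by simp)) vα1
    · rw [ha₃]; exact A.zero_mem
    · rw [ha₄, ← A.valuation_le_one_iff, map_div₀, h16, div_one, map_mul, Valuation.map_neg]
      exact mul_le_one' vα1 vβ1
    · rw [ha₆]; exact A.zero_mem
  have hb₂ : W.b₂ = β - α := by
    simp only [WeierstrassCurve.b₂, ha₁, ha₂]; field_simp; ring
  have hb₄ : W.b₄ = -α * β / 8 := by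
    simp only [WeierstrassCurve.b₄, ha₁, ha₃, ha₄]; field_simp; ring
  have hb₆ : W.b₆ = 0 := by
    simp only [WeierstrassCurve.b₆, ha₃, ha₆]; ring
  have hσ₁ : σ W.a₁ = W.a₁ := by rw [ha₁, map_one]
  have hσ₃ : σ W.a₃ = W.a₃ := by rw [ha₃, _root_.map_zero]
  have hac : ¬ ((q : ℤ) ∣ a ∧ (q : ℤ) ∣ c) := by
    rintro ⟨h1, h2⟩
    apply hab ⟨h1, ?_⟩
    have h3 : (q : ℤ) ∣ b ^ p := by
      have : b ^ p = c ^ p - a ^ p := by linarith
      rw [this]
      exact dvd_sub (dvd_pow h2 hp0) (dvd_pow h1 hp0)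
    exact hqi.dvd_of_dvd_pow h3
  have hbc : ¬ ((q : ℤ) ∣ b ∧ (q : ℤ) ∣ c) := by
    rintro ⟨h1, h2⟩
    apply hab ⟨?_, h1⟩
    have h3 : (q : ℤ) ∣ a ^ p := by
      have : a ^ p = c ^ p - b ^ p := by linarith
      rw [this]
      exact dvd_sub (dvd_pow h2 hp0) (dvd_pow h1 hp0)
    exact hqi.dvd_of_dvd_pow h3
  have unit_of : ∀ n : ℤ, ¬ (q : ℤ) ∣ n → A.valuation (n : K) ^ p = 1 := by
    intro n hn; rw [valuation_intCast_eq_one A hq hqA hn, one_pow]
  have lt_of : ∀ n : ℤ, (q : ℤ) ∣ n → A.valuation (n : K) ^ p < 1 := by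
    intro n hn
    exact pow_lt_one₀ zero_le (valuation_intCast_lt_one A hqA hn) hp0
  by_cases hqa : (q : ℤ) ∣ a
  · have hqb : ¬ (q : ℤ) ∣ b := fun h => hab ⟨hqa, h⟩
    have H : ShiftData W 0 (-α * β / 16) (β - α) := by
      refine ⟨by rw [hb₆]; ring, by rw [hb₄]; field_simp; ring, by rw [hb₂]; ring, n2⟩
    refine loc_mult I hp hp2 G h2 H hσ₁ hσ₃ (_root_.map_zero σ) (by simp) ?_ (hchar a ha0)
      (map_intCast σ a) ?_ ?_ hpP hint
    · rw [Valuation.map_sub_eq_of_lt_left, vβ, unit_of b hqb]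
      rw [vα, vβ, unit_of b hqb]; exact lt_of a hqa
    · rw [map_div₀, h16, div_one, map_mul, Valuation.map_neg, vα, vβ, unit_of b hqb, mul_one]
    · rw [map_div₀, h16, div_one, map_mul, Valuation.map_neg, vα, vβ, unit_of b hqb, mul_one]
      exact lt_of a hqa
  by_cases hqb : (q : ℤ) ∣ b
  · have H : ShiftData W 0 (-α * β / 16) (β - α) := by
      refine ⟨by rw [hb₆]; ring, by rw [hb₄]; field_simp; ring, by rw [hb₂]; ring, n2⟩
    refine loc_mult I hp hp2 G h2 H hσ₁ hσ₃ (_root_.map_zero σ) (by simp) ?_ (hchar b hb0)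
      (map_intCast σ b) ?_ ?_ hpP hint
    · rw [Valuation.map_sub_eq_of_lt_right, vα, unit_of a hqa]
      rw [vα, vβ, unit_of a hqa]; exact lt_of b hqb
    · rw [map_div₀, h16, div_one, map_mul, Valuation.map_neg, vα, vβ, unit_of a hqa, one_mul]
    · rw [map_div₀, h16, div_one, map_mul, Valuation.map_neg, vα, vβ, unit_of a hqa, one_mul]
      exact lt_of b hqb
  by_cases hqc : (q : ℤ) ∣ c
  · have H : ShiftData W (α / 4) (α * (α + β) / 16) (α + (α + β)) := by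
      refine ⟨by rw [hb₆, hb₂, hb₄]; field_simp; ring, by rw [hb₄, hb₂]; field_simp; ring,
        by rw [hb₂]; field_simp; ring, n2⟩
    refine loc_mult I hp hp2 G h2 H hσ₁ hσ₃ (by rw [map_div₀, σα, map_ofNat]) ?_ ?_ (hchar c hc0)
      (map_intCast σ c) ?_ ?_ hpP hint
    · rw [map_div₀, h4, div_one]; exact vα1
    · rw [Valuation.map_add_eq_of_lt_left, vα, unit_of a hqa]
      rw [vα, vγ, unit_of a hqa]; exact lt_of c hqc
    · rw [map_div₀, h16, div_one, map_mul, vα, vγ, unit_of a hqa, one_mul]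
    · rw [map_div₀, h16, div_one, map_mul, vα, vγ, unit_of a hqa, one_mul]
      exact lt_of c hqc
  · by_cases hP : P = 0
    · rw [hP, _root_.map_zero, sub_zero]; exact InE1.zero
    refine loc_good I G ?_ hP (by simpa using hint 1 (by simpa using hP))
    have hΔ : W.Δ = (α * β * (α + β)) ^ 2 / 256 := by
      simp only [WeierstrassCurve.Δ, WeierstrassCurve.b₈, hb₂, hb₄, hb₆, ha₁, ha₂, ha₃, ha₄, ha₆]
      field_simp
      ring
    rw [hΔ, map_div₀, h256, div_one, map_pow, map_mul, map_mul, vα, vβ, vγ, unit_of a hqa,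
      unit_of b hqb, unit_of c hqc]
    simp

end General

/-- WP-C -/
theorem wpC (P : FreyPackage) (A : ValuationSubring Kb) (hA : A.LiesOverPrime P.p)
    (σ : Gl) (hσ : σ ∈ A.inertiaSubgroupIn ℚ) (Q : Tors P)
    (hQ : ∀ j : ℕ, j • Q ≠ 0 → xc ((j • Q : Tors P) : (EK P).Point) ∈ A) :
    σ • Q - Q = 0 ∨ xc ((σ • Q - Q : Tors P) : (EK P).Point) ∉ A := by
  have hqA : A.valuation ((P.p : ℕ) : AlgebraicClosure ℚ) < 1 := hA
  have hp2 : P.p ≠ 2 := by have := P.hp5; omega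
  have G : GalData A (P.freyCurve⁄(AlgebraicClosure ℚ)) (σ : AlgebraicClosure ℚ →+* AlgebraicClosure ℚ)
      (Point.map (W' := P.freyCurve) σ.toAlgHom) := by
    refine ⟨?_, ?_⟩
    · intro Q hQ
      cases Q with
      | zero => exact absurd rfl hQ
      | some x y h =>
        rw [Point.map_some]
        exact ⟨some_ne_zero _, rfl, rfl⟩
    · intro x hx
      exact inertia_spec A σ hσ x hx
  have hx : P.p • Q.1 = 0 := by
    have := Q.2
    rw [Submodule.mem_torsionBy_iff] at this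
    rw [← natCast_zsmul]
    exact this
  have hab : ¬ ((P.p : ℤ) ∣ P.a ∧ (P.p : ℤ) ∣ P.b) := by
    rintro ⟨h1, h2⟩
    have h3 : (P.p : ℤ) ∣ gcd P.a P.b := dvd_gcd h1 h2
    rw [P.hgcdab] at h3
    exact (Nat.prime_iff_prime_int.1 P.pp).not_isUnit (isUnit_of_dvd_one h3)
  have hint : ∀ j : ℤ, j • Q.1 ≠ 0 → A.valuation (xc (j • Q.1)) ≤ 1 := by
    intro j hj
    have hnd : ¬ (P.p : ℤ) ∣ j := by
      rintro ⟨k, rfl⟩
      apply hj
      rw [mul_comm, mul_smul, natCast_zsmul, hx]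
      exact zsmul_zero k
    obtain ⟨m, -, -, hm⟩ := exists_nat_rep P.pp hx j hnd
    rw [hm] at hj ⊢
    rw [A.valuation_le_one_iff]
    have := hQ m (by
      intro h
      apply hj
      have := congrArg Subtype.val h
      simpa using this)
    simpa using this
  have key := frey_loc P.pp hp2 P.pp hqA G hp2 P.a P.b P.c P.ha0 P.hb0 P.hc0
    (fun n hn => by exact_mod_cast hn) P.hFLT hab
    (by simp [FreyPackage.freyCurve]) (by simp [FreyPackage.freyCurve])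
    (by simp [FreyPackage.freyCurve]) (by simp [FreyPackage.freyCurve])
    (by simp [FreyPackage.freyCurve]) hx hint
  rcases key with h | h
  · left
    apply Subtype.ext
    exact h
  · right
    exact h

end Fermat.Agent.S13
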