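import Fermat.Agent.S13.LadderLink

set_option autoImplicit false

namespace Fermat.Agent.S13

open Polynomial WeierstrassCurve WeierstrassCurve.Affine WeierstrassCurve.Affine.Point
open Fermat.Agent.S05

section Tors

variable {K : Type*} [Field K] {W : WeierstrassCurve.Affine K}

theorem natDegree_torsPoly (n : ℕ) (hn : 1 ≤ n) (hchar : (2 * (n : K) + 1) ≠ 0) :
    (torsPoly W.b₂ W.b₄ W.b₆ W.b₈ n).natDegree = 2 * n ^ 2 + 2 * n := by
  have h := DL_torsPoly W.b₂ W.b₄ W.b₆ W.b₈ n hn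
  refine le_antisymm h.1 (le_natDegree_of_ne_zero ?_)
  rw [h.2]
  exact neg_ne_zero.2 hchar

theorem torsPoly_ne_zero (n : ℕ) (hn : 1 ≤ n) (hchar : (2 * (n : K) + 1) ≠ 0) :
    torsPoly W.b₂ W.b₄ W.b₆ W.b₈ n ≠ 0 := by
  intro h0
  have h := (DL_torsPoly W.b₂ W.b₄ W.b₆ W.b₈ n hn).2
  rw [h0, coeff_zero] at h
  exact neg_ne_zero.2 hchar h.symm

theorem exists_point_of_x [IsAlgClosed K] (hΔ : W.Δ ≠ 0) (x : K) :
    ∃ P : W.Point, P ≠ 0 ∧ xc P = x := by
  obtain ⟨y, hy⟩ := IsAlgClosed.exists_root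
    (X ^ 2 + C (W.a₁ * x + W.a₃) * X - C (x ^ 3 + W.a₂ * x ^ 2 + W.a₄ * x + W.a₆) : K[X])
    (by
      have : (X ^ 2 + C (W.a₁ * x + W.a₃) * X - C (x ^ 3 + W.a₂ * x ^ 2 + W.a₄ * x + W.a₆)
          : K[X]).degree = 2 := by compute_degree!
      rw [this]; norm_num)
  have he : W.Equation x y := by
    rw [equation_iff]
    simp only [IsRoot.def, eval_sub, eval_add, eval_pow, eval_X, eval_mul, eval_C] at hy
    linear_combination hy
  exact ⟨Point.some x y ((equation_iff_nonsingular_of_Δ_ne_zero hΔ).1 he), some_ne_zero _, rfl⟩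

variable [DecidableEq K]

theorem exists_odd_torsion_ne_zero [IsAlgClosed K] (hΔ : W.Δ ≠ 0) (n : ℕ) (hn : 1 ≤ n)
    (hchar : (2 * (n : K) + 1) ≠ 0) : ∃ P : W.Point, P ≠ 0 ∧ (2 * n + 1) • P = 0 := by
  obtain ⟨x, hx⟩ := IsAlgClosed.exists_root (torsPoly W.b₂ W.b₄ W.b₆ W.b₈ n) (by
    rw [degree_eq_natDegree (torsPoly_ne_zero n hn hchar), natDegree_torsPoly n hn hchar]
    have : 0 < 2 * n ^ 2 + 2 * n := by positivity
    exact_mod_cast this.ne')
  obtain ⟨P, hP, rfl⟩ := exists_point_of_x hΔ x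
  exact ⟨P, hP, (odd_nsmul_eq_zero_iff hP n).2 hx⟩

/-- The set of nonzero `(2n+1)`-torsion points. -/
def torsSet (W : WeierstrassCurve.Affine K) (n : ℕ) : Set W.Point :=
  {P | P ≠ 0 ∧ (2 * n + 1) • P = 0}

theorem finite_fiber_xc (x : K) : {P : W.Point | P ≠ 0 ∧ xc P = x}.Finite := by
  by_cases h : ∃ P0 : W.Point, P0 ≠ 0 ∧ xc P0 = x
  · obtain ⟨P0, h0, hx0⟩ := h
    refine (Set.toFinite {P0, -P0}).subset ?_
    rintro P ⟨hP, hx⟩
    rcases (xc_eq_iff hP h0).1 (hx.trans hx0.symm) with h | h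
    · left; exact h
    · right; exact h
  · convert Set.finite_empty
    ext P
    simp only [Set.mem_setOf_eq, Set.mem_empty_iff_false, iff_false]
    exact fun hP => h ⟨P, hP⟩

theorem torsSet_finite (n : ℕ) (hn : 1 ≤ n) (hchar : (2 * (n : K) + 1) ≠ 0) :
    (torsSet W n).Finite := by
  have : torsSet W n ⊆ ⋃ x ∈ (torsPoly W.b₂ W.b₄ W.b₆ W.b₈ n).roots.toFinset,
      {P : W.Point | P ≠ 0 ∧ xc P = x} := by
    rintro P ⟨hP, hn'⟩
    simp only [Set.mem_iUnion]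
    refine ⟨xc P, ?_, hP, rfl⟩
    rw [Multiset.mem_toFinset, mem_roots (torsPoly_ne_zero n hn hchar)]
    exact (odd_nsmul_eq_zero_iff hP n).1 hn'
  exact (Set.Finite.biUnion (Finset.finite_toSet _) (fun x _ => finite_fiber_xc x)).subset this

end Tors

end Fermat.Agent.S13
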