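import Fermat.Agent.S13.Basic
import Fermat.Agent.S13.LadderTors

set_option autoImplicit false
open WeierstrassCurve WeierstrassCurve.Affine WeierstrassCurve.Affine.Point
open FreyPackage Polynomial

namespace Fermat.Agent.S13

open Fermat.Agent.S05 (xc yc)

lemma EK_a₁ (P : FreyPackage) : (EK P).a₁ = 1 := by
  simp [EK, freyCurve]

lemma EK_a₂ (P : FreyPackage) : (EK P).a₂ = ((P.b : Kb) ^ P.p - 1 - (P.a : Kb) ^ P.p) / 4 := by
  simp [EK, freyCurve]

lemma EK_a₃ (P : FreyPackage) : (EK P).a₃ = 0 := by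
  simp [EK, freyCurve]

lemma EK_a₄ (P : FreyPackage) : (EK P).a₄ = -((P.a : Kb) ^ P.p) * ((P.b : Kb) ^ P.p) / 16 := by
  simp [EK, freyCurve]

lemma EK_a₆ (P : FreyPackage) : (EK P).a₆ = 0 := by
  simp [EK, freyCurve]

/-- `a^p b^p / 32` -/
def freyT (P : FreyPackage) : ℤ := P.a ^ P.p * P.b ^ P.p / 32

lemma freyT_spec (P : FreyPackage) : P.a ^ P.p * P.b ^ P.p = 32 * freyT P := by
  have h2 : (2 : ℤ) ∣ P.b := (ZMod.intCast_zmod_eq_zero_iff_dvd P.b 2).1 P.hb2
  have h32 : (32 : ℤ) ∣ P.b ^ P.p := by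
    have h5 : (2 : ℤ) ^ 5 ∣ P.b ^ 5 := pow_dvd_pow_of_dvd h2 5
    exact (by norm_num at h5 ⊢; exact h5 : (32 : ℤ) ∣ P.b ^ 5).trans (pow_dvd_pow _ P.hp5)
  rw [freyT, Int.mul_ediv_cancel' (Dvd.dvd.mul_left h32 _)]

lemma freyT_spec' (P : FreyPackage) : (P.a : Kb) ^ P.p * (P.b : Kb) ^ P.p = 32 * (freyT P : Kb) := by
  exact_mod_cast congrArg (Int.cast : ℤ → Kb) (freyT_spec P)

lemma EK_b₂ (P : FreyPackage) : (EK P).b₂ = ((P.b ^ P.p - P.a ^ P.p : ℤ) : Kb) := by
  simp only [WeierstrassCurve.b₂, EK_a₁, EK_a₂]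
  push_cast
  ring

lemma EK_b₄ (P : FreyPackage) : (EK P).b₄ = ((-4 * freyT P : ℤ) : Kb) := by
  simp only [WeierstrassCurve.b₄, EK_a₁, EK_a₃, EK_a₄]
  have := freyT_spec' P
  push_cast
  linear_combination (-1 / 8 : Kb) * this

lemma EK_b₆ (P : FreyPackage) : (EK P).b₆ = ((0 : ℤ) : Kb) := by
  simp only [WeierstrassCurve.b₆, EK_a₃, EK_a₆]
  push_cast
  ring

lemma EK_b₈ (P : FreyPackage) : (EK P).b₈ = ((-4 * freyT P ^ 2 : ℤ) : Kb) := by
  simp only [WeierstrassCurve.b₈, EK_a₁, EK_a₂, EK_a₃, EK_a₄, EK_a₆]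
  have := freyT_spec' P
  push_cast
  linear_combination (-(1 / 256 : Kb) * ((P.a : Kb) ^ P.p * (P.b : Kb) ^ P.p) - (1 / 8 : Kb) * (freyT P : Kb)) * this

lemma EK_Δ_ne_zero (P : FreyPackage) : (EK P).Δ ≠ 0 := by
  have hΔ : (EK P).Δ = (((P.a ^ P.p * P.b ^ P.p * P.c ^ P.p : ℤ) : Kb)) ^ 2 / 256 := by
    have hc : (P.c : Kb) ^ P.p = (P.a : Kb) ^ P.p + (P.b : Kb) ^ P.p := by
      exact_mod_cast congrArg (Int.cast : ℤ → Kb) P.hFLT.symm
    simp only [WeierstrassCurve.Δ, WeierstrassCurve.b₂, WeierstrassCurve.b₄, WeierstrassCurve.b₆,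
      WeierstrassCurve.b₈, EK_a₁, EK_a₂, EK_a₃, EK_a₄, EK_a₆]
    push_cast
    rw [hc]
    field_simp
    ring
  rw [hΔ]
  have h0 : P.a ^ P.p * P.b ^ P.p * P.c ^ P.p ≠ 0 :=
    mul_ne_zero (mul_ne_zero (pow_ne_zero _ P.ha0) (pow_ne_zero _ P.hb0)) (pow_ne_zero _ P.hc0)
  exact div_ne_zero (pow_ne_zero 2 (Int.cast_ne_zero.2 h0)) (by norm_num)

/-- `(p-1)/2` -/
def halfP (P : FreyPackage) : ℕ := (P.p - 1) / 2

lemma two_mul_halfP_add_one (P : FreyPackage) : 2 * halfP P + 1 = P.p := by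
  obtain ⟨k, hk⟩ := P.hp_odd
  unfold halfP
  omega

lemma one_le_halfP (P : FreyPackage) : 1 ≤ halfP P := by
  have := two_mul_halfP_add_one P
  have := P.hp5
  omega

/-- The integral polynomial cutting out the `x`-coordinates of the nonzero `p`-torsion points. -/
noncomputable def freyPoly (P : FreyPackage) : ℤ[X] :=
  torsPoly (P.b ^ P.p - P.a ^ P.p) (-4 * freyT P) 0 (-4 * freyT P ^ 2) (halfP P)

lemma freyPoly_map (P : FreyPackage) :
    (freyPoly P).map (Int.castRingHom Kb)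
      = torsPoly (EK P).b₂ (EK P).b₄ (EK P).b₆ (EK P).b₈ (halfP P) := by
  rw [freyPoly, torsPoly_map, EK_b₂, EK_b₄, EK_b₆, EK_b₈]
  rfl

lemma freyPoly_natDegree (P : FreyPackage) :
    (freyPoly P).natDegree = 2 * halfP P ^ 2 + 2 * halfP P := by
  have h := DL_torsPoly (P.b ^ P.p - P.a ^ P.p) (-4 * freyT P) 0 (-4 * freyT P ^ 2) (halfP P)
    (one_le_halfP P)
  refine le_antisymm h.1 (le_natDegree_of_ne_zero ?_)
  rw [freyPoly, h.2]
  have : (0 : ℤ) < 2 * (halfP P : ℤ) + 1 := by positivity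
  omega

lemma freyPoly_leadingCoeff (P : FreyPackage) : (freyPoly P).leadingCoeff = -(P.p : ℤ) := by
  have h := DL_torsPoly (P.b ^ P.p - P.a ^ P.p) (-4 * freyT P) 0 (-4 * freyT P ^ 2) (halfP P)
    (one_le_halfP P)
  rw [leadingCoeff, freyPoly_natDegree, freyPoly, h.2, ← two_mul_halfP_add_one P]
  push_cast
  ring

lemma charK (P : FreyPackage) : (2 * (halfP P : Kb) + 1) ≠ 0 := by
  have : (2 * (halfP P : Kb) + 1) = ((2 * halfP P + 1 : ℕ) : Kb) := by push_cast; ring
  rw [this]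
  exact Nat.cast_ne_zero.2 (by omega)

lemma mem_tors_iff (P : FreyPackage) (Q : (EK P).Point) : Q ∈ Tors P ↔ P.p • Q = 0 := by
  rw [Submodule.mem_torsionBy_iff, Nat.cast_smul_eq_nsmul]

/-- a nonzero point is `p`-torsion iff its `x`-coordinate is a root of `freyPoly` -/
lemma tors_iff_root (P : FreyPackage) {Q : (EK P).Point} (hQ : Q ≠ 0) :
    P.p • Q = 0 ↔ aeval (xc Q) (freyPoly P) = 0 := by
  have h := odd_nsmul_eq_zero_iff hQ (halfP P)
  rw [two_mul_halfP_add_one] at h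
  rw [h, ← freyPoly_map, eval_map, aeval_def]
  rfl

theorem wpA_nontrivial (P : FreyPackage) : Nontrivial (Tors P) := by
  obtain ⟨Q, hQ, hp⟩ := exists_odd_torsion_ne_zero (EK_Δ_ne_zero P) (halfP P) (one_le_halfP P)
    (charK P)
  rw [two_mul_halfP_add_one] at hp
  refine ⟨⟨⟨Q, (mem_tors_iff P Q).2 hp⟩, 0, ?_⟩⟩
  intro h
  exact hQ (congrArg Subtype.val h)

/-- the finite set of nonzero `p`-torsion points -/
noncomputable def torsFin (P : FreyPackage) : Finset (EK P).Point :=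
  (torsSet_finite (W := EK P) (halfP P) (one_le_halfP P) (charK P)).toFinset

lemma mem_torsFin (P : FreyPackage) (Q : (EK P).Point) : Q ∈ torsFin P ↔ Q ≠ 0 ∧ P.p • Q = 0 := by
  rw [torsFin, Set.Finite.mem_toFinset, torsSet, Set.mem_ofPred_eq, two_mul_halfP_add_one]

/-- the roots of `freyPoly` in `Kb` -/
noncomputable def freyRoots (P : FreyPackage) : Finset Kb :=
  ((freyPoly P).map (Int.castRingHom Kb)).roots.toFinset

lemma freyPoly_map_ne_zero (P : FreyPackage) : (freyPoly P).map (Int.castRingHom Kb) ≠ 0 := by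
  rw [freyPoly_map]
  exact torsPoly_ne_zero _ (one_le_halfP P) (charK P)

lemma card_freyRoots_le (P : FreyPackage) : (freyRoots P).card ≤ 2 * halfP P ^ 2 + 2 * halfP P := by
  calc (freyRoots P).card ≤ Multiset.card ((freyPoly P).map (Int.castRingHom Kb)).roots :=
        Multiset.toFinset_card_le _
    _ ≤ ((freyPoly P).map (Int.castRingHom Kb)).natDegree := card_roots' _
    _ ≤ (freyPoly P).natDegree := natDegree_map_le
    _ = _ := freyPoly_natDegree P

lemma xc_mem_freyRoots (P : FreyPackage) {Q : (EK P).Point} (hQ : Q ∈ torsFin P) :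
    xc Q ∈ freyRoots P := by
  rw [mem_torsFin] at hQ
  rw [freyRoots, Multiset.mem_toFinset, mem_roots (freyPoly_map_ne_zero P), IsRoot.def, eval_map]
  have := (tors_iff_root P hQ.1).1 hQ.2
  rw [aeval_def] at this
  rwa [show algebraMap ℤ Kb = Int.castRingHom Kb from Subsingleton.elim _ _] at this

open Classical in
/-- a set of nonzero points has at most twice as many elements as its set of `x`-coordinates -/
lemma card_le_two_mul_card_image_xc {K : Type*} [Field K] {W : WeierstrassCurve.Affine K}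
    (T : Finset W.Point) (hT : ∀ Q ∈ T, Q ≠ 0) : T.card ≤ 2 * (T.image xc).card := by
  apply Finset.card_le_mul_card_image
  intro b hb
  obtain ⟨Q0, hQ0, rfl⟩ := Finset.mem_image.1 hb
  calc (T.filter (fun Q => xc Q = xc Q0)).card ≤ ({Q0, -Q0} : Finset W.Point).card := by
        apply Finset.card_le_card
        intro Q hQ
        rw [Finset.mem_filter] at hQ
        rcases (Fermat.Agent.S05.xc_eq_iff (hT Q hQ.1) (hT Q0 hQ0)).1 hQ.2 with h | h
        · simp [h]
        · simp [h]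
    _ ≤ 2 := Finset.card_le_two

lemma card_torsFin_le (P : FreyPackage) : (torsFin P).card ≤ 2 * (2 * halfP P ^ 2 + 2 * halfP P) := by
  classical
  calc (torsFin P).card ≤ 2 * ((torsFin P).image xc).card :=
        card_le_two_mul_card_image_xc _ (fun Q hQ => ((mem_torsFin P Q).1 hQ).1)
    _ ≤ 2 * (freyRoots P).card := by
        apply Nat.mul_le_mul_left
        apply Finset.card_le_card
        intro r hr
        obtain ⟨Q, hQ, rfl⟩ := Finset.mem_image.1 hr
        exact xc_mem_freyRoots P hQ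
    _ ≤ _ := Nat.mul_le_mul_left _ (card_freyRoots_le P)

lemma coe_tors_eq (P : FreyPackage) :
    ((Tors P : Submodule ℤ (EK P).Point) : Set (EK P).Point) = insert 0 (torsFin P : Set (EK P).Point) := by
  ext Q
  simp only [SetLike.mem_coe, Set.mem_insert_iff, mem_torsFin, mem_tors_iff]
  constructor
  · intro h
    by_cases h0 : Q = 0
    · exact Or.inl h0
    · exact Or.inr ⟨h0, h⟩
  · rintro (h | h)
    · rw [h]; exact nsmul_zero _
    · exact h.2

theorem wpA_finite (P : FreyPackage) : Finite (Tors P) := by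
  have : ((Tors P : Submodule ℤ (EK P).Point) : Set (EK P).Point).Finite := by
    rw [coe_tors_eq]
    exact (Finset.finite_toSet _).insert 0
  exact this.to_subtype

lemma card_tors_eq (P : FreyPackage) : Nat.card (Tors P) = (torsFin P).card + 1 := by
  classical
  have h1 : Nat.card (Tors P) = ((Tors P : Submodule ℤ (EK P).Point) : Set (EK P).Point).ncard :=
    Nat.card_coe_set_eq _
  rw [h1, coe_tors_eq, Set.ncard_insert_of_notMem, Set.ncard_coe_finset]
  intro h
  exact ((mem_torsFin P 0).1 h).1 rfl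

theorem wpA_card (P : FreyPackage) : Nat.card (Tors P) ≤ P.p ^ 2 := by
  rw [card_tors_eq]
  have h := card_torsFin_le P
  have e : P.p ^ 2 = 2 * (2 * halfP P ^ 2 + 2 * halfP P) + 1 := by
    rw [← two_mul_halfP_add_one P]; ring
  omega

end Fermat.Agent.S13
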