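import Mathlib

set_option autoImplicit false

namespace Fermat.Agent.S13

open Polynomial

section Gauss

/-- A monic rational polynomial is, up to its denominator, a primitive integral polynomial. -/
theorem exists_primitive_of_monic (g : ℚ[X]) (hg : g.Monic) :
    ∃ G : ℤ[X], G.IsPrimitive ∧ G.map (Int.castRingHom ℚ) = C (G.leadingCoeff : ℚ) * g := by
  obtain ⟨b, hb, hN⟩ := IsLocalization.integerNormalization_spec (nonZeroDivisors ℤ) g
  set N := IsLocalization.integerNormalization (nonZeroDivisors ℤ) g with hNdef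
  have hb0 : b ≠ 0 := nonZeroDivisors.ne_zero hb
  have hN' : N.map (Int.castRingHom ℚ) = C (b : ℚ) * g := by
    have : (algebraMap ℤ ℚ) = Int.castRingHom ℚ := rfl
    rw [this] at hN
    rw [hN]
    ext n
    simp
  have hN0 : N ≠ 0 := by
    intro h0
    rw [h0, Polynomial.map_zero] at hN'
    have : C (b : ℚ) * g ≠ 0 := mul_ne_zero (C_ne_zero.2 (Int.cast_ne_zero.2 hb0)) hg.ne_zero
    exact this hN'.symm
  refine ⟨N.primPart, N.isPrimitive_primPart, ?_⟩
  have hc0 : N.content ≠ 0 := by rwa [Ne, content_eq_zero_iff]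
  have e1 : N = C N.content * N.primPart := N.eq_C_content_mul_primPart
  have e2 : C (N.content : ℚ) * N.primPart.map (Int.castRingHom ℚ) = C (b : ℚ) * g := by
    rw [← hN']
    conv_rhs => rw [e1]
    simp
  -- compare leading coefficients
  have hinj : Function.Injective (Int.castRingHom ℚ) := Int.cast_injective
  have e3 : (N.content : ℚ) * (N.primPart.leadingCoeff : ℚ) = b := by
    have := congrArg leadingCoeff e2
    rw [leadingCoeff_mul, leadingCoeff_mul, leadingCoeff_C, leadingCoeff_C, hg.leadingCoeff,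
      mul_one, leadingCoeff_map_of_injective hinj] at this
    simpa using this
  have hcq : (N.content : ℚ) ≠ 0 := Int.cast_ne_zero.2 hc0
  have : C (N.content : ℚ) * N.primPart.map (Int.castRingHom ℚ)
      = C (N.content : ℚ) * (C (N.primPart.leadingCoeff : ℚ) * g) := by
    rw [e2, ← mul_assoc, ← C_mul, e3]
  exact mul_left_cancel₀ (C_ne_zero.2 hcq) this

/-- Gauss lemma dichotomy: if `Y = -p g₁ g₂` with `Y` integral and `g₁, g₂` monic rational, then one
of `g₁`, `g₂` is (the image of) a monic integral polynomial. -/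
theorem gauss_monic_or {p : ℕ} (hp : p.Prime) (Y : ℤ[X]) (g₁ g₂ : ℚ[X]) (h₁ : g₁.Monic)
    (h₂ : g₂.Monic) (hY : Y.map (Int.castRingHom ℚ) = C (-(p : ℚ)) * (g₁ * g₂)) :
    (∃ M : ℤ[X], M.Monic ∧ M.map (Int.castRingHom ℚ) = g₁) ∨
      (∃ M : ℤ[X], M.Monic ∧ M.map (Int.castRingHom ℚ) = g₂) := by
  obtain ⟨G₁, hp₁, e₁⟩ := exists_primitive_of_monic g₁ h₁
  obtain ⟨G₂, hp₂, e₂⟩ := exists_primitive_of_monic g₂ h₂
  have hinj : Function.Injective (Int.castRingHom ℚ) := Int.cast_injective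
  have key : C (G₁.leadingCoeff * G₂.leadingCoeff) * Y = C (-(p : ℤ)) * (G₁ * G₂) := by
    apply Polynomial.map_injective _ hinj
    simp only [Polynomial.map_mul, Polynomial.map_C, e₁, e₂, hY]
    simp only [eq_intCast, Int.cast_mul, Int.cast_neg, Int.cast_natCast, C_mul, C_neg]
    ring
  have hcont := congrArg content key
  rw [content_C_mul, content_C_mul, (hp₁.mul hp₂).content_eq_one, mul_one] at hcont
  have hdvd : G₁.leadingCoeff * G₂.leadingCoeff ∣ (p : ℤ) := by
    have h1 : G₁.leadingCoeff * G₂.leadingCoeff ∣ normalize (-(p : ℤ)) := by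
      rw [← hcont]
      exact Dvd.dvd.mul_right (dvd_normalize_iff.2 dvd_rfl) _
    rwa [dvd_normalize_iff, dvd_neg] at h1
  have hpi : Prime (p : ℤ) := Nat.prime_iff_prime_int.1 hp
  obtain ⟨c, hc⟩ := hdvd
  have hunit : IsUnit G₁.leadingCoeff ∨ IsUnit G₂.leadingCoeff := by
    rw [mul_assoc] at hc
    rcases hpi.irreducible.isUnit_or_isUnit hc with h | h
    · exact Or.inl h
    · exact Or.inr (isUnit_of_mul_isUnit_left h)
  have fin : ∀ (G : ℤ[X]) (g : ℚ[X]), G.map (Int.castRingHom ℚ) = C (G.leadingCoeff : ℚ) * g →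
      IsUnit G.leadingCoeff → ∃ M : ℤ[X], M.Monic ∧ M.map (Int.castRingHom ℚ) = g := by
    intro G g e hu
    have hsq : G.leadingCoeff * G.leadingCoeff = 1 := by
      rcases Int.isUnit_iff.1 hu with h | h <;> rw [h] <;> norm_num
    refine ⟨C G.leadingCoeff * G, ?_, ?_⟩
    · have h0 : G.leadingCoeff ≠ 0 := hu.ne_zero
      rw [Monic, leadingCoeff_mul, leadingCoeff_C, hsq]
    · rw [Polynomial.map_mul, Polynomial.map_C, e, ← mul_assoc, ← C_mul]
      have : (Int.castRingHom ℚ) G.leadingCoeff * (G.leadingCoeff : ℚ) = 1 := by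
        rw [eq_intCast]
        exact_mod_cast congrArg (Int.cast : ℤ → ℚ) hsq
      rw [this, C_1, one_mul]
  rcases hunit with h | h
  · exact Or.inl (fin G₁ g₁ e₁ h)
  · exact Or.inr (fin G₂ g₂ e₂ h)

end Gauss

section Descent

variable {K : Type*} [Field K] [Algebra ℚ K] [IsGalois ℚ K] [DecidableEq K]

/-- The monic polynomial with a Galois stable finite set of simple roots is rational. -/
theorem exists_rat_poly_of_stable (R : Finset K) (hR : ∀ (σ : K ≃ₐ[ℚ] K), ∀ r ∈ R, σ r ∈ R) :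
    ∃ g : ℚ[X], g.Monic ∧ g.map (algebraMap ℚ K) = ∏ r ∈ R, (X - C r) := by
  have hmonic : (∏ r ∈ R, (X - C r) : K[X]).Monic := monic_prod_of_monic _ _ fun r _ => monic_X_sub_C r
  have hfix : ∀ σ : K ≃ₐ[ℚ] K, (∏ r ∈ R, (X - C r) : K[X]).map (σ : K →+* K) = ∏ r ∈ R, (X - C r) := by
    intro σ
    rw [Polynomial.map_prod]
    have himg : R.image σ = R := by
      apply Finset.eq_of_subset_of_card_le
      · intro x hx
        obtain ⟨r, hr, rfl⟩ := Finset.mem_image.1 hx
        exact hR σ r hr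
      · rw [Finset.card_image_of_injective _ σ.injective]
    conv_rhs => rw [← himg]
    rw [Finset.prod_image (fun x _ y _ h => σ.injective h)]
    refine Finset.prod_congr rfl fun r _ => ?_
    simp
  have hl : (∏ r ∈ R, (X - C r) : K[X]) ∈ lifts (algebraMap ℚ K) := by
    rw [lifts_iff_coeff_lifts]
    intro n
    rw [InfiniteGalois.mem_range_algebraMap_iff_fixed]
    intro σ
    have := congrArg (fun q => coeff q n) (hfix σ)
    simpa [coeff_map] using this
  obtain ⟨g, hg, -, hgm⟩ := lifts_and_natDegree_eq_and_monic hl hmonic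
  exact ⟨g, hgm, hg⟩

theorem gauss_dichotomy {p : ℕ} (hp : p.Prime) (Y : ℤ[X]) (hlc : Y.leadingCoeff = -(p : ℤ))
    (R₁ R₂ : Finset K) (hdisj : Disjoint R₁ R₂) (hcard : R₁.card + R₂.card = Y.natDegree)
    (hroot : ∀ r ∈ R₁ ∪ R₂, eval₂ (Int.castRingHom K) r Y = 0)
    (h₁ : ∀ (σ : K ≃ₐ[ℚ] K), ∀ r ∈ R₁, σ r ∈ R₁) (h₂ : ∀ (σ : K ≃ₐ[ℚ] K), ∀ r ∈ R₂, σ r ∈ R₂) :
    (∀ r ∈ R₁, (Int.castRingHom K).IsIntegralElem r) ∨
      (∀ r ∈ R₂, (Int.castRingHom K).IsIntegralElem r) := by
  have : CharZero K := algebraRat.charZero K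
  obtain ⟨g₁, m₁, e₁⟩ := exists_rat_poly_of_stable R₁ h₁
  obtain ⟨g₂, m₂, e₂⟩ := exists_rat_poly_of_stable R₂ h₂
  have hinjK : Function.Injective (Int.castRingHom K) := Int.cast_injective
  set YK : K[X] := Y.map (Int.castRingHom K) with hYK
  have hY0 : Y ≠ 0 := by
    intro h0
    rw [h0, leadingCoeff_zero] at hlc
    have : (p : ℤ) = 0 := by omega
    exact hp.ne_zero (by exact_mod_cast this)
  have hYK0 : YK ≠ 0 := (Polynomial.map_ne_zero_iff hinjK).2 hY0
  have hdeg : YK.natDegree = Y.natDegree := natDegree_map_eq_of_injective hinjK Y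
  have hlcK : YK.leadingCoeff = -(p : K) := by
    rw [hYK, leadingCoeff_map_of_injective hinjK, hlc]; simp
  have hroots : YK.roots = (R₁ ∪ R₂).val := by
    symm
    apply Multiset.eq_of_le_of_card_le
    · rw [Multiset.le_iff_subset (R₁ ∪ R₂).nodup]
      intro r hr
      rw [mem_roots hYK0, IsRoot.def, hYK, eval_map]
      exact hroot r hr
    · calc Multiset.card YK.roots ≤ YK.natDegree := card_roots' YK
        _ = R₁.card + R₂.card := by rw [hdeg, hcard]
        _ = (R₁ ∪ R₂).card := (Finset.card_union_of_disjoint hdisj).symm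
        _ = Multiset.card (R₁ ∪ R₂).val := rfl
  have hfac : YK = C (-(p : K)) * ((∏ r ∈ R₁, (X - C r)) * (∏ r ∈ R₂, (X - C r))) := by
    have h := C_leadingCoeff_mul_prod_multiset_X_sub_C (p := YK) (by
      rw [hroots, hdeg, ← hcard, ← Finset.card_union_of_disjoint hdisj]; rfl)
    rw [hroots, hlcK] at h
    rw [← h, ← Finset.prod_union hdisj]
    rfl
  have hYq : Y.map (Int.castRingHom ℚ) = C (-(p : ℚ)) * (g₁ * g₂) := by
    apply Polynomial.map_injective _ (algebraMap ℚ K).injective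
    rw [Polynomial.map_map, Polynomial.map_mul, Polynomial.map_mul, e₁, e₂, Polynomial.map_C]
    have : (algebraMap ℚ K).comp (Int.castRingHom ℚ) = Int.castRingHom K := RingHom.ext_int _ _
    rw [this, ← hYK, hfac]
    simp
  have fin : ∀ (R : Finset K) (g : ℚ[X]), g.map (algebraMap ℚ K) = ∏ r ∈ R, (X - C r) →
      (∃ M : ℤ[X], M.Monic ∧ M.map (Int.castRingHom ℚ) = g) →
      ∀ r ∈ R, (Int.castRingHom K).IsIntegralElem r := by
    rintro R g e ⟨M, hM, hMg⟩ r hr
    refine ⟨M, hM, ?_⟩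
    have h1 : (M.map (Int.castRingHom ℚ)).map (algebraMap ℚ K) = ∏ r ∈ R, (X - C r) := by
      rw [hMg, e]
    rw [Polynomial.map_map] at h1
    have h2 : eval r (M.map ((algebraMap ℚ K).comp (Int.castRingHom ℚ))) = 0 := by
      rw [h1, eval_prod]
      exact Finset.prod_eq_zero hr (by simp)
    rw [eval_map] at h2
    rwa [show (algebraMap ℚ K).comp (Int.castRingHom ℚ) = Int.castRingHom K from
      RingHom.ext_int _ _] at h2
  rcases gauss_monic_or hp Y g₁ g₂ m₁ m₂ hYq with h | h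
  · exact Or.inl (fin R₁ g₁ e₁ h)
  · exact Or.inr (fin R₂ g₂ e₂ h)

end Descent

end Fermat.Agent.S13
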