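import Fermat.Agent.S13.WPA
import Fermat.Agent.S13.Gauss
import Fermat.Agent.S13.Glue

set_option autoImplicit false
open WeierstrassCurve WeierstrassCurve.Affine WeierstrassCurve.Affine.Point
open FreyPackage Polynomial

namespace Fermat.Agent.S13

open Fermat.Agent.S05 (xc yc)

/-- if a proper nonzero subspace exists, the torsion module has exactly `p ^ 2` elements -/
lemma card_tors_eq_sq (P : FreyPackage) (N : Submodule (ZMod P.p) (Tors P))
    (hbot : N ≠ ⊥) (htop : N ≠ ⊤) : Nat.card (Tors P) = P.p ^ 2 := by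
  have hfin := wpA_finite P
  have : Module.Finite (ZMod P.p) (Tors P) := Module.Finite.of_finite
  have h := Module.natCard_eq_pow_finrank (K := ZMod P.p) (V := Tors P)
  rw [Nat.card_zmod] at h
  have h2 := finrank_le_two hfin (wpA_card P)
  have h3 : Module.finrank (ZMod P.p) N < Module.finrank (ZMod P.p) (Tors P) :=
    Submodule.finrank_lt htop
  have h4 : 0 < Module.finrank (ZMod P.p) N := by
    rw [Module.finrank_pos_iff]
    exact Submodule.nontrivial_iff_ne_bot.2 hbot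
  have h5 : Module.finrank (ZMod P.p) (Tors P) = 2 := by omega
  rw [h, h5]

lemma card_torsFin_eq (P : FreyPackage) (N : Submodule (ZMod P.p) (Tors P))
    (hbot : N ≠ ⊥) (htop : N ≠ ⊤) :
    (torsFin P).card = 2 * (2 * halfP P ^ 2 + 2 * halfP P) := by
  have h1 := card_tors_eq_sq P N hbot htop
  rw [card_tors_eq] at h1
  have e : P.p ^ 2 = 2 * (2 * halfP P ^ 2 + 2 * halfP P) + 1 := by
    rw [← two_mul_halfP_add_one P]; ring
  omega

/-- membership of a point of the curve in a subspace of the torsion module -/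
def InN (P : FreyPackage) (N : Submodule (ZMod P.p) (Tors P)) (Q : (EK P).Point) : Prop :=
  ∃ h : Q ∈ Tors P, (⟨Q, h⟩ : Tors P) ∈ N

lemma InN_coe {P : FreyPackage} {N : Submodule (ZMod P.p) (Tors P)} (x : Tors P) :
    InN P N (x : (EK P).Point) ↔ x ∈ N :=
  ⟨fun ⟨_, h⟩ => h, fun h => ⟨x.2, h⟩⟩

lemma InN_neg {P : FreyPackage} {N : Submodule (ZMod P.p) (Tors P)} {Q : (EK P).Point}
    (h : InN P N Q) : InN P N (-Q) := by
  obtain ⟨h1, h2⟩ := h
  exact (InN_coe (-(⟨Q, h1⟩ : Tors P))).2 (N.neg_mem h2)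

lemma InN_smul {P : FreyPackage} {N : Submodule (ZMod P.p) (Tors P)} (hN : IsGaloisStable ℚ N)
    (σ : Gl) {Q : (EK P).Point} (h : InN P N Q) : InN P N (σ • Q) := by
  obtain ⟨h1, h2⟩ := h
  exact (InN_coe (σ • (⟨Q, h1⟩ : Tors P))).2 (hN σ _ h2)

lemma smul_mem_torsFin {P : FreyPackage} (σ : Gl) {Q : (EK P).Point} (h : Q ∈ torsFin P) :
    σ • Q ∈ torsFin P := by
  rw [mem_torsFin] at h ⊢
  refine ⟨fun h0 => h.1 ?_, ?_⟩
  · have : σ⁻¹ • (σ • Q) = σ⁻¹ • (0 : (EK P).Point) := by rw [h0]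
    rw [inv_smul_smul] at this
    rw [this]
    exact smul_zero (A := (EK P).Point) σ⁻¹
  · have h1 : Q ∈ Tors P := (mem_tors_iff P Q).2 h.2
    exact (mem_tors_iff P _).1 (smul_mem_torsionBy σ h1)

theorem wpB (P : FreyPackage) (N : Submodule (ZMod P.p) (Tors P)) (hN : IsGaloisStable ℚ N)
    (hbot : N ≠ ⊥) (htop : N ≠ ⊤) :
    (∀ x ∈ N, x ≠ 0 → IsIntegral ℤ (xc (x : (EK P).Point))) ∨
    (∀ x : Tors P, x ∉ N → IsIntegral ℤ (xc (x : (EK P).Point))) := by
  classical
  have : Algebra.IsAlgebraic ℚ Kb := AlgebraicClosure.isAlgebraic ℚ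
  have : IsAlgClosure ℚ Kb := ⟨inferInstance, inferInstance⟩
  have : IsGalois ℚ Kb := inferInstance
  set T₁ := (torsFin P).filter (fun Q => InN P N Q) with hT₁
  set T₂ := (torsFin P).filter (fun Q => ¬ InN P N Q) with hT₂
  set R₁ := T₁.image xc with hR₁
  set R₂ := T₂.image xc with hR₂
  have hne : ∀ Q ∈ torsFin P, Q ≠ 0 := fun Q hQ => ((mem_torsFin P Q).1 hQ).1
  have hdisj : Disjoint R₁ R₂ := by
    rw [Finset.disjoint_left]
    intro r h1 h2
    obtain ⟨Q1, hQ1, rfl⟩ := Finset.mem_image.1 h1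
    obtain ⟨Q2, hQ2, he⟩ := Finset.mem_image.1 h2
    rw [hT₁, Finset.mem_filter] at hQ1
    rw [hT₂, Finset.mem_filter] at hQ2
    rcases (Fermat.Agent.S05.xc_eq_iff (hne Q2 hQ2.1) (hne Q1 hQ1.1)).1 he with h | h
    · exact hQ2.2 (h ▸ hQ1.2)
    · exact hQ2.2 (h ▸ InN_neg hQ1.2)
  have hsub : R₁ ∪ R₂ ⊆ freyRoots P := by
    intro r hr
    rcases Finset.mem_union.1 hr with h | h
    · obtain ⟨Q, hQ, rfl⟩ := Finset.mem_image.1 h
      exact xc_mem_freyRoots P (Finset.mem_filter.1 hQ).1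
    · obtain ⟨Q, hQ, rfl⟩ := Finset.mem_image.1 h
      exact xc_mem_freyRoots P (Finset.mem_filter.1 hQ).1
  have hc1 : T₁.card ≤ 2 * R₁.card :=
    card_le_two_mul_card_image_xc T₁ (fun Q hQ => hne Q (Finset.mem_filter.1 hQ).1)
  have hc2 : T₂.card ≤ 2 * R₂.card :=
    card_le_two_mul_card_image_xc T₂ (fun Q hQ => hne Q (Finset.mem_filter.1 hQ).1)
  have hc3 : T₁.card + T₂.card = (torsFin P).card :=
    Finset.card_filter_add_card_filter_not _
  have hc4 : R₁.card + R₂.card ≤ 2 * halfP P ^ 2 + 2 * halfP P := by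
    rw [← Finset.card_union_of_disjoint hdisj]
    exact (Finset.card_le_card hsub).trans (card_freyRoots_le P)
  have hc5 := card_torsFin_eq P N hbot htop
  have hcard : R₁.card + R₂.card = (freyPoly P).natDegree := by
    rw [freyPoly_natDegree]; omega
  have hroot : ∀ r ∈ R₁ ∪ R₂, eval₂ (Int.castRingHom Kb) r (freyPoly P) = 0 := by
    intro r hr
    have := hsub hr
    rw [freyRoots, Multiset.mem_toFinset, mem_roots (freyPoly_map_ne_zero P), IsRoot.def,
      eval_map] at this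
    exact this
  have h₁ : ∀ (σ : Gl), ∀ r ∈ R₁, σ r ∈ R₁ := by
    intro σ r hr
    obtain ⟨Q, hQ, rfl⟩ := Finset.mem_image.1 hr
    rw [hT₁, Finset.mem_filter] at hQ
    rw [← xc_smul]
    exact Finset.mem_image_of_mem _
      (Finset.mem_filter.2 ⟨smul_mem_torsFin σ hQ.1, InN_smul hN σ hQ.2⟩)
  have h₂ : ∀ (σ : Gl), ∀ r ∈ R₂, σ r ∈ R₂ := by
    intro σ r hr
    obtain ⟨Q, hQ, rfl⟩ := Finset.mem_image.1 hr
    rw [hT₂, Finset.mem_filter] at hQ
    rw [← xc_smul]
    refine Finset.mem_image_of_mem _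
      (Finset.mem_filter.2 ⟨smul_mem_torsFin σ hQ.1, fun h => hQ.2 ?_⟩)
    have := InN_smul hN σ⁻¹ h
    rwa [inv_smul_smul] at this
  have hconv : ∀ r : Kb, (Int.castRingHom Kb).IsIntegralElem r → IsIntegral ℤ r := by
    intro r hr
    rw [_root_.IsIntegral, show algebraMap ℤ Kb = Int.castRingHom Kb from Subsingleton.elim _ _]
    exact hr
  rcases gauss_dichotomy P.pp (freyPoly P) (freyPoly_leadingCoeff P) R₁ R₂ hdisj hcard hroot h₁ h₂
    with h | h
  · left
    intro x hx hx0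
    apply hconv
    apply h
    refine Finset.mem_image_of_mem _ (Finset.mem_filter.2 ⟨(mem_torsFin P _).2 ⟨?_, ?_⟩, ?_⟩)
    · intro h0
      exact hx0 (Subtype.ext h0)
    · exact (mem_tors_iff P _).1 x.2
    · exact (InN_coe x).2 hx
  · right
    intro x hx
    apply hconv
    apply h
    refine Finset.mem_image_of_mem _ (Finset.mem_filter.2 ⟨(mem_torsFin P _).2 ⟨?_, ?_⟩, ?_⟩)
    · intro h0
      apply hx
      have : x = 0 := Subtype.ext h0
      rw [this]
      exact N.zero_mem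
    · exact (mem_tors_iff P _).1 x.2
    · exact fun h' => hx ((InN_coe x).1 h')

end Fermat.Agent.S13
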