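import Fermat.Agent.S05.Main

set_option autoImplicit false

namespace Fermat.Agent.S13

open WeierstrassCurve WeierstrassCurve.Affine WeierstrassCurve.Affine.Point
open Fermat.Agent.S05

variable {K : Type*} [Field K] [DecidableEq K] {A : ValuationSubring K}
  {W : WeierstrassCurve.Affine K} {p : ℕ} {σ : K →+* K} {s : W.Point →+ W.Point}

/-- type G: a torsion point whose `x`-coordinate is a unit at a place over `2` is fixed. -/
lemma fixed_of_unit_x (I : IntData A W) (D : PrimeData A p 2) (G : GalData A W σ s)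
    (ha₁ : W.a₁ = 1) (ha₃ : W.a₃ = 0)
    {Q : W.Point} (hQ : Q ≠ 0) (hpQ : p • Q = 0) (hx : A.valuation (xc Q) = 1) : s Q = Q := by
  apply fixed_of_nonsingular_red I D G hQ hpQ
  right
  have hy := tors_y I D hQ hpQ
  have h2 : A.valuation (2 : K) < 1 := by simpa using D.hqA
  have h2y : A.valuation (2 * yc Q) < 1 := by
    rw [map_mul]; exact mul_lt_one_of_lt_of_le₀ h2 hy
  rw [ha₁, ha₃, one_mul, add_zero, add_comm, Valuation.map_add_eq_of_lt_left _ (by rw [hx]; exact h2y),
    hx]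


omit [DecidableEq K] in
lemma val_two_mul_lt (h2 : A.valuation (2 : K) < 1) {z : K} (hz : A.valuation z ≤ 1) :
    A.valuation (2 * z) < 1 := by
  rw [map_mul]; exact mul_lt_one_of_lt_of_le₀ h2 hz

/-- formula for the `x`-coordinate of a difference -/
lemma xc_sub_of_ne {P Q : W.Point} (hP : P ≠ 0) (hQ : Q ≠ 0) (hx : xc P ≠ xc Q) :
    ∃ l : K, l * (xc P - xc Q) = yc P + yc Q + W.a₁ * xc Q + W.a₃ ∧
      xc (P - Q) = l ^ 2 + W.a₁ * l - W.a₂ - xc P - xc Q := by
  cases P with
  | zero => exact absurd rfl hP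
  | some x1 y1 h1 =>
    cases Q with
    | zero => exact absurd rfl hQ
    | some x2 y2 h2 =>
      simp only [xc_some, yc_some] at hx ⊢
      have hd : x1 - x2 ≠ 0 := sub_ne_zero.2 hx
      refine ⟨(y1 - W.negY x2 y2) / (x1 - x2), ?_, ?_⟩
      · rw [div_mul_cancel₀ _ hd, negY]; ring
      · rw [sub_eq_add_neg, neg_some, add_of_X_ne hx]
        simp only [xc_some, addX, slope_of_X_ne hx]

/-- sub-case (i): the point is close to the node but far from the `2`-torsion point. -/
lemma branch_two (I : IntData A W) (D : PrimeData A p 2) (G : GalData A W σ s)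
    (hv : ∀ x, A.valuation (σ x) = A.valuation x)
    (ha₁ : W.a₁ = 1) (ha₃ : W.a₃ = 0) (ha₆ : W.a₆ = 0)
    {P : W.Point} (hP : P ≠ 0) (hx1 : A.valuation (xc P) < 1)
    (hx4 : A.valuation W.a₄ < A.valuation (xc P)) :
    s P = P ∨ ¬ A.valuation (xc (s P - P)) < 1 := by
  have h2 : A.valuation (2 : K) < 1 := by simpa using D.hqA
  obtain ⟨x, hxdef⟩ : ∃ x, x = xc P := ⟨_, rfl⟩
  obtain ⟨y, hydef⟩ : ∃ y, y = yc P := ⟨_, rfl⟩
  have heq := equation_xc_yc hP
  rw [← hxdef, ← hydef, ha₁, ha₃, ha₆] at heq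
  rw [← hxdef] at hx1 hx4
  have hx0 : x ≠ 0 := by
    intro h
    rw [h, _root_.map_zero] at hx4
    exact not_lt_zero hx4
  have hvx0 : A.valuation x ≠ 0 := (A.valuation.ne_zero_iff).2 hx0
  obtain ⟨T, hT⟩ : ∃ T, T = y / x := ⟨_, rfl⟩
  have hyT : y = T * x := by rw [hT, div_mul_cancel₀ _ hx0]
  obtain ⟨e, he⟩ : ∃ e, e = W.a₄ / x := ⟨_, rfl⟩
  have hex : e * x = W.a₄ := by rw [he, div_mul_cancel₀ _ hx0]
  have hev : A.valuation e < 1 := by
    rw [he, map_div₀]
    exact (div_lt_one₀ (zero_lt_iff.2 hvx0)).2 hx4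
  have hTeq : T ^ 2 + 1 * T = W.a₂ + x + e := by
    have h3 : x ^ 2 * (T ^ 2 + 1 * T - (W.a₂ + x + e)) = 0 := by
      rw [hyT] at heq
      linear_combination heq - x * hex
    have := (mul_eq_zero.1 h3).resolve_left (pow_ne_zero 2 hx0)
    linear_combination this
  have ha₂v : A.valuation W.a₂ ≤ 1 := (A.valuation_le_one_iff _).2 I.h₂
  have hTv : A.valuation T ≤ 1 :=
    val_le_one_of_quadratic A.valuation (by simp)
      (val_add_le_one _ (val_add_le_one _ ha₂v hx1.le) hev.le) hTeq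
  have hσT := G.hσ T hTv
  obtain ⟨hs0, hsx, hsy⟩ := G.hs P hP
  rw [← hxdef] at hsx
  rw [← hydef] at hsy
  have hσx0 : σ x ≠ 0 := by
    rw [← A.valuation.ne_zero_iff, hv]; exact hvx0
  have hσy : σ y = σ T * σ x := by rw [hyT, map_mul]
  have h2T : A.valuation (2 * T) < 1 := val_two_mul_lt h2 hTv
  by_cases hxx : xc (s P) = xc P
  · left
    rcases (xc_eq_iff hs0 hP).1 hxx with h | h
    · exact h
    · exfalso
      have h3 : yc (s P) = W.negY (xc P) (yc P) := by rw [h, yc_neg hP]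
      rw [hsy, negY, ← hxdef, ← hydef, ha₁, ha₃, hσy] at h3
      rw [hsx, ← hxdef] at hxx
      rw [hxx, hyT] at h3
      have h4 : σ T = -T - 1 := by
        apply mul_right_cancel₀ hx0
        linear_combination h3
      rw [h4] at hσT
      have h5 : A.valuation (-T - 1 - T) = 1 := by
        have : -T - 1 - T = -(1 + 2 * T) := by ring
        rw [this, Valuation.map_neg, Valuation.map_one_add_of_lt _ h2T]
      rw [h5] at hσT
      exact lt_irrefl _ hσT
  · right
    intro hR
    obtain ⟨l, hl1, hl2⟩ := xc_sub_of_ne hs0 hP hxx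
    rw [hsx, hsy, ← hxdef, ← hydef, ha₁, ha₃] at hl1
    rw [hsx, ← hxdef, ha₁] at hl2
    have hσxv : A.valuation (σ x) < 1 := by rw [hv]; exact hx1
    have hleq : l ^ 2 + 1 * l = W.a₂ + xc (s P - P) + σ x + x := by linear_combination -hl2
    have hlv : A.valuation l ≤ 1 :=
      val_le_one_of_quadratic A.valuation (by simp)
        (val_add_le_one _ (val_add_le_one _ (val_add_le_one _ ha₂v hR.le) hσxv.le) hx1.le) hleq
    have hprod : (l - T) * (l + T + 1) = xc (s P - P) + σ x - e := by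
      linear_combination hleq - hTeq
    have hprodv : A.valuation ((l - T) * (l + T + 1)) < 1 := by
      rw [hprod]
      exact val_sub_lt_one _ (val_add_lt_one _ hR hσxv) hev
    have hrel : (l - σ T) * σ x = (l + T + 1) * x := by
      rw [hσy, hyT] at hl1
      linear_combination hl1
    have hrelv : A.valuation (l - σ T) = A.valuation (l + T + 1) := by
      have := congrArg A.valuation hrel
      rw [map_mul, map_mul, hv] at this
      exact mul_right_cancel₀ hvx0 this
    have hsum : (l + T + 1) - (l - σ T) = 1 + (2 * T + (σ T - T)) := by ring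
    have hsumv : A.valuation ((l + T + 1) - (l - σ T)) = 1 := by
      rw [hsum]
      exact Valuation.map_one_add_of_lt _ (val_add_lt_one _ h2T hσT)
    -- both factors small is impossible, so `v (l + T + 1) = 1 = v (l - σ T)`
    have hA1 : A.valuation (l + T + 1) ≤ 1 :=
      val_add_le_one _ (val_add_le_one _ hlv hTv) (by simp)
    have hnot : ¬ A.valuation (l + T + 1) < 1 := by
      intro h
      have h' : A.valuation (l - σ T) < 1 := by rw [hrelv]; exact h
      have := val_sub_lt_one A.valuation h h'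
      rw [hsumv] at this
      exact lt_irrefl _ this
    have hB1 : A.valuation (l + T + 1) = 1 := le_antisymm hA1 (not_lt.1 hnot)
    have hC1 : A.valuation (l - T) < 1 := by
      rw [map_mul, hB1, mul_one] at hprodv
      exact hprodv
    have hD1 : A.valuation (l - σ T) < 1 := by
      have : l - σ T = (l - T) - (σ T - T) := by ring
      rw [this]
      exact val_sub_lt_one _ hC1 hσT
    rw [hrelv, hB1] at hD1
    exact lt_irrefl _ hD1


lemma two_nsmul_ne_zero (hp : p.Prime) (hp2 : p ≠ 2) {P : W.Point} (hP : P ≠ 0)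
    (hpP : p • P = 0) : P + P ≠ 0 := by
  intro h
  have h2 : (2 : ℤ) • P = 0 := by rw [two_zsmul]; exact h
  have := (zsmul_eq_zero_iff_dvd hp hP hpP 2).1 h2
  have h3 : p ∣ 2 := by exact_mod_cast this
  exact hp2 ((Nat.prime_dvd_prime_iff_eq hp Nat.prime_two).1 h3)

/-- sub-case (ii): the point is close to the `2`-torsion point `(0,0)`. -/
lemma middle_two (I : IntData A W) (D : PrimeData A p 2) (G : GalData A W σ s)
    (ha₁ : W.a₁ = 1) (ha₃ : W.a₃ = 0) (ha₆ : W.a₆ = 0) (ha₄ : W.a₄ ≠ 0)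
    {P : W.Point} (hP : P ≠ 0) (hpP : p • P = 0) (hx1 : A.valuation (xc P) < 1)
    (hx4 : A.valuation (xc P) ≤ A.valuation W.a₄) : s P = P := by
  have h2P := two_nsmul_ne_zero D.hp D.hp2 hP hpP
  have hp2P : p • (P + P) = 0 := by rw [smul_add, hpP, add_zero]
  have hdbl := xc_dbl hP h2P
  obtain ⟨x, hxdef⟩ : ∃ x, x = xc P := ⟨_, rfl⟩
  rw [← hxdef] at hdbl hx1 hx4
  have hb₂ : W.b₂ = 1 + 4 * W.a₂ := by simp only [WeierstrassCurve.b₂, ha₁]; ring
  have hb₄ : W.b₄ = 2 * W.a₄ := by simp only [WeierstrassCurve.b₄, ha₁, ha₃]; ring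
  have hb₆ : W.b₆ = 0 := by simp only [WeierstrassCurve.b₆, ha₃, ha₆]; ring
  have hb₈ : W.b₈ = - W.a₄ ^ 2 := by simp only [WeierstrassCurve.b₈, ha₁, ha₃, ha₆]; ring
  rw [hb₄, hb₆, hb₈] at hdbl
  have hE : xc (P + P) * (x * (4 * x ^ 2 + W.b₂ * x + 4 * W.a₄)) = (x ^ 2 - W.a₄) ^ 2 := by
    linear_combination hdbl
  have hva4 : A.valuation W.a₄ ≠ 0 := (A.valuation.ne_zero_iff).2 ha₄
  have hva4pos : 0 < A.valuation W.a₄ := zero_lt_iff.2 hva4
  have hxsq : A.valuation (x ^ 2) < A.valuation W.a₄ := by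
    rw [map_pow, sq]
    calc A.valuation x * A.valuation x ≤ A.valuation x * A.valuation W.a₄ :=
          mul_le_mul' le_rfl hx4
      _ < 1 * A.valuation W.a₄ := by
          exact mul_lt_mul_of_pos_right hx1 hva4pos
      _ = A.valuation W.a₄ := one_mul _
  have hR : A.valuation ((x ^ 2 - W.a₄) ^ 2) = A.valuation W.a₄ ^ 2 := by
    rw [map_pow, Valuation.map_sub_eq_of_lt_right _ hxsq]
  have h4v : A.valuation (4 : K) ≤ 1 := by exact_mod_cast valuation_natCast_le_one A 4
  have hb₂v : A.valuation W.b₂ ≤ 1 := (A.valuation_le_one_iff _).2 I.b₂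
  have hF : A.valuation (4 * x ^ 2 + W.b₂ * x + 4 * W.a₄) ≤ A.valuation W.a₄ := by
    refine Valuation.map_add_le _ (Valuation.map_add_le _ ?_ ?_) ?_
    · rw [map_mul]
      exact (mul_le_of_le_one_left' h4v).trans hxsq.le
    · rw [map_mul]
      exact (mul_le_of_le_one_left' hb₂v).trans hx4
    · rw [map_mul]
      exact mul_le_of_le_one_left' h4v
  have hL : A.valuation (x * (4 * x ^ 2 + W.b₂ * x + 4 * W.a₄)) ≤ A.valuation W.a₄ ^ 2 := by
    rw [map_mul, sq (A.valuation W.a₄)]
    exact mul_le_mul' hx4 hF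
  have hx2 : A.valuation (xc (P + P)) = 1 := by
    refine le_antisymm (tors_x I D h2P hp2P) (not_lt.1 fun hlt => ?_)
    have h5 := congrArg A.valuation hE
    rw [map_mul, hR] at h5
    have h6 : A.valuation (xc (P + P)) * A.valuation (x * (4 * x ^ 2 + W.b₂ * x + 4 * W.a₄))
        < A.valuation W.a₄ ^ 2 := by
      calc A.valuation (xc (P + P)) * A.valuation (x * (4 * x ^ 2 + W.b₂ * x + 4 * W.a₄))
          ≤ A.valuation (xc (P + P)) * A.valuation W.a₄ ^ 2 := mul_le_mul' le_rfl hL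
        _ < 1 * A.valuation W.a₄ ^ 2 := mul_lt_mul_of_pos_right hlt (pow_pos hva4pos 2)
        _ = A.valuation W.a₄ ^ 2 := one_mul _
    rw [h5] at h6
    exact lt_irrefl _ h6
  have hfix := fixed_of_unit_x I D G ha₁ ha₃ h2P hp2P hx2
  apply fixed_of_multiple D.hp hpP (j := 2)
  · intro h
    have h3 : p ∣ 2 := by exact_mod_cast h
    exact D.hp2 ((Nat.prime_dvd_prime_iff_eq D.hp Nat.prime_two).1 h3)
  · rw [two_zsmul]; exact hfix

/-- **Unipotency of inertia at `2`** (abstract form). -/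
theorem unipotent_two (I : IntData A W) (D : PrimeData A p 2) (G : GalData A W σ s)
    {τ : K →+* K} {t : W.Point →+ W.Point} (G' : GalData A W τ t)
    (hv : ∀ x, A.valuation (σ x) = A.valuation x)
    (ha₁ : W.a₁ = 1) (ha₃ : W.a₃ = 0) (ha₆ : W.a₆ = 0) (ha₄ : W.a₄ ≠ 0)
    {P : W.Point} (hpP : p • P = 0) : t (s P - P) = s P - P := by
  by_cases hP : P = 0
  · rw [hP, _root_.map_zero, sub_zero, _root_.map_zero]
  have hzero : s P = P → t (s P - P) = s P - P := by
    intro h; rw [h, sub_self, _root_.map_zero]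
  have hx := tors_x I D hP hpP
  rcases hx.lt_or_eq with hx1 | hx1
  · rcases lt_or_ge (A.valuation W.a₄) (A.valuation (xc P)) with hx4 | hx4
    · rcases branch_two I D G hv ha₁ ha₃ ha₆ hP hx1 hx4 with h | h
      · exact hzero h
      · by_cases hR : s P - P = 0
        · rw [hR, _root_.map_zero]
        · have hpR : p • (s P - P) = 0 := by
            rw [smul_sub, ← map_nsmul, hpP, _root_.map_zero, sub_zero]
          exact fixed_of_unit_x I D G' ha₁ ha₃ hR hpR
            (le_antisymm (tors_x I D hR hpR) (not_lt.1 h))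
    · exact hzero (middle_two I D G ha₁ ha₃ ha₆ ha₄ hP hpP hx1 hx4)
  · exact hzero (fixed_of_unit_x I D G ha₁ ha₃ hP hpP hx1)

end Fermat.Agent.S13
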