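import Fermat.Agent.S13.Basic
import Fermat.Agent.S13.Unip2
import Fermat.Agent.S05.Inertia

set_option autoImplicit false

namespace Fermat.Agent.S13

open WeierstrassCurve WeierstrassCurve.Affine WeierstrassCurve.Affine.Point
open FreyPackage
open Fermat.Agent.S05
open scoped Pointwise

/-- elements of the decomposition group preserve `A` -/
lemma mem_of_decomp (A : ValuationSubring Kb) (σ : Gl) (hσ : σ ∈ A.decompositionSubgroup ℚ)
    {z : Kb} (hz : z ∈ A) : σ z ∈ A := by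
  have h1 : σ • A = A := hσ
  have h2 : σ • z ∈ σ • A := ValuationSubring.smul_mem_pointwise_smul σ z A hz
  rw [h1] at h2
  exact h2

lemma val_lt_one_of_decomp (A : ValuationSubring Kb) (σ : Gl)
    (hσ : σ ∈ A.decompositionSubgroup ℚ) {z : Kb} (hz : A.valuation z < 1) :
    A.valuation (σ z) < 1 := by
  by_contra hcon
  rw [not_lt] at hcon
  have hz0 : σ z ≠ 0 := by
    intro h
    rw [h, _root_.map_zero] at hcon
    exact absurd hcon (by simp)
  have h1 : A.valuation (σ z)⁻¹ ≤ 1 := by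
    rw [map_inv₀]
    exact inv_le_one_of_one_le₀ hcon
  have h2 := mem_of_decomp A σ⁻¹ (inv_mem hσ) ((A.valuation_le_one_iff _).1 h1)
  have h3 : σ⁻¹ (σ z)⁻¹ = z⁻¹ := by
    rw [map_inv₀]
    congr 1
    exact σ.symm_apply_apply z
  rw [h3, ← A.valuation_le_one_iff, map_inv₀] at h2
  have hz0' : z ≠ 0 := fun h => hz0 (by rw [h, _root_.map_zero])
  have h4 : 1 ≤ A.valuation z := by
    have hpos : 0 < A.valuation z := zero_lt_iff.2 ((A.valuation.ne_zero_iff).2 hz0')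
    exact (inv_le_one₀ hpos).1 h2
  exact absurd hz (not_lt.2 h4)

lemma val_lt_of_decomp (A : ValuationSubring Kb) (σ : Gl)
    (hσ : σ ∈ A.decompositionSubgroup ℚ) {a b : Kb} (h : A.valuation a < A.valuation b) :
    A.valuation (σ a) < A.valuation (σ b) := by
  have hb0 : b ≠ 0 := by
    intro hb
    rw [hb, _root_.map_zero] at h
    exact not_lt_zero h
  have hvb : 0 < A.valuation b := zero_lt_iff.2 ((A.valuation.ne_zero_iff).2 hb0)
  have hσb0 : σ b ≠ 0 := fun h' => hb0 (by simpa using h')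
  have hvσb : 0 < A.valuation (σ b) := zero_lt_iff.2 ((A.valuation.ne_zero_iff).2 hσb0)
  have h1 : A.valuation (a / b) < 1 := by
    rw [map_div₀]; exact (div_lt_one₀ hvb).2 h
  have h2 := val_lt_one_of_decomp A σ hσ h1
  rw [map_div₀, map_div₀] at h2
  exact (div_lt_one₀ hvσb).1 h2

lemma exists_pow_fix (σ : Gl) (x : Kb) : ∃ n : ℕ, 0 < n ∧ (σ ^ n) x = x := by
  have hx : IsIntegral ℚ x := (AlgebraicClosure.isAlgebraic ℚ).isIntegral.isIntegral x
  have hfin : ((minpoly ℚ x).rootSet Kb).Finite := Polynomial.rootSet_finite _ _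
  have hmem : ∀ k : ℕ, (σ ^ k) x ∈ (minpoly ℚ x).rootSet Kb := by
    intro k
    rw [Polynomial.mem_rootSet]
    refine ⟨minpoly.ne_zero hx, ?_⟩
    have := Polynomial.aeval_algHom_apply ((σ ^ k : Gl) : Kb →ₐ[ℚ] Kb) x (minpoly ℚ x)
    rw [minpoly.aeval, _root_.map_zero] at this
    exact this
  obtain ⟨a, b, hab, heq⟩ := hfin.exists_lt_map_eq_of_forall_mem hmem
  refine ⟨b - a, by omega, ?_⟩
  have h1 : (σ ^ b) x = (σ ^ a) ((σ ^ (b - a)) x) := by
    rw [← AlgEquiv.mul_apply, ← pow_add]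
    congr 2
    omega
  rw [h1] at heq
  exact ((σ ^ a).injective heq).symm

/-- elements of the decomposition group preserve the valuation -/
lemma val_eq_of_decomp (A : ValuationSubring Kb) (σ : Gl) (hσ : σ ∈ A.decompositionSubgroup ℚ)
    (x : Kb) : A.valuation (σ x) = A.valuation x := by
  obtain ⟨n, hn, hfix⟩ := exists_pow_fix σ x
  rcases lt_trichotomy (A.valuation (σ x)) (A.valuation x) with h | h | h
  · exfalso
    have key : ∀ k : ℕ, A.valuation ((σ ^ (k + 1)) x) < A.valuation x := by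
      intro k
      induction k with
      | zero => simpa using h
      | succ k ih =>
        have := val_lt_of_decomp A σ hσ ih
        rw [pow_succ' σ (k + 1), AlgEquiv.mul_apply]
        exact this.trans h
    have := key (n - 1)
    rw [Nat.sub_add_cancel hn, hfix] at this
    exact lt_irrefl _ this
  · exact h
  · exfalso
    have key : ∀ k : ℕ, A.valuation x < A.valuation ((σ ^ (k + 1)) x) := by
      intro k
      induction k with
      | zero => simpa using h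
      | succ k ih =>
        have := val_lt_of_decomp A σ hσ ih
        rw [pow_succ' σ (k + 1), AlgEquiv.mul_apply]
        exact h.trans this
    have := key (n - 1)
    rw [Nat.sub_add_cancel hn, hfix] at this
    exact lt_irrefl _ this

lemma inertia_le_decomp (A : ValuationSubring Kb) {σ : Gl} (hσ : σ ∈ A.inertiaSubgroupIn ℚ) :
    σ ∈ A.decompositionSubgroup ℚ := by
  obtain ⟨τ, _, rfl⟩ := Subgroup.mem_map.1 hσ
  exact τ.2


/-! ### Frey curve facts at `2` -/

lemma frey_b_pow (P : FreyPackage) : ∃ m : ℤ, P.b ^ P.p = 32 * m := by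
  obtain ⟨k, hk⟩ := (ZMod.intCast_zmod_eq_zero_iff_dvd P.b 2).1 P.hb2
  have hp5 := P.hp5
  obtain ⟨r, hr⟩ : ∃ r, P.p = 5 + r := ⟨P.p - 5, by omega⟩
  refine ⟨2 ^ r * k ^ P.p, ?_⟩
  rw [hk, mul_pow]
  conv_lhs => rw [hr, pow_add]
  rw [← hr]
  ring

lemma frey_a2_int (P : FreyPackage) : ∃ n : ℤ, P.b ^ P.p - 1 - P.a ^ P.p = 4 * n := by
  obtain ⟨m, hm⟩ := frey_b_pow P
  have h3 : (3 : ZMod 4) = -1 := by decide
  have h1 : ((P.b ^ P.p - 1 - P.a ^ P.p : ℤ) : ZMod 4) = 0 := by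
    push_cast
    rw [P.ha4, h3, P.hp_odd.neg_one_pow]
    have : ((P.b : ZMod 4)) ^ P.p = 0 := by
      have h4 : ((P.b ^ P.p : ℤ) : ZMod 4) = 0 := by
        rw [hm]; push_cast
        have : (32 : ZMod 4) = 0 := by decide
        rw [this, zero_mul]
      simpa using h4
    rw [this]; ring
  exact (ZMod.intCast_zmod_eq_zero_iff_dvd _ 4).1 h1

lemma EKD_a₁ (P : FreyPackage) : (EK P).a₁ = 1 := by simp [FreyPackage.freyCurve]
lemma EKD_a₃ (P : FreyPackage) : (EK P).a₃ = 0 := by simp [FreyPackage.freyCurve]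
lemma EKD_a₆ (P : FreyPackage) : (EK P).a₆ = 0 := by simp [FreyPackage.freyCurve]

lemma EKD_a₂ (P : FreyPackage) : ∃ n : ℤ, (EK P).a₂ = (n : Kb) := by
  obtain ⟨n, hn⟩ := frey_a2_int P
  refine ⟨n, ?_⟩
  have h1 : (EK P).a₂ = ((P.b : Kb) ^ P.p - 1 - (P.a : Kb) ^ P.p) / 4 := by
    simp [FreyPackage.freyCurve]
  have h2 : ((P.b : Kb) ^ P.p - 1 - (P.a : Kb) ^ P.p) = 4 * (n : Kb) := by
    exact_mod_cast congrArg (Int.cast : ℤ → Kb) hn
  rw [h1, h2]
  field_simp

lemma EKD_a₄ (P : FreyPackage) : ∃ n : ℤ, n ≠ 0 ∧ (EK P).a₄ = ((2 * n : ℤ) : Kb) ∧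
    16 * (2 * n) = - (P.a ^ P.p * P.b ^ P.p) := by
  obtain ⟨m, hm⟩ := frey_b_pow P
  have hm0 : m ≠ 0 := by
    intro h
    rw [h, mul_zero] at hm
    exact P.hb0 (pow_eq_zero_iff P.hp0 |>.1 hm)
  refine ⟨-(P.a ^ P.p * m), neg_ne_zero.2 (mul_ne_zero (pow_ne_zero _ P.ha0) hm0), ?_, ?_⟩
  · have h1 : (EK P).a₄ = -((P.a : Kb) ^ P.p) * ((P.b : Kb) ^ P.p) / 16 := by
      simp [FreyPackage.freyCurve]
    have h2 : (P.b : Kb) ^ P.p = 32 * (m : Kb) := by
      exact_mod_cast congrArg (Int.cast : ℤ → Kb) hm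
    rw [h1, h2]
    push_cast
    ring
  · rw [hm]; ring

lemma EK_intData (P : FreyPackage) (A : ValuationSubring Kb) : IntData A (EK P) := by
  obtain ⟨n₂, h₂⟩ := EKD_a₂ P
  obtain ⟨n₄, _, h₄, _⟩ := EKD_a₄ P
  refine ⟨?_, ?_, ?_, ?_, ?_⟩
  · rw [EKD_a₁]; exact A.one_mem
  · rw [h₂]; exact intCast_mem A n₂
  · rw [EKD_a₃]; exact A.zero_mem
  · rw [h₄]; exact intCast_mem A _
  · rw [EKD_a₆]; exact A.zero_mem

lemma EKD_a₄_ne_zero (P : FreyPackage) : (EK P).a₄ ≠ 0 := by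
  obtain ⟨n₄, hn, h₄, _⟩ := EKD_a₄ P
  rw [h₄]
  exact_mod_cast mul_ne_zero two_ne_zero hn

lemma galData (P : FreyPackage) (A : ValuationSubring Kb) {σ : Gl}
    (hσ : σ ∈ A.inertiaSubgroupIn ℚ) :
    GalData A (EK P) (σ : Kb →+* Kb) (Point.map (W' := P.freyCurve) σ.toAlgHom) := by
  refine ⟨?_, ?_⟩
  · intro Q hQ
    cases Q with
    | zero => exact absurd rfl hQ
    | some x y h =>
      rw [Point.map_some]
      exact ⟨some_ne_zero _, rfl, rfl⟩
  · intro x hx
    exact inertia_spec A σ hσ x hx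

lemma tors_nsmul (P : FreyPackage) (x : Tors P) : P.p • (x : (EK P).Point) = 0 := by
  have := x.2
  rw [Submodule.mem_torsionBy_iff] at this
  rw [← natCast_zsmul]
  exact this

theorem wpD (P : FreyPackage) (A : ValuationSubring Kb) (hA : A.LiesOverPrime 2)
    (σ τ : Gl) (hσ : σ ∈ A.inertiaSubgroupIn ℚ) (hτ : τ ∈ A.inertiaSubgroupIn ℚ) (x : Tors P) :
    τ • (σ • x - x) = σ • x - x := by
  apply Subtype.ext
  have hqA : A.valuation ((2 : ℕ) : Kb) < 1 := hA
  have D : PrimeData A P.p 2 :=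
    ⟨P.pp, by have := P.hp5; omega, Nat.prime_two, by have := P.hp5; omega, hqA⟩
  exact unipotent_two (EK_intData P A) D (galData P A hσ) (galData P A hτ)
    (fun z => val_eq_of_decomp A σ (inertia_le_decomp A hσ) z)
    (EKD_a₁ P) (EKD_a₃ P) (EKD_a₆ P) (EKD_a₄_ne_zero P) (tors_nsmul P x)

end Fermat.Agent.S13
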