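import Fermat.Agent.S05.Main
import Fermat.Agent.S13.MultVal2

set_option autoImplicit false

namespace Fermat.Agent.S13

open Fermat.Agent.S05
open WeierstrassCurve WeierstrassCurve.Affine WeierstrassCurve.Affine.Point

section RatVal

variable {K : Type*} [Field K] [CharZero K] (A : ValuationSubring K)

/-- a rational `2`-adic unit is `≡ 1` modulo the maximal ideal. -/
lemma val_rat_sub_one (h2A : A.valuation ((2 : ℕ) : K) < 1) (t : ℚ)
    (ht : A.valuation (t : K) = 1) : A.valuation ((t : K) - 1) < 1 := by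
  have hd0 : (t.den : K) ≠ 0 := by exact_mod_cast t.den_nz
  have hcast : (t : K) = (t.num : K) / (t.den : K) := Rat.cast_def t
  have hvd0 : A.valuation (t.den : K) ≠ 0 := (A.valuation.ne_zero_iff).2 hd0
  have hnd : A.valuation (t.num : K) = A.valuation (t.den : K) := by
    rw [hcast, map_div₀, div_eq_one_iff_eq hvd0] at ht
    exact ht
  have hcop := t.reduced
  -- the denominator is odd
  have hdodd : ¬ (2 : ℕ) ∣ t.den := by
    intro hd
    have hn : ¬ ((2 : ℕ) : ℤ) ∣ t.num := by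
      intro hn
      have h1 : 2 ∣ t.num.natAbs := by
        have := Int.natAbs_dvd_natAbs.2 hn
        simpa using this
      have := Nat.dvd_gcd h1 hd
      rw [Nat.Coprime] at hcop
      rw [hcop] at this
      omega
    have h1 := valuation_intCast_eq_one A Nat.prime_two h2A hn
    have h2 : A.valuation ((t.den : ℤ) : K) < 1 :=
      valuation_intCast_lt_one A h2A (by exact_mod_cast hd)
    rw [Int.cast_natCast, ← hnd, h1] at h2
    exact lt_irrefl _ h2
  have hvd : A.valuation (t.den : K) = 1 := valuation_natCast_eq_one A Nat.prime_two h2A hdodd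
  have hnodd : ¬ ((2 : ℕ) : ℤ) ∣ t.num := by
    intro hn
    have := valuation_intCast_lt_one A h2A hn
    rw [hnd, hvd] at this
    exact lt_irrefl _ this
  have e : (t : K) - 1 = ((t.num - t.den : ℤ) : K) / (t.den : K) := by
    rw [hcast]; push_cast; field_simp
  rw [e, map_div₀, hvd, div_one]
  apply valuation_intCast_lt_one A h2A
  have : ¬ (2 : ℤ) ∣ (t.den : ℤ) := by exact_mod_cast hdodd
  push_cast at hnodd ⊢
  omega

omit [CharZero K] in
lemma val_nat_eq_pow (h2A : A.valuation ((2 : ℕ) : K) < 1) (n : ℕ) (hn : n ≠ 0) :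
    ∃ k : ℕ, A.valuation (n : K) = A.valuation (2 : K) ^ k := by
  obtain ⟨k, m, hm, rfl⟩ := Nat.exists_eq_two_pow_mul_odd hn
  refine ⟨k, ?_⟩
  have h1 : A.valuation (m : K) = 1 :=
    valuation_natCast_eq_one A Nat.prime_two h2A (by
      intro h; exact (Nat.not_even_iff_odd.2 hm) (even_iff_two_dvd.2 h))
  push_cast
  rw [map_mul, h1, mul_one, map_pow]

lemma val_rat_eq_zpow (h2A : A.valuation ((2 : ℕ) : K) < 1) (t : ℚ) (ht : t ≠ 0) :
    ∃ k : ℤ, A.valuation (t : K) = A.valuation (2 : K) ^ k := by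
  obtain ⟨k1, h1⟩ := val_nat_eq_pow A h2A t.num.natAbs (by
    rw [Int.natAbs_ne_zero]; exact Rat.num_ne_zero.2 ht)
  obtain ⟨k2, h2⟩ := val_nat_eq_pow A h2A t.den t.den_nz
  have h3 : A.valuation (t.num : K) = A.valuation (t.num.natAbs : K) := by
    rcases Int.natAbs_eq t.num with h | h
    · conv_lhs => rw [h]
      simp
    · conv_lhs => rw [h]
      simp
  refine ⟨k1 - k2, ?_⟩
  have hv2 : A.valuation (2 : K) ≠ 0 := (A.valuation.ne_zero_iff).2 two_ne_zero
  rw [Rat.cast_def, map_div₀, h3, h1, h2, zpow_sub₀ hv2, zpow_natCast, zpow_natCast]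

end RatVal

variable {K : Type*} [Field K] [CharZero K] [DecidableEq K] (A : ValuationSubring K)
  {W : WeierstrassCurve.Affine K}

/-- A curve `y² + xy = x³ + a₂x² + a₄x` with `a₂` integral and `a₄` in the maximal ideal at a place
above `2` has no point of prime order `p ≥ 5` all of whose multiples have rational
`x`-coordinates, unless `v(a₄)²` is the `p`-th power of the valuation of a rational number. -/
theorem no_rat_torsion (h2A : A.valuation ((2 : ℕ) : K) < 1) {p : ℕ} (hp : p.Prime) (hp5 : 5 ≤ p)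
    (ha₁ : W.a₁ = 1) (ha₂ : W.a₂ ∈ A) (ha₃ : W.a₃ = 0) (ha₄ : W.a₄ ≠ 0)
    (hv4 : A.valuation W.a₄ < 1) (ha₆ : W.a₆ = 0)
    (hval : ∀ t : ℚ, t ≠ 0 → A.valuation (t : K) ^ p ≠ A.valuation W.a₄ ^ 2)
    {P : W.Point} (hP : P ≠ 0) (hpP : p • P = 0)
    (hrat : ∀ j : ℤ, ∃ t : ℚ, xc (j • P) = (t : K)) : False := by
  have hp2 : p ≠ 2 := by omega
  have D : PrimeData A p 2 := ⟨hp, hp2, Nat.prime_two, hp2, h2A⟩
  have I : IntData A W :=
    ⟨by rw [ha₁]; exact A.one_mem, ha₂, by rw [ha₃]; exact A.zero_mem,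
      (A.valuation_le_one_iff _).1 hv4.le, by rw [ha₆]; exact A.zero_mem⟩
  have n2 : (2 : K) ≠ 0 := two_ne_zero
  have h2 : A.valuation (2 : K) < 1 := by simpa using h2A
  have h4 : A.valuation (4 : K) < 1 := by
    have : (4 : K) = 2 * 2 := by norm_num
    rw [this, map_mul]
    exact mul_lt_one_of_lt_of_le₀ h2 h2.le
  obtain ⟨c, hc⟩ : ∃ c, c = W.a₄ := ⟨_, rfl⟩
  obtain ⟨b', hb⟩ : ∃ b', b' = W.b₂ := ⟨_, rfl⟩
  rw [← hc] at ha₄ hv4 hval
  have H : ShiftData W 0 c b' := by
    refine ⟨?_, ?_, ?_, n2⟩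
    · simp only [WeierstrassCurve.b₆, ha₃, ha₆]; ring
    · simp only [WeierstrassCurve.b₄, ha₃, hc]; ring
    · rw [hb]; ring
  have hb' : A.valuation b' = 1 := by
    have e : b' = 1 + 4 * W.a₂ := by
      rw [hb]; simp only [WeierstrassCurve.b₂, ha₁]; ring
    rw [e, Valuation.map_add_eq_of_lt_left, map_one]
    rw [map_one, map_mul]
    exact mul_lt_one_of_lt_of_le₀ h4 ((A.valuation_le_one_iff _).2 ha₂)
  have hz := zsmul_eq_zero_iff_dvd hp hP hpP
  have hpj : ∀ j : ℤ, p • (j • P) = 0 := fun j => by rw [smul_comm, hpP, smul_zero]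
  have hpi : Prime (p : ℤ) := Nat.prime_iff_prime_int.1 hp
  have hsmall : ∀ m : ℤ, 0 < m → m < 5 → ¬ (p : ℤ) ∣ m := by
    intro m h0 h5 h
    have := Int.le_of_dvd h0 h
    omega
  have hknd : ∀ m : ℤ, 0 < m → m < 5 → ∀ j : ℤ, ¬ (p : ℤ) ∣ j → ¬ (p : ℤ) ∣ m * j := by
    intro m h0 h5 j hj h
    rcases hpi.dvd_or_dvd h with h | h
    · exact hsmall m h0 h5 h
    · exact hj h
  have h2nd : ∀ j : ℤ, ¬ (p : ℤ) ∣ j → ¬ (p : ℤ) ∣ 2 * j := hknd 2 (by norm_num) (by norm_num)
  by_cases hex : ∃ j : ℤ, ¬ (p : ℤ) ∣ j ∧ A.valuation (xc (j • P)) = 1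
  · -- Case II
    obtain ⟨j, hj, hX⟩ := hex
    have hR0 : j • P ≠ 0 := fun h => hj ((hz j).1 h)
    have h2R0 : (2 * j) • P ≠ 0 := fun h => h2nd j hj ((hz _).1 h)
    have h3R0 : (3 * j) • P ≠ 0 := fun h => hknd 3 (by norm_num) (by norm_num) j hj ((hz _).1 h)
    have e2 : (2 * j) • P = j • P + j • P := by rw [two_mul, add_smul]
    have e3 : (3 * j) • P = (2 * j) • P + j • P := by rw [← add_smul]; congr 1; ring
    have e1 : j • P = (2 * j) • P - j • P := by rw [← sub_smul]; congr 1; ring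
    obtain ⟨x1, hx1⟩ : ∃ x, x = xc (j • P) := ⟨_, rfl⟩
    obtain ⟨x2, hx2⟩ : ∃ x, x = xc ((2 * j) • P) := ⟨_, rfl⟩
    obtain ⟨x3, hx3⟩ : ∃ x, x = xc ((3 * j) • P) := ⟨_, rfl⟩
    have hd := H.dbl hR0 (by rw [← e2]; exact h2R0)
    rw [← e2, ← hx1, ← hx2] at hd
    simp only [sub_zero] at hd
    rw [← hx1] at hX
    have hv2 : A.valuation x2 = 1 := by
      have r1 : A.valuation ((x1 ^ 2 - c) ^ 2) = 1 := by
        rw [map_pow, Valuation.map_sub_eq_of_lt_left, map_pow, hX, one_pow, one_pow]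
        rw [map_pow, hX, one_pow]; exact hv4
      have r2 : A.valuation (4 * x1 ^ 2 + b' * x1 + 4 * c) = 1 := by
        have s1 : A.valuation (4 * x1 ^ 2) < 1 := by
          rw [map_mul, map_pow, hX, one_pow, mul_one]; exact h4
        have s2 : A.valuation (b' * x1) = 1 := by rw [map_mul, hb', hX, one_mul]
        have s3 : A.valuation (4 * c) < 1 := by
          rw [map_mul]; exact mul_lt_one_of_lt_of_le₀ h4 hv4.le
        have s4 : A.valuation (4 * x1 ^ 2 + b' * x1) = 1 := by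
          rw [Valuation.map_add_eq_of_lt_right, s2]
          rw [s2]; exact s1
        rw [Valuation.map_add_eq_of_lt_left, s4]
        rw [s4]; exact s3
      rw [← hd, map_mul, map_mul, hX, r2, one_mul, mul_one] at r1
      exact r1
    have hne : xc ((2 * j) • P) ≠ xc (j • P) := by
      apply xc_ne_of_add_sub_ne_zero h2R0 hR0
      · rw [← e3]; exact h3R0
      · rw [← e1]; exact hR0
    have hpr := H.prod h2R0 hR0 hne
    rw [← e3, ← e1, ← hx1, ← hx2, ← hx3] at hpr
    simp only [sub_zero] at hpr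
    have hv3 : A.valuation x3 ≤ 1 := by rw [hx3]; exact tors_x I D h3R0 (hpj _)
    obtain ⟨t1, ht1⟩ := hrat j
    obtain ⟨t2, ht2⟩ := hrat (2 * j)
    rw [← hx1] at ht1
    rw [← hx2] at ht2
    have d1 := val_rat_sub_one A h2A t1 (by rw [← ht1]; exact hX)
    have d2 := val_rat_sub_one A h2A t2 (by rw [← ht2]; exact hv2)
    rw [← ht1] at d1
    rw [← ht2] at d2
    have d3 : A.valuation (x2 - x1) < 1 := by
      have : x2 - x1 = (x2 - 1) - (x1 - 1) := by ring
      rw [this]; exact Valuation.map_sub_lt _ d2 d1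
    have r3 : A.valuation ((x2 * x1 - c) ^ 2) = 1 := by
      rw [map_pow, Valuation.map_sub_eq_of_lt_left, map_mul, hX, hv2, one_mul, one_pow]
      rw [map_mul, hX, hv2, one_mul]; exact hv4
    rw [← hpr, map_mul, map_mul, hX, mul_one, map_pow] at r3
    have : A.valuation x3 * A.valuation (x2 - x1) ^ 2 < 1 :=
      mul_lt_one_of_le_of_lt₀ hv3 (pow_lt_one₀ zero_le d3 two_ne_zero)
    rw [r3] at this
    exact lt_irrefl _ this
  · -- Case I
    have hlt : ∀ j : ℤ, ¬ (p : ℤ) ∣ j → A.valuation (xc (j • P)) < 1 := by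
      intro j hj
      have hj0 : j • P ≠ 0 := fun h => hj ((hz j).1 h)
      refine lt_of_le_of_ne (tors_x I D hj0 (hpj j)) ?_
      intro h
      exact hex ⟨j, hj, h⟩
    obtain ⟨j0, hj0, hmax⟩ := Finset.exists_max_image (Finset.Icc 1 (p - 1))
      (fun j : ℕ => A.valuation (xc (j • P))) ⟨1, by simp; omega⟩
    rw [Finset.mem_Icc] at hj0
    have hj0nd : ¬ (p : ℤ) ∣ (j0 : ℤ) := by
      intro h
      have := Nat.le_of_dvd (by omega) (Int.natCast_dvd_natCast.1 h)
      omega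
    obtain ⟨P', hP'⟩ : ∃ P', P' = (j0 : ℤ) • P := ⟨_, rfl⟩
    have hP'0 : P' ≠ 0 := by rw [hP']; exact fun h => hj0nd ((hz _).1 h)
    have hpP' : p • P' = 0 := by rw [hP']; exact hpj _
    have hz' := zsmul_eq_zero_iff_dvd hp hP'0 hpP'
    have hmulnd : ∀ j : ℤ, ¬ (p : ℤ) ∣ j → ¬ (p : ℤ) ∣ j * j0 := by
      intro j hj h
      rcases hpi.dvd_or_dvd h with h | h
      · exact hj h
      · exact hj0nd h
    have hsm : ∀ j : ℤ, j • P' = (j * j0) • P := fun j => by rw [hP', mul_smul]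
    have hne0 : ∀ j : ℤ, ¬ (p : ℤ) ∣ j → j • P' ≠ 0 := fun j hj h => hj ((hz' j).1 h)
    have heta : ∀ j : ℤ, ¬ (p : ℤ) ∣ j →
        2 * yc (j • P') + W.a₁ * xc (j • P') + W.a₃ ≠ 0 := by
      intro j hj h
      have h1 := (add_self_eq_zero_iff (hne0 j hj)).2 h
      rw [← two_zsmul, smul_smul] at h1
      exact h2nd j hj ((hz' _).1 h1)
    have hprod : ∀ j : ℤ, ¬ (p : ℤ) ∣ j →
        (xc (j • P')) * (4 * (xc (j • P')) ^ 2 + b' * (xc (j • P')) + 4 * c) ≠ 0 := by
      intro j hj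
      have := H.eta_sq (hne0 j hj)
      simp only [sub_zero] at this
      rw [← this]
      exact pow_ne_zero 2 (heta j hj)
    have hxne : ∀ i j : ℤ, ¬ (p : ℤ) ∣ i → ¬ (p : ℤ) ∣ j → ¬ (p : ℤ) ∣ i + j → ¬ (p : ℤ) ∣ i - j →
        xc (i • P') ≠ xc (j • P') := by
      intro i j hi hj hij hij'
      apply xc_ne_of_add_sub_ne_zero (hne0 i hi) (hne0 j hj)
      · rw [← add_smul]; exact hne0 _ hij
      · rw [← sub_smul]; exact hne0 _ hij'
    have key := mult_val_gen A.valuation p hp hp2 (fun j => xc (j • P')) c b' ha₄ hb' h2.le n2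
      (fun j hj => left_ne_zero_of_mul (hprod j hj))
      (fun j hj => by
        rw [hsm]; exact hlt _ (hmulnd j hj))
      (fun i j hij => by
        have : i • P' = -(j • P') := by
          rw [eq_neg_iff_add_eq_zero, ← add_smul]; exact (hz' _).2 hij
        rw [this, xc_neg])
      (fun j hj => by
        obtain ⟨m, hm1, hm2, hm⟩ := exists_nat_rep hp hpP (j * j0) (hmulnd j hj)
        rw [hsm, hm, one_smul, hP', natCast_zsmul]
        exact hmax m (by rw [Finset.mem_Icc]; exact ⟨hm1, hm2⟩))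
      (fun i j hi hj hij hij' => hxne i j hi hj hij hij')
      (fun i j hi hj hij hij' => by
        rw [add_smul, sub_smul]
        have := H.prod (hne0 i hi) (hne0 j hj) (hxne i j hi hj hij hij')
        simpa only [sub_zero] using this)
      (fun j hj => right_ne_zero_of_mul (hprod j hj))
      (fun j hj => by
        have h1 : (2 * j) • P' = j • P' + j • P' := by rw [two_mul, add_smul]
        rw [h1]
        have := H.dbl (hne0 j hj) (by rw [← h1]; exact hne0 _ (h2nd j hj))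
        simpa only [sub_zero] using this)
    simp only [one_smul] at key
    obtain ⟨t, ht⟩ := hrat j0
    rw [← hP'] at ht
    have h1nd : ¬ (p : ℤ) ∣ 1 := hsmall 1 (by norm_num) (by norm_num)
    have hx0 : xc P' ≠ 0 := by
      have := left_ne_zero_of_mul (hprod 1 h1nd)
      rwa [one_smul] at this
    refine hval t ?_ (by rw [← ht]; exact key)
    rintro rfl
    apply hx0
    rw [ht]; simp

end Fermat.Agent.S13
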