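import Fermat.Agent.S13.Basic
import Fermat.Agent.S13.RatTors
import Fermat.Agent.S54.Frobenius

set_option autoImplicit false
open WeierstrassCurve WeierstrassCurve.Affine WeierstrassCurve.Affine.Point
open FreyPackage

namespace Fermat.Agent.S13

open Fermat.Agent.S05

/-- `a₂` of the Frey curve is an integer. -/
lemma frey_four_dvd (P : FreyPackage) : ∃ m : ℤ, P.b ^ P.p - 1 - P.a ^ P.p = 4 * m := by
  have hb : (2 : ℤ) ∣ P.b := (ZMod.intCast_zmod_eq_zero_iff_dvd P.b 2).1 P.hb2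
  obtain ⟨k, hk⟩ := hb
  obtain ⟨r, hr⟩ : ∃ r, P.p = 2 + r := ⟨P.p - 2, by have := P.hp5; omega⟩
  have h1 : ((P.b ^ P.p - 1 - P.a ^ P.p : ℤ) : ZMod 4) = 0 := by
    push_cast
    rw [P.ha4]
    have h3 : (3 : ZMod 4) = -1 := by decide
    rw [h3, P.hp_odd.neg_one_pow]
    have h4 : (P.b : ZMod 4) ^ P.p = 0 := by
      rw [hk, hr, pow_add]
      push_cast
      have : ((2 : ZMod 4) * (k : ZMod 4)) ^ 2 = 4 * (k : ZMod 4) ^ 2 := by ring
      rw [this]
      have h40 : (4 : ZMod 4) = 0 := by decide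
      rw [h40]; ring
    rw [h4]; ring
  exact (ZMod.intCast_zmod_eq_zero_iff_dvd _ 4).1 h1

lemma frey_32_dvd (P : FreyPackage) : ∃ m : ℤ, P.b ^ P.p = 32 * m := by
  have hb : (2 : ℤ) ∣ P.b := (ZMod.intCast_zmod_eq_zero_iff_dvd P.b 2).1 P.hb2
  obtain ⟨k, hk⟩ := hb
  obtain ⟨r, hr⟩ : ∃ r, P.p = 5 + r := ⟨P.p - 5, by have := P.hp5; omega⟩
  refine ⟨k ^ 5 * P.b ^ r, ?_⟩
  have h5 : P.b ^ 5 = 32 * k ^ 5 := by rw [hk]; ring
  rw [hr, pow_add, h5]
  ring

lemma frey_a_odd (P : FreyPackage) : ¬ ((2 : ℕ) : ℤ) ∣ P.a := by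
  rintro ⟨k, hk⟩
  have h := P.ha4
  rw [hk] at h
  push_cast at h
  have : ∀ z : ZMod 4, 2 * z ≠ 3 := by decide
  exact this _ h

theorem wpE (P : FreyPackage) (x : Tors P) (hx : ∀ σ : Gl, σ • x = x) : x = 0 := by
  by_contra hx0
  obtain ⟨A, hA⟩ := Fermat.Agent.S54.exists_liesOverPrime Nat.prime_two
  have h2A : A.valuation ((2 : ℕ) : Kb) < 1 := hA
  have hQ0 : x.1 ≠ 0 := fun h => hx0 (Subtype.ext h)
  have hpQ : P.p • x.1 = 0 := by
    have := x.2
    rw [Submodule.mem_torsionBy_iff] at this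
    rw [← natCast_zsmul]
    exact this
  have h2 : A.valuation (2 : Kb) < 1 := by simpa using h2A
  have hv20 : A.valuation (2 : Kb) ≠ 0 := (A.valuation.ne_zero_iff).2 two_ne_zero
  obtain ⟨m2, hm2⟩ := frey_four_dvd P
  obtain ⟨m4, hm4⟩ := frey_32_dvd P
  have ea₂ : (EK P).a₂ = ((m2 : ℤ) : Kb) := by
    have h1 : ((P.b : Kb) ^ P.p - 1 - (P.a : Kb) ^ P.p) = 4 * (m2 : Kb) := by
      exact_mod_cast congrArg (Int.cast : ℤ → Kb) hm2
    have : (EK P).a₂ = ((P.b : Kb) ^ P.p - 1 - (P.a : Kb) ^ P.p) / 4 := by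
      simp [FreyPackage.freyCurve]
    rw [this, h1]; field_simp
  have ea₄ : (EK P).a₄ = -((P.a : Kb) ^ P.p) * ((P.b : Kb) ^ P.p) / 16 := by
    simp [FreyPackage.freyCurve]
  have hva : A.valuation (P.a : Kb) = 1 :=
    valuation_intCast_eq_one A Nat.prime_two h2A (frey_a_odd P)
  have h16 : A.valuation (16 : Kb) = A.valuation (2 : Kb) ^ 4 := by
    rw [← map_pow]; norm_num
  have hv4 : A.valuation (EK P).a₄ = A.valuation (P.b : Kb) ^ P.p / A.valuation (2 : Kb) ^ 4 := by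
    rw [ea₄, map_div₀, map_mul, Valuation.map_neg, map_pow, map_pow, hva, one_pow, one_mul, h16]
  refine no_rat_torsion A h2A P.pp P.hp5 (W := EK P) (by simp [FreyPackage.freyCurve]) ?_
    (by simp [FreyPackage.freyCurve]) ?_ ?_ (by simp [FreyPackage.freyCurve]) ?_ hQ0 hpQ ?_
  · rw [ea₂]; exact intCast_mem A m2
  · rw [ea₄]
    have ha : (P.a : Kb) ≠ 0 := by exact_mod_cast P.ha0
    have hb : (P.b : Kb) ≠ 0 := by exact_mod_cast P.hb0
    exact div_ne_zero (mul_ne_zero (neg_ne_zero.2 (pow_ne_zero _ ha)) (pow_ne_zero _ hb))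
      (by norm_num)
  · have h1 : (P.b : Kb) ^ P.p = 32 * (m4 : Kb) := by
      exact_mod_cast congrArg (Int.cast : ℤ → Kb) hm4
    have h3 : (EK P).a₄ = 2 * ((-(P.a ^ P.p * m4) : ℤ) : Kb) := by
      rw [ea₄, h1]; push_cast; ring
    rw [h3, map_mul]
    exact mul_lt_one_of_lt_of_le₀ h2 (valuation_intCast_le_one A _)
  · intro t ht heq
    obtain ⟨k, hk⟩ := val_rat_eq_zpow A h2A t ht
    obtain ⟨l, hl⟩ := val_rat_eq_zpow A h2A (P.b : ℚ) (by exact_mod_cast P.hb0)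
    rw [Rat.cast_intCast] at hl
    rw [hv4, hk, hl, ← zpow_natCast, ← zpow_natCast, ← zpow_natCast, ← zpow_natCast, ← zpow_mul,
      ← zpow_mul, ← zpow_sub₀ hv20, ← zpow_mul] at heq
    have hinj := zpow_right_injective₀ (zero_lt_iff.2 hv20) h2.ne heq
    have hdvd : (P.p : ℤ) ∣ 8 := ⟨2 * l - k, by push_cast at hinj; linarith⟩
    have hdvd' : P.p ∣ 2 ^ 3 := by exact_mod_cast hdvd
    have := Nat.le_of_dvd (by norm_num) (P.pp.dvd_of_dvd_pow hdvd')
    have := P.hp5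
    omega
  · intro j
    have hfix : ∀ σ : Gl, σ (xc (j • x.1)) = xc (j • x.1) := by
      intro σ
      have h1 : σ • x.1 = x.1 := congrArg Subtype.val (hx σ)
      have h3 : σ • (j • x.1) = j • x.1 := by
        rw [algEquiv_smul_zsmul, h1]
      have h4 : ∀ Q : (EK P).Point, xc (σ • Q) = σ (xc Q) := by
        intro Q
        cases Q with
        | zero => exact (map_zero σ).symm
        | some x y h => rfl
      rw [← h4, h3]
    have hmem : xc (j • x.1) ∈ Set.range (algebraMap ℚ Kb) := by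
      rw [InfiniteGalois.mem_range_algebraMap_iff_fixed]
      exact hfix
    obtain ⟨t, ht⟩ := hmem
    exact ⟨t, by rw [← ht]; simp⟩

end Fermat.Agent.S13
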