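import Fermat.Statements.S13
import Fermat.Agent.S05.Formulas

set_option autoImplicit false
open WeierstrassCurve WeierstrassCurve.Affine WeierstrassCurve.Affine.Point
open FreyPackage

namespace Fermat.Agent.S13

open Fermat.Agent.S05 (xc yc)

abbrev Kb := AlgebraicClosure ℚ
abbrev Gl := Kb ≃ₐ[ℚ] Kb

/-- the Frey curve over `Kb` -/
noncomputable abbrev EK (P : FreyPackage) : WeierstrassCurve.Affine Kb := P.freyCurve⁄Kb

/-- the `p`-torsion module of the Frey curve -/
noncomputable abbrev Tors (P : FreyPackage) := Submodule.torsionBy ℤ (EK P).Point P.p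

end Fermat.Agent.S13
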