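import Fermat.Agent.S05.Formulas

set_option autoImplicit false

namespace Fermat.Agent.S13

open WeierstrassCurve WeierstrassCurve.Affine WeierstrassCurve.Affine.Point
open Fermat.Agent.S05

section Defs

variable {R : Type*} [CommRing R]

/-- Parameters of the `x`-only ladder: the `b`-invariants and the `x`-coordinate of the base point. -/
structure LadPar (R : Type*) where
  b2 : R
  b4 : R
  b6 : R
  b8 : R
  x : R

/-- projective `x`-only doubling -/
def dbl (c : LadPar R) (s : R × R) : R × R :=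
  (s.1 ^ 4 - c.b4 * s.1 ^ 2 * s.2 ^ 2 - 2 * c.b6 * s.1 * s.2 ^ 3 - c.b8 * s.2 ^ 4,
    4 * s.1 ^ 3 * s.2 + c.b2 * s.1 ^ 2 * s.2 ^ 2 + 2 * c.b4 * s.1 * s.2 ^ 3 + c.b6 * s.2 ^ 4)

/-- projective `x`-only differential addition, the difference being the base point -/
def dadd (c : LadPar R) (s t : R × R) : R × R :=
  (2 * s.1 * t.1 * (s.1 * t.2 + t.1 * s.2) + c.b2 * s.1 * t.1 * s.2 * t.2
      + c.b4 * s.2 * t.2 * (s.1 * t.2 + t.1 * s.2) + c.b6 * s.2 ^ 2 * t.2 ^ 2
      - c.x * (s.1 * t.2 - t.1 * s.2) ^ 2,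
    (s.1 * t.2 - t.1 * s.2) ^ 2)

/-- The ladder: `lad c n = ((X_n, Z_n), (X_{n+1}, Z_{n+1}))`. -/
def lad (c : LadPar R) : ℕ → (R × R) × (R × R)
  | 0 => ((1, 0), (c.x, 1))
  | (n + 1) =>
    if (n + 1) % 2 = 0 then
      (dbl c (lad c ((n + 1) / 2)).1, dadd c (lad c ((n + 1) / 2)).2 (lad c ((n + 1) / 2)).1)
    else
      (dadd c (lad c ((n + 1) / 2)).2 (lad c ((n + 1) / 2)).1, dbl c (lad c ((n + 1) / 2)).2)
  decreasing_by all_goals omega

lemma lad_zero (c : LadPar R) : lad c 0 = ((1, 0), (c.x, 1)) := by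
  rw [lad]

lemma lad_two_mul (c : LadPar R) (n : ℕ) :
    lad c (2 * n) = (dbl c (lad c n).1, dadd c (lad c n).2 (lad c n).1) := by
  rcases n with _ | n
  · simp [lad_zero, dbl, dadd]
    ring
  · have h : 2 * (n + 1) = (2 * n + 1) + 1 := by ring
    rw [h, lad]
    have h1 : (2 * n + 1 + 1) % 2 = 0 := by omega
    have h2 : (2 * n + 1 + 1) / 2 = n + 1 := by omega
    rw [if_pos h1, h2]

lemma lad_two_mul_add_one (c : LadPar R) (n : ℕ) :
    lad c (2 * n + 1) = (dadd c (lad c n).2 (lad c n).1, dbl c (lad c n).2) := by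
  rw [lad]
  have h1 : ¬ (2 * n + 1) % 2 = 0 := by omega
  have h2 : (2 * n + 1) / 2 = n := by omega
  rw [if_neg h1, h2]

/-- induction principle along the ladder -/
lemma ladder_induction {motive : ℕ → Prop} (h0 : motive 0)
    (heven : ∀ n, motive n → motive (2 * n)) (hodd : ∀ n, motive n → motive (2 * n + 1))
    (n : ℕ) : motive n := by
  induction n using Nat.strong_induction_on with
  | _ n ih =>
    rcases n with _ | n
    · exact h0
    · rcases Nat.even_or_odd' (n + 1) with ⟨m, hm | hm⟩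
      · rw [hm]; exact heven m (ih m (by omega))
      · rw [hm]; exact hodd m (ih m (by omega))

end Defs

section Rep

variable {K : Type*} [Field K] {W : WeierstrassCurve.Affine K}

/-- ladder parameters attached to a curve and an `x`-coordinate -/
def par (W : WeierstrassCurve.Affine K) (x : K) : LadPar K := ⟨W.b₂, W.b₄, W.b₆, W.b₈, x⟩

/-- `s` is a projective representative of the `x`-coordinate of `Q`. -/
def Rep (Q : W.Point) (s : K × K) : Prop :=
  (Q = 0 ∧ s.2 = 0 ∧ s.1 ≠ 0) ∨ (Q ≠ 0 ∧ s.2 ≠ 0 ∧ s.1 = xc Q * s.2)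

lemma Rep.eq_zero_iff {Q : W.Point} {s : K × K} (h : Rep Q s) : Q = 0 ↔ s.2 = 0 := by
  rcases h with ⟨h1, h2, -⟩ | ⟨h1, h2, -⟩
  · simp [h1, h2]
  · simp [h1, h2]

variable [DecidableEq K]

lemma dblX_ne_zero_of_add_self_eq_zero {Q : W.Point} (hQ : Q ≠ 0) (h2 : Q + Q = 0) :
    (xc Q) ^ 4 - W.b₄ * (xc Q) ^ 2 - 2 * W.b₆ * xc Q - W.b₈ ≠ 0 := by
  have hψ := (add_self_eq_zero_iff hQ).1 h2
  have e1 := equation_xc_yc hQ
  have hns := nonsingular_xc_yc hQ
  rw [nonsingular_iff'] at hns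
  have hN : W.a₁ * yc Q - (3 * xc Q ^ 2 + 2 * W.a₂ * xc Q + W.a₄) ≠ 0 := by
    rcases hns.2 with h | h
    · exact h
    · exact absurd hψ h
  have key : (xc Q) ^ 4 - W.b₄ * (xc Q) ^ 2 - 2 * W.b₆ * xc Q - W.b₈
      = (W.a₁ * yc Q - (3 * xc Q ^ 2 + 2 * W.a₂ * xc Q + W.a₄)) ^ 2 := by
    simp only [b₄, b₆, b₈]
    grind
  rw [key]
  exact pow_ne_zero 2 hN

lemma rep_dbl (x : K) {Q : W.Point} {s : K × K} (h : Rep Q s) :
    Rep (Q + Q) (dbl (par W x) s) := by
  obtain ⟨s1, s2⟩ := s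
  rcases h with ⟨h1, h2, h3⟩ | ⟨h1, h2, h3⟩
  · left
    simp only at h2 h3
    subst h2
    refine ⟨by rw [h1, add_zero], by simp [dbl], ?_⟩
    simpa [dbl] using h3
  · simp only at h2 h3
    subst h3
    by_cases h : Q + Q = 0
    · left
      refine ⟨h, ?_, ?_⟩
      · have hψ := (add_self_eq_zero_iff h1).1 h
        have e := psi2_sq h1
        rw [hψ] at e
        simp only [dbl, par]
        linear_combination (-s2 ^ 4) * e
      · have := dblX_ne_zero_of_add_self_eq_zero h1 h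
        simp only [dbl, par]
        have e : (xc Q * s2) ^ 4 - W.b₄ * (xc Q * s2) ^ 2 * s2 ^ 2 - 2 * W.b₆ * (xc Q * s2) * s2 ^ 3
            - W.b₈ * s2 ^ 4 = ((xc Q) ^ 4 - W.b₄ * (xc Q) ^ 2 - 2 * W.b₆ * xc Q - W.b₈) * s2 ^ 4 := by
          ring
        rw [e]
        exact mul_ne_zero this (pow_ne_zero 4 h2)
    · right
      refine ⟨h, ?_, ?_⟩
      · have hψ : 2 * yc Q + W.a₁ * xc Q + W.a₃ ≠ 0 := fun h0 => h ((add_self_eq_zero_iff h1).2 h0)
        have e := psi2_sq h1
        simp only [dbl, par]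
        have e' : 4 * (xc Q * s2) ^ 3 * s2 + W.b₂ * (xc Q * s2) ^ 2 * s2 ^ 2
            + 2 * W.b₄ * (xc Q * s2) * s2 ^ 3 + W.b₆ * s2 ^ 4
            = (2 * yc Q + W.a₁ * xc Q + W.a₃) ^ 2 * s2 ^ 4 := by
          rw [e]; ring
        rw [e']
        exact mul_ne_zero (pow_ne_zero 2 hψ) (pow_ne_zero 4 h2)
      · have e := xc_dbl h1 h
        simp only [dbl, par]
        linear_combination (-s2 ^ 4) * e

lemma rep_dadd {A B P : W.Point} (hP : P ≠ 0) (hAB : A - B = P) {s t : K × K}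
    (hA : Rep A s) (hB : Rep B t) : Rep (A + B) (dadd (par W (xc P)) s t) := by
  obtain ⟨s1, s2⟩ := s
  obtain ⟨t1, t2⟩ := t
  rcases hA with ⟨a1, a2, a3⟩ | ⟨a1, a2, a3⟩ <;> rcases hB with ⟨b1, b2, b3⟩ | ⟨b1, b2, b3⟩ <;>
    simp only at a2 a3 b2 b3
  · exfalso
    apply hP
    rw [← hAB, a1, b1, sub_zero]
  · -- A = 0, B ≠ 0
    right
    subst a2 b3
    have hx : xc P = xc B := by rw [← hAB, a1, zero_sub, xc_neg]
    refine ⟨by rw [a1, zero_add]; exact b1, ?_, ?_⟩
    · simp only [dadd, par]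
      have : s1 * t2 - xc B * t2 * 0 = s1 * t2 := by ring
      rw [this]
      exact pow_ne_zero 2 (mul_ne_zero a3 b2)
    · simp only [dadd, par, hx, a1, zero_add]
      ring
  · -- A ≠ 0, B = 0
    right
    subst b2 a3
    have hx : xc P = xc A := by rw [← hAB, b1, sub_zero]
    refine ⟨by rw [b1, add_zero]; exact a1, ?_, ?_⟩
    · simp only [dadd, par]
      have : xc A * s2 * 0 - t1 * s2 = - (t1 * s2) := by ring
      rw [this]
      exact pow_ne_zero 2 (neg_ne_zero.2 (mul_ne_zero b3 a2))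
    · simp only [dadd, par, hx, b1, add_zero]
      ring
  · subst a3 b3
    by_cases hx : xc A = xc B
    · left
      have hAB' : A = -B := by
        rcases (xc_eq_iff a1 b1).1 hx with h | h
        · exfalso; apply hP; rw [← hAB, h, sub_self]
        · exact h
      have h2A : A + A ≠ 0 := by
        intro h
        apply hP
        rw [← hAB]
        have : B = -A := by rw [hAB', neg_neg]
        rw [this, sub_neg_eq_add, h]
      refine ⟨by rw [hAB', neg_add_cancel], ?_, ?_⟩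
      · simp only [dadd, par, hx]
        ring
      · have hψ : 2 * yc A + W.a₁ * xc A + W.a₃ ≠ 0 :=
          fun h0 => h2A ((add_self_eq_zero_iff a1).2 h0)
        have e := psi2_sq a1
        simp only [dadd, par, ← hx]
        have e' : 2 * (xc A * s2) * (xc A * t2) * (xc A * s2 * t2 + xc A * t2 * s2)
            + W.b₂ * (xc A * s2) * (xc A * t2) * s2 * t2
            + W.b₄ * s2 * t2 * (xc A * s2 * t2 + xc A * t2 * s2) + W.b₆ * s2 ^ 2 * t2 ^ 2
            - xc P * (xc A * s2 * t2 - xc A * t2 * s2) ^ 2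
            = (2 * yc A + W.a₁ * xc A + W.a₃) ^ 2 * (s2 ^ 2 * t2 ^ 2) := by
          rw [e]; ring
        rw [e']
        exact mul_ne_zero (pow_ne_zero 2 hψ) (mul_ne_zero (pow_ne_zero 2 a2) (pow_ne_zero 2 b2))
    · right
      have hne : A + B ≠ 0 := by
        intro h
        apply hx
        have : A = -B := eq_neg_of_add_eq_zero_left h
        rw [this, xc_neg]
      refine ⟨hne, ?_, ?_⟩
      · simp only [dadd, par]
        have : xc A * s2 * t2 - xc B * t2 * s2 = (xc A - xc B) * (s2 * t2) := by ring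
        rw [this]
        exact pow_ne_zero 2 (mul_ne_zero (sub_ne_zero.2 hx) (mul_ne_zero a2 b2))
      · have e := xc_add_add_xc_sub a1 b1 hx
        rw [hAB] at e
        simp only [dadd, par]
        linear_combination (-(s2 ^ 2 * t2 ^ 2)) * e

lemma rep_lad {P : W.Point} (hP : P ≠ 0) (n : ℕ) :
    Rep (n • P) (lad (par W (xc P)) n).1 ∧ Rep ((n + 1) • P) (lad (par W (xc P)) n).2 := by
  induction n using ladder_induction with
  | h0 =>
    rw [lad_zero]
    refine ⟨Or.inl ⟨by simp, rfl, one_ne_zero⟩, Or.inr ⟨by simpa using hP, one_ne_zero, ?_⟩⟩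
    simp [par]
  | heven n ih =>
    rw [lad_two_mul]
    refine ⟨?_, ?_⟩
    · have := rep_dbl (xc P) ih.1
      rwa [← two_nsmul, ← mul_nsmul'] at this
    · have := rep_dadd hP (A := (n + 1) • P) (B := n • P) (by rw [succ_nsmul]; abel) ih.2 ih.1
      have e : (n + 1) • P + n • P = (2 * n + 1) • P := by
        rw [← add_nsmul]; congr 1; ring
      rwa [e] at this
  | hodd n ih =>
    rw [lad_two_mul_add_one]
    refine ⟨?_, ?_⟩
    · have := rep_dadd hP (A := (n + 1) • P) (B := n • P) (by rw [succ_nsmul]; abel) ih.2 ih.1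
      have e : (n + 1) • P + n • P = (2 * n + 1) • P := by
        rw [← add_nsmul]; congr 1; ring
      rwa [e] at this
    · have := rep_dbl (xc P) ih.2
      have e : (n + 1) • P + (n + 1) • P = (2 * n + 1 + 1) • P := by
        rw [← add_nsmul]; congr 1; ring
      rwa [e] at this

end Rep

end Fermat.Agent.S13
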