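import Fermat.Agent.S13.Ladder

set_option autoImplicit false

namespace Fermat.Agent.S13

open Polynomial

section DL

variable {S : Type*} [CommRing S]

/-- `f` has degree at most `d` and its coefficient of degree `d` is `a`. -/
def DL (f : S[X]) (d : ℕ) (a : S) : Prop := f.natDegree ≤ d ∧ f.coeff d = a

lemma DL.mul {f g : S[X]} {d e : ℕ} {a b : S} (hf : DL f d a) (hg : DL g e b) :
    DL (f * g) (d + e) (a * b) :=
  ⟨natDegree_mul_le_of_le hf.1 hg.1, by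
    rw [coeff_mul_add_eq_of_natDegree_le hf.1 hg.1, hf.2, hg.2]⟩

lemma DL.add {f g : S[X]} {d : ℕ} {a b : S} (hf : DL f d a) (hg : DL g d b) :
    DL (f + g) d (a + b) :=
  ⟨natDegree_add_le_of_degree_le hf.1 hg.1, by rw [coeff_add, hf.2, hg.2]⟩

lemma DL.sub {f g : S[X]} {d : ℕ} {a b : S} (hf : DL f d a) (hg : DL g d b) :
    DL (f - g) d (a - b) :=
  ⟨(natDegree_sub_le_of_le hf.1 hg.1).trans (by simp), by rw [coeff_sub, hf.2, hg.2]⟩

lemma DL.pow {f : S[X]} {d : ℕ} {a : S} (hf : DL f d a) (k : ℕ) :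
    DL (f ^ k) (k * d) (a ^ k) := by
  induction k with
  | zero => simp [DL]
  | succ k ih =>
    rw [pow_succ, pow_succ, Nat.succ_mul]
    exact ih.mul hf

lemma DL.C_mul {f : S[X]} {d : ℕ} {a : S} (c : S) (hf : DL f d a) : DL (C c * f) d (c * a) :=
  ⟨(natDegree_C_mul_le c f).trans hf.1, by rw [coeff_C_mul, hf.2]⟩

lemma DL.of_lt {f : S[X]} {d e : ℕ} {a : S} (hf : DL f d a) (h : d < e) : DL f e 0 :=
  ⟨hf.1.trans h.le, coeff_eq_zero_of_natDegree_lt (lt_of_le_of_lt hf.1 h)⟩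

lemma DL.congr {f : S[X]} {d e : ℕ} {a b : S} (hf : DL f d a) (h : d = e) (h' : a = b) :
    DL f e b := by
  subst h h'; exact hf

lemma DL.X : DL (X : S[X]) 1 1 := ⟨natDegree_X_le, coeff_X_one⟩

lemma DL.one : DL (1 : S[X]) 0 1 := ⟨by simp, by simp⟩

/-- ladder parameters over the polynomial ring, the base `x`-coordinate being the variable -/
noncomputable def polyPar (b2 b4 b6 b8 : S) : LadPar S[X] := ⟨C b2, C b4, C b6, C b8, X⟩

lemma DL_dbl (b2 b4 b6 b8 : S) {P Z : S[X]} {m : ℕ} (hm : 1 ≤ m) {z : S}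
    (hX : DL P m 1) (hZ : DL Z (m - 1) z) :
    DL (dbl (polyPar b2 b4 b6 b8) (P, Z)).1 (4 * m) 1 ∧
      DL (dbl (polyPar b2 b4 b6 b8) (P, Z)).2 (4 * m - 1) (4 * z) := by
  constructor
  · have e : (dbl (polyPar b2 b4 b6 b8) (P, Z)).1
        = P ^ 4 - C b4 * (P ^ 2 * Z ^ 2) - C (2 * b6) * (P * Z ^ 3) - C b8 * Z ^ 4 := by
      simp only [dbl, polyPar, map_mul, map_ofNat]
      ring
    rw [e]
    have h1 : DL (P ^ 4) (4 * m) 1 := (hX.pow 4).congr rfl (by simp)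
    have h2 : DL (C b4 * (P ^ 2 * Z ^ 2)) (4 * m) 0 :=
      (((hX.pow 2).mul (hZ.pow 2)).C_mul b4).of_lt (by omega)
    have h3 : DL (C (2 * b6) * (P * Z ^ 3)) (4 * m) 0 :=
      ((hX.mul (hZ.pow 3)).C_mul _).of_lt (by omega)
    have h4 : DL (C b8 * Z ^ 4) (4 * m) 0 := ((hZ.pow 4).C_mul _).of_lt (by omega)
    exact (((h1.sub h2).sub h3).sub h4).congr rfl (by simp)
  · have e : (dbl (polyPar b2 b4 b6 b8) (P, Z)).2
        = C 4 * (P ^ 3 * Z) + C b2 * (P ^ 2 * Z ^ 2) + C (2 * b4) * (P * Z ^ 3) + C b6 * Z ^ 4 := by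
      simp only [dbl, polyPar, map_mul, map_ofNat]
      ring
    rw [e]
    have h1 : DL (C 4 * (P ^ 3 * Z)) (4 * m - 1) (4 * z) :=
      (((hX.pow 3).mul hZ).C_mul 4).congr (by omega) (by simp)
    have h2 : DL (C b2 * (P ^ 2 * Z ^ 2)) (4 * m - 1) 0 :=
      (((hX.pow 2).mul (hZ.pow 2)).C_mul b2).of_lt (by omega)
    have h3 : DL (C (2 * b4) * (P * Z ^ 3)) (4 * m - 1) 0 :=
      ((hX.mul (hZ.pow 3)).C_mul _).of_lt (by omega)
    have h4 : DL (C b6 * Z ^ 4) (4 * m - 1) 0 := ((hZ.pow 4).C_mul _).of_lt (by omega)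
    exact (((h1.add h2).add h3).add h4).congr rfl (by simp)

lemma DL_cross {P1 Z1 P2 Z2 : S[X]} {m1 m2 : ℕ} (hm1 : 1 ≤ m1) (hm2 : 1 ≤ m2) {z1 z2 : S}
    (hX1 : DL P1 m1 1) (hZ1 : DL Z1 (m1 - 1) z1) (hX2 : DL P2 m2 1) (hZ2 : DL Z2 (m2 - 1) z2) :
    DL (P1 * Z2 - P2 * Z1) (m1 + m2 - 1) (z2 - z1) :=
  ((hX1.mul hZ2).congr (by omega) (by simp)).sub ((hX2.mul hZ1).congr (by omega) (by simp))

lemma DL_dadd (b2 b4 b6 b8 : S) {P1 Z1 P2 Z2 : S[X]} {m1 m2 : ℕ} (hm1 : 1 ≤ m1) (hm2 : 1 ≤ m2)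
    {z1 z2 : S}
    (hX1 : DL P1 m1 1) (hZ1 : DL Z1 (m1 - 1) z1) (hX2 : DL P2 m2 1) (hZ2 : DL Z2 (m2 - 1) z2) :
    DL (dadd (polyPar b2 b4 b6 b8) (P1, Z1) (P2, Z2)).1 (2 * m1 + 2 * m2 - 1)
        (2 * (z1 + z2) - (z2 - z1) ^ 2) ∧
      DL (dadd (polyPar b2 b4 b6 b8) (P1, Z1) (P2, Z2)).2 (2 * m1 + 2 * m2 - 2)
        ((z2 - z1) ^ 2) := by
  have hc := DL_cross hm1 hm2 hX1 hZ1 hX2 hZ2
  have hs : DL (P1 * Z2 + P2 * Z1) (m1 + m2 - 1) (z2 + z1) :=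
    ((hX1.mul hZ2).congr (by omega) (by simp)).add ((hX2.mul hZ1).congr (by omega) (by simp))
  constructor
  · have e : (dadd (polyPar b2 b4 b6 b8) (P1, Z1) (P2, Z2)).1
        = C 2 * (P1 * P2 * (P1 * Z2 + P2 * Z1)) + C b2 * (P1 * P2 * (Z1 * Z2))
          + C b4 * (Z1 * Z2 * (P1 * Z2 + P2 * Z1)) + C b6 * (Z1 ^ 2 * Z2 ^ 2)
          - X * (P1 * Z2 - P2 * Z1) ^ 2 := by
      simp only [dadd, polyPar, map_ofNat]
      ring
    rw [e]
    have h1 : DL (C 2 * (P1 * P2 * (P1 * Z2 + P2 * Z1))) (2 * m1 + 2 * m2 - 1) (2 * (z1 + z2)) :=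
      (((hX1.mul hX2).mul hs).C_mul 2).congr (by omega) (by ring)
    have h2 : DL (C b2 * (P1 * P2 * (Z1 * Z2))) (2 * m1 + 2 * m2 - 1) 0 :=
      (((hX1.mul hX2).mul (hZ1.mul hZ2)).C_mul b2).of_lt (by omega)
    have h3 : DL (C b4 * (Z1 * Z2 * (P1 * Z2 + P2 * Z1))) (2 * m1 + 2 * m2 - 1) 0 :=
      (((hZ1.mul hZ2).mul hs).C_mul b4).of_lt (by omega)
    have h4 : DL (C b6 * (Z1 ^ 2 * Z2 ^ 2)) (2 * m1 + 2 * m2 - 1) 0 :=
      (((hZ1.pow 2).mul (hZ2.pow 2)).C_mul b6).of_lt (by omega)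
    have h5 : DL (X * (P1 * Z2 - P2 * Z1) ^ 2) (2 * m1 + 2 * m2 - 1) ((z2 - z1) ^ 2) :=
      (DL.X.mul (hc.pow 2)).congr (by omega) (by simp)
    exact ((((h1.add h2).add h3).add h4).sub h5).congr rfl (by simp)
  · exact (hc.pow 2).congr (by omega) rfl

lemma lad_one {R : Type*} [CommRing R] (c : LadPar R) : lad c 1 = ((c.x, 1), dbl c (c.x, 1)) := by
  have h := lad_two_mul_add_one c 0
  rw [lad_zero] at h
  simp only [Nat.mul_zero, Nat.zero_add] at h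
  rw [h]
  simp only [dadd, Prod.mk.injEq, and_true]
  constructor <;> ring

lemma ladder_induction_pos {motive : ℕ → Prop} (h1 : motive 1)
    (heven : ∀ n, 1 ≤ n → motive n → motive (2 * n))
    (hodd : ∀ n, 1 ≤ n → motive n → motive (2 * n + 1))
    (n : ℕ) (hn : 1 ≤ n) : motive n := by
  induction n using Nat.strong_induction_on with
  | _ n ih =>
    rcases Nat.even_or_odd' n with ⟨m, hm | hm⟩
    · rw [hm]; exact heven m (by omega) (ih m (by omega) (by omega))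
    · rcases m with _ | m
      · rw [hm]; exact h1
      · rw [hm]; exact hodd (m + 1) (by omega) (ih (m + 1) (by omega) (by omega))

/-- degree and leading coefficient invariants of the polynomial ladder -/
def LadInv (b2 b4 b6 b8 : S) (n : ℕ) : Prop :=
  DL (lad (polyPar b2 b4 b6 b8) n).1.1 (n ^ 2) 1 ∧
  DL (lad (polyPar b2 b4 b6 b8) n).1.2 (n ^ 2 - 1) ((n : S) ^ 2) ∧
  DL (lad (polyPar b2 b4 b6 b8) n).2.1 ((n + 1) ^ 2) 1 ∧
  DL (lad (polyPar b2 b4 b6 b8) n).2.2 ((n + 1) ^ 2 - 1) (((n : S) + 1) ^ 2)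

lemma ladInv (b2 b4 b6 b8 : S) (n : ℕ) (hn : 1 ≤ n) : LadInv b2 b4 b6 b8 n := by
  refine ladder_induction_pos (motive := LadInv b2 b4 b6 b8) ?_ ?_ ?_ n hn
  · unfold LadInv
    rw [lad_one]
    have h := DL_dbl b2 b4 b6 b8 (P := X) (Z := 1) (m := 1) le_rfl (z := 1) DL.X DL.one
    refine ⟨DL.X, DL.one.congr rfl (by simp), h.1, h.2.congr rfl (by norm_num)⟩
  · intro n hn ih
    obtain ⟨i1, i2, i3, i4⟩ := ih
    have hm : 1 ≤ n ^ 2 := Nat.one_le_pow _ _ hn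
    have hm' : 1 ≤ (n + 1) ^ 2 := Nat.one_le_pow _ _ (by omega)
    have e1 : (2 * n) ^ 2 = 4 * n ^ 2 := by ring
    have e2 : (2 * n + 1) ^ 2 = 4 * n ^ 2 + 4 * n + 1 := by ring
    have e3 : (n + 1) ^ 2 = n ^ 2 + 2 * n + 1 := by ring
    unfold LadInv
    rw [lad_two_mul]
    have hd := DL_dbl b2 b4 b6 b8 hm i1 i2
    have ha := DL_dadd b2 b4 b6 b8 hm' hm i3 i4 i1 i2
    refine ⟨hd.1.congr (by omega) rfl, hd.2.congr (by omega) (by push_cast; ring),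
      ha.1.congr (by omega) (by ring), ha.2.congr (by omega) (by push_cast; ring)⟩
  · intro n hn ih
    obtain ⟨i1, i2, i3, i4⟩ := ih
    have hm : 1 ≤ n ^ 2 := Nat.one_le_pow _ _ hn
    have hm' : 1 ≤ (n + 1) ^ 2 := Nat.one_le_pow _ _ (by omega)
    have e1 : (2 * n + 1 + 1) ^ 2 = 4 * n ^ 2 + 8 * n + 4 := by ring
    have e2 : (2 * n + 1) ^ 2 = 4 * n ^ 2 + 4 * n + 1 := by ring
    have e3 : (n + 1) ^ 2 = n ^ 2 + 2 * n + 1 := by ring
    unfold LadInv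
    rw [lad_two_mul_add_one]
    have hd := DL_dbl b2 b4 b6 b8 hm' i3 i4
    have ha := DL_dadd b2 b4 b6 b8 hm' hm i3 i4 i1 i2
    refine ⟨ha.1.congr (by omega) (by ring), ha.2.congr (by omega) (by push_cast; ring),
      hd.1.congr (by omega) rfl, hd.2.congr (by omega) (by push_cast; ring)⟩

/-- The polynomial whose roots are the `x`-coordinates of the nonzero `(2n+1)`-torsion points. -/
noncomputable def torsPoly (b2 b4 b6 b8 : S) (n : ℕ) : S[X] :=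
  (lad (polyPar b2 b4 b6 b8) n).2.1 * (lad (polyPar b2 b4 b6 b8) n).1.2
    - (lad (polyPar b2 b4 b6 b8) n).1.1 * (lad (polyPar b2 b4 b6 b8) n).2.2

lemma DL_torsPoly (b2 b4 b6 b8 : S) (n : ℕ) (hn : 1 ≤ n) :
    DL (torsPoly b2 b4 b6 b8 n) (2 * n ^ 2 + 2 * n) (-(2 * (n : S) + 1)) := by
  obtain ⟨i1, i2, i3, i4⟩ := ladInv b2 b4 b6 b8 n hn
  have hm : 1 ≤ n ^ 2 := Nat.one_le_pow _ _ hn
  have hm' : 1 ≤ (n + 1) ^ 2 := Nat.one_le_pow _ _ (by omega)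
  have e3 : (n + 1) ^ 2 = n ^ 2 + 2 * n + 1 := by ring
  exact (DL_cross hm' hm i3 i4 i1 i2).congr (by omega) (by ring)

end DL

end Fermat.Agent.S13
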