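import Fermat.Agent.S13.Ladder
import Fermat.Agent.S13.LadderDeg

set_option autoImplicit false

namespace Fermat.Agent.S13

open Polynomial WeierstrassCurve WeierstrassCurve.Affine WeierstrassCurve.Affine.Point
open Fermat.Agent.S05

section Map

variable {R R' : Type*} [CommRing R] [CommRing R']

/-- image of ladder parameters under a ring homomorphism -/
def LadPar.map (f : R →+* R') (c : LadPar R) : LadPar R' :=
  ⟨f c.b2, f c.b4, f c.b6, f c.b8, f c.x⟩

lemma dbl_map (f : R →+* R') (c : LadPar R) (s : R × R) :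
    dbl (c.map f) (Prod.map f f s) = Prod.map f f (dbl c s) := by
  simp [dbl, LadPar.map, Prod.map, map_ofNat]

lemma dadd_map (f : R →+* R') (c : LadPar R) (s t : R × R) :
    dadd (c.map f) (Prod.map f f s) (Prod.map f f t) = Prod.map f f (dadd c s t) := by
  simp [dadd, LadPar.map, Prod.map, map_ofNat]

lemma lad_map (f : R →+* R') (c : LadPar R) (n : ℕ) :
    lad (c.map f) n = Prod.map (Prod.map f f) (Prod.map f f) (lad c n) := by
  induction n using ladder_induction with
  | h0 => simp [lad_zero, LadPar.map]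
  | heven n ih =>
    rw [lad_two_mul, lad_two_mul, ih]
    simp only [Prod.map_fst, Prod.map_snd, dbl_map, dadd_map, Prod.map_apply]
  | hodd n ih =>
    rw [lad_two_mul_add_one, lad_two_mul_add_one, ih]
    simp only [Prod.map_fst, Prod.map_snd, dbl_map, dadd_map, Prod.map_apply]

lemma polyPar_map_eval (b2 b4 b6 b8 x : R) :
    (polyPar b2 b4 b6 b8).map (evalRingHom x) = ⟨b2, b4, b6, b8, x⟩ := by
  simp [polyPar, LadPar.map]

lemma polyPar_map_map (f : R →+* R') (b2 b4 b6 b8 : R) :
    (polyPar b2 b4 b6 b8).map (mapRingHom f) = polyPar (f b2) (f b4) (f b6) (f b8) := by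
  simp [polyPar, LadPar.map]

lemma torsPoly_map (f : R →+* R') (b2 b4 b6 b8 : R) (n : ℕ) :
    (torsPoly b2 b4 b6 b8 n).map f = torsPoly (f b2) (f b4) (f b6) (f b8) n := by
  unfold torsPoly
  rw [← polyPar_map_map, lad_map]
  simp

end Map

section Link

variable {K : Type*} [Field K] [DecidableEq K] {W : WeierstrassCurve.Affine K}

theorem odd_nsmul_eq_zero_iff {P : W.Point} (hP : P ≠ 0) (n : ℕ) :
    (2 * n + 1) • P = 0 ↔ (torsPoly W.b₂ W.b₄ W.b₆ W.b₈ n).eval (xc P) = 0 := by
  have h := (rep_lad hP (2 * n + 1)).1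
  rw [h.eq_zero_iff, lad_two_mul_add_one]
  have e : par W (xc P) = (polyPar W.b₂ W.b₄ W.b₆ W.b₈).map (evalRingHom (xc P)) := by
    rw [polyPar_map_eval]; rfl
  rw [e, lad_map]
  simp only [dadd, Prod.map_fst, Prod.map_snd, torsPoly, eval_sub, eval_mul,
    coe_evalRingHom]
  exact pow_eq_zero_iff (two_ne_zero)

end Link

end Fermat.Agent.S13
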